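import Fermat.Agent.P2.AR.FrobCls
import Fermat.Agent.P2.Defs

/-!
# `clT K ℓ` in terms of Frobenius elements
-/

set_option autoImplicit false
set_option linter.unusedSectionVars false

open NumberField IsDedekindDomain
open Fermat.Agent.FrobExists Fermat.Agent.FrobPlaceLift Fermat.Agent.DedekindEuler
  Fermat.Agent.FrobDensity Fermat.Agent.CFT.W
open scoped Pointwise nonZeroDivisors

namespace Fermat.Agent.P2.AR

local notation "Ω" => AlgebraicClosure ℚ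
local notation "GQ" => (AlgebraicClosure ℚ ≃ₐ[ℚ] AlgebraicClosure ℚ)

section Ideals

variable {K : Type} [Field K] [NumberField K]

theorem exists_nat_sub_mem {𝔭 : Ideal (𝓞 K)} {ℓ : ℕ} (hℓ : ℓ.Prime)
    (h : Ideal.absNorm 𝔭 = ℓ) (x : 𝓞 K) : ∃ n : ℕ, x - n ∈ 𝔭 := by
  classical
  have h0 : 𝔭 ≠ ⊥ := by
    rintro rfl
    rw [Ideal.absNorm_bot] at h
    exact hℓ.ne_zero h.symm
  have hfin : Finite (𝓞 K ⧸ 𝔭) := Ideal.finiteQuotientOfFreeOfNeBot _ h0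
  let _ : Fintype (𝓞 K ⧸ 𝔭) := Fintype.ofFinite _
  have hcard : Fintype.card (𝓞 K ⧸ 𝔭) = ℓ := by
    rw [← h, Ideal.absNorm_apply, Submodule.cardQuot_apply, Nat.card_eq_fintype_card]
  let e := ZMod.ringEquivOfPrime (𝓞 K ⧸ 𝔭) hℓ hcard
  have : NeZero ℓ := ⟨hℓ.ne_zero⟩
  obtain ⟨z, hz⟩ := e.surjective (Ideal.Quotient.mk 𝔭 x)
  refine ⟨z.val, ?_⟩
  rw [← Ideal.Quotient.eq, ← hz]
  conv_lhs => rw [← ZMod.natCast_zmod_val z]
  rw [map_natCast, map_natCast]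

theorem absNorm_span_nat (ℓ : ℕ) (hK : Module.finrank ℚ K = 2) :
    Ideal.absNorm (Ideal.span {(ℓ : 𝓞 K)}) = ℓ ^ 2 := by
  have h1 : ((ℓ : ℕ) : 𝓞 K) = algebraMap ℤ (𝓞 K) (ℓ : ℤ) := by simp
  rw [Ideal.absNorm_span_singleton, h1, Algebra.norm_algebraMap, RingOfIntegers.rank, hK,
    Int.natAbs_pow, Int.natAbs_natCast]

theorem natCast_mem_of_absNorm {𝔮 : Ideal (𝓞 K)} {ℓ : ℕ} (h : Ideal.absNorm 𝔮 = ℓ) :
    (ℓ : 𝓞 K) ∈ 𝔮 := by
  rw [← h]
  exact Ideal.absNorm_mem 𝔮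

theorem isPrime_of_absNorm {𝔮 : Ideal (𝓞 K)} {ℓ : ℕ} (hℓ : ℓ.Prime) (h : Ideal.absNorm 𝔮 = ℓ) :
    𝔮.IsPrime :=
  Ideal.isPrime_of_irreducible_absNorm (by rw [h]; exact hℓ)

theorem ne_bot_of_absNorm {𝔮 : Ideal (𝓞 K)} {ℓ : ℕ} (hℓ : ℓ.Prime) (h : Ideal.absNorm 𝔮 = ℓ) :
    𝔮 ≠ ⊥ := by
  rintro rfl
  rw [Ideal.absNorm_bot] at h
  exact hℓ.ne_zero h.symm

end Ideals

section Frob

variable {K : IntermediateField ℚ Ω} [NumberField K] {ℓ : ℕ}

/-- Elements of the Galois group acting trivially modulo `P` on `𝓞 K` fix `K` if `ℓ` is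
unramified in `K`. -/
theorem mem_fixingSubgroup_of_sub_mem (hℓ : ℓ.Prime)
    {P : ValuationSubring Ω} (hP : P.LiesOverPrime ℓ)
    (hur : ∀ g ∈ P.inertiaSubgroupIn ℚ, g ∈ K.fixingSubgroup) {c : GQ}
    (hc : ∀ x : 𝓞 K, c ((x : K) : Ω) - ((x : K) : Ω) ∈ P.nonunits) : c ∈ K.fixingSubgroup := by
  obtain ⟨σ, hσ, hσc⟩ :=
    Fermat.Agent.FlatOrd.InertiaLift.exists_mul_mem_inertia_of_intermediateField K P hℓ hP c (by
      intro x hx
      have hint : IsIntegral ℤ (⟨(x : Ω), hx⟩ : K) := by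
        have h1 : IsIntegral ℤ (algebraMap K Ω ⟨(x : Ω), hx⟩) := x.2
        exact (isIntegral_algebraMap_iff (algebraMap K Ω).injective).mp h1
      rw [mem_center]
      exact hc ⟨⟨(x : Ω), hx⟩, hint⟩)
  rw [IntermediateField.mem_fixingSubgroup_iff]
  intro x hx
  rw [← hσc x hx]
  exact (IntermediateField.mem_fixingSubgroup_iff K _).mp (hur σ hσ) x hx

theorem nonunits_sub {P : ValuationSubring Ω} {a b : Ω} (ha : a ∈ P.nonunits)
    (hb : b ∈ P.nonunits) : a - b ∈ P.nonunits := by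
  rw [ValuationSubring.mem_nonunits_iff] at ha hb ⊢
  exact Valuation.map_sub_lt _ ha hb

theorem nonunits_add {P : ValuationSubring Ω} {a b : Ω} (ha : a ∈ P.nonunits)
    (hb : b ∈ P.nonunits) : a + b ∈ P.nonunits := by
  rw [ValuationSubring.mem_nonunits_iff] at ha hb ⊢
  exact Valuation.map_add_lt _ ha hb

theorem mem_nonunits_smul {P : ValuationSubring Ω} (c : GQ) {x : Ω} :
    x ∈ (c⁻¹ • P).nonunits ↔ c x ∈ P.nonunits := by
  rw [ValuationSubring.mem_nonunits_iff_or, ValuationSubring.mem_nonunits_iff_or, mem_smul_iff]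
  have h1 : (c⁻¹)⁻¹ • x⁻¹ = (c x)⁻¹ := by
    rw [inv_inv]
    exact map_inv₀ (c : Ω ≃ₐ[ℚ] Ω) _
  rw [h1, map_eq_zero]

theorem exists_notMem_fixingSubgroup (hK : Module.finrank ℚ K = 2) :
    ∃ c : GQ, c ∉ K.fixingSubgroup := by
  by_contra h
  push Not at h
  have h1 : K.fixingSubgroup = ⊤ := eq_top_iff.mpr fun g _ => h g
  have h2 : K = ⊥ := by
    rw [← InfiniteGalois.fixedField_fixingSubgroup K, h1]
    exact InfiniteGalois.fixedField_bot
  rw [h2, IntermediateField.finrank_bot] at hK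
  omega

variable (hK : Module.finrank ℚ K = 2) (hℓ : ℓ.Prime) {P : ValuationSubring Ω}
  (hP : P.LiesOverPrime ℓ) (hur : ∀ g ∈ P.inertiaSubgroupIn ℚ, g ∈ K.fixingSubgroup)
  {φ : GQ} (hφ : P.IsFrobeniusAt φ ℓ)

include hK hℓ hP hur

/-- the factorisation of `ℓ` in the split case -/
theorem exists_factor_split (hφ : P.IsFrobeniusAt φ ℓ) (hφK : φ ∈ K.fixingSubgroup) :
    ∃ 𝔟 : Ideal (𝓞 K), Ideal.absNorm 𝔟 = ℓ ∧ Ideal.span {(ℓ : 𝓞 K)} = centerOn K P * 𝔟 ∧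
      𝔟 ≠ centerOn K P := by
  have h1 : Ideal.absNorm (centerOn K P) = ℓ := absNorm_centerOn hℓ hP (φ := ⟨φ, hφK⟩) hφ
  obtain ⟨𝔟, hb⟩ : centerOn K P ∣ Ideal.span {(ℓ : 𝓞 K)} := by
    rw [Ideal.dvd_span_singleton]
    exact natCast_mem_centerOn K hP
  refine ⟨𝔟, ?_, hb, ?_⟩
  · have h2 := absNorm_span_nat (K := K) ℓ hK
    rw [hb, map_mul, h1, pow_two] at h2
    exact Nat.eq_of_mul_eq_mul_left hℓ.pos h2
  · rintro rfl
    obtain ⟨c, hc⟩ := exists_notMem_fixingSubgroup hK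
    apply hc
    refine mem_fixingSubgroup_of_sub_mem hℓ hP hur fun x => ?_
    have hcP : (c⁻¹ • P).LiesOverPrime ℓ := smul_liesOverPrime c⁻¹ P hP
    have hle : centerOn K P ≤ centerOn K (c⁻¹ • P) := by
      have h2 : centerOn K P * centerOn K P ≤ centerOn K (c⁻¹ • P) := by
        rw [← hb, Ideal.span_singleton_le_iff_mem]
        exact natCast_mem_centerOn K hcP
      rcases (Ideal.IsPrime.mul_le inferInstance).mp h2 with h3 | h3 <;> exact h3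
    obtain ⟨n, hn⟩ := exists_nat_sub_mem hℓ h1 x
    have h2 := hle hn
    rw [mem_centerOn, mem_nonunits_smul] at h2
    rw [mem_centerOn] at hn
    have h3 := nonunits_sub h2 hn
    have h4 : (((x - (n : 𝓞 K) : 𝓞 K) : K) : Ω) = ((x : K) : Ω) - (n : Ω) := by
      let f : 𝓞 K →+* Ω := (algebraMap K Ω).comp (algebraMap (𝓞 K) K)
      have h5 : f (x - (n : 𝓞 K)) = f x - (n : Ω) := by
        rw [map_sub, map_natCast]
      exact h5
    rw [h4, map_sub, map_natCast, sub_sub_sub_cancel_right] at h3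
    exact h3

/-- **Split primes.** -/
theorem clT_of_mem (hφ : P.IsFrobeniusAt φ ℓ) (hφK : φ ∈ K.fixingSubgroup) :
    clT K ℓ = MonoidAlgebra.single (clsAt K P) 1 + MonoidAlgebra.single (clsAt K P)⁻¹ 1 := by
  classical
  obtain ⟨𝔟, hbN, hb, hne⟩ := exists_factor_split hK hℓ hP hur hφ hφK
  have h1 : Ideal.absNorm (centerOn K P) = ℓ := absNorm_centerOn hℓ hP (φ := ⟨φ, hφK⟩) hφ
  have hp0 := centerOn_ne_bot K hℓ hP
  have hb0 := ne_bot_of_absNorm hℓ hbN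
  let a : {𝔭 : (Ideal (𝓞 K))⁰ // Ideal.absNorm (𝔭 : Ideal (𝓞 K)) = ℓ} :=
    ⟨⟨centerOn K P, mem_nonZeroDivisors_of_ne_zero hp0⟩, h1⟩
  let b : {𝔭 : (Ideal (𝓞 K))⁰ // Ideal.absNorm (𝔭 : Ideal (𝓞 K)) = ℓ} :=
    ⟨⟨𝔟, mem_nonZeroDivisors_of_ne_zero hb0⟩, hbN⟩
  have hab : a ≠ b := by
    intro h
    exact hne (congrArg (fun z => ((z.1 : (Ideal (𝓞 K))⁰) : Ideal (𝓞 K))) h).symm
  have hall : ∀ z : {𝔭 : (Ideal (𝓞 K))⁰ // Ideal.absNorm (𝔭 : Ideal (𝓞 K)) = ℓ},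
      z = a ∨ z = b := by
    rintro ⟨⟨𝔮, hq0⟩, hq⟩
    have hqp := isPrime_of_absNorm hℓ hq
    have hqm : 𝔮.IsMaximal := hqp.isMaximal (nonZeroDivisors.ne_zero hq0)
    have hpp : (centerOn K P).IsPrime := inferInstance
    have hpm : (centerOn K P).IsMaximal := hpp.isMaximal hp0
    have hbp := isPrime_of_absNorm hℓ hbN
    have hbm : 𝔟.IsMaximal := hbp.isMaximal hb0
    have h2 : centerOn K P * 𝔟 ≤ 𝔮 := by
      rw [← hb, Ideal.span_singleton_le_iff_mem]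
      exact natCast_mem_of_absNorm hq
    rcases (Ideal.IsPrime.mul_le hqp).mp h2 with h3 | h3
    · left
      exact Subtype.ext (Subtype.ext (hpm.eq_of_le hqp.ne_top h3).symm)
    · right
      exact Subtype.ext (Subtype.ext (hbm.eq_of_le hqp.ne_top h3).symm)
  unfold clT
  rw [finsum_eq_sum_of_support_subset (s := {a, b}) _ (fun z _ => by
    rw [Finset.coe_insert, Finset.coe_singleton]
    exact hall z), Finset.sum_pair hab]
  have h3 : ClassGroup.mk0 a.1 = clsAt K P := (clsAt_eq K hℓ hP).symm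
  have h4 : ClassGroup.mk0 b.1 = (clsAt K P)⁻¹ := by
    rw [← h3, eq_inv_iff_mul_eq_one, mul_comm, ← map_mul, ClassGroup.mk0_eq_one_iff]
    refine ⟨⟨(ℓ : 𝓞 K), ?_⟩⟩
    exact hb.symm
  rw [h3, h4]

/-- **Inert primes.** -/
theorem clT_of_notMem (hφ : P.IsFrobeniusAt φ ℓ) (hφK : φ ∉ K.fixingSubgroup) :
    clT K ℓ = 0 := by
  classical
  have hp0 := centerOn_ne_bot K hℓ hP
  have hpp : (centerOn K P).IsPrime := inferInstance
  have hpm : (centerOn K P).IsMaximal := hpp.isMaximal hp0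
  have h1 : Ideal.absNorm (centerOn K P) ≠ ℓ := by
    intro h1
    apply hφK
    refine mem_fixingSubgroup_of_sub_mem hℓ hP hur fun x => ?_
    have hfin : Finite (𝓞 K ⧸ centerOn K P) := Ideal.finiteQuotientOfFreeOfNeBot _ hp0
    let _ : Field (𝓞 K ⧸ centerOn K P) := Ideal.Quotient.field _
    let _ : Fintype (𝓞 K ⧸ centerOn K P) := Fintype.ofFinite _
    have hcard : Fintype.card (𝓞 K ⧸ centerOn K P) = ℓ := by
      rw [← h1, Ideal.absNorm_apply, Submodule.cardQuot_apply, Nat.card_eq_fintype_card]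
    have h2 : x ^ ℓ - x ∈ centerOn K P := by
      rw [← Ideal.Quotient.eq, map_pow]
      have h3 := FiniteField.pow_card (Ideal.Quotient.mk (centerOn K P) x)
      rwa [hcard] at h3
    rw [mem_centerOn] at h2
    have h3 := pow_sub_mem_nonunits hφ 1
      ((RingOfIntegers.isIntegral_coe x).map ((algebraMap K Ω).toIntAlgHom))
    have h4 := nonunits_add h3 h2
    rw [pow_one, pow_one] at h4
    have h5 : (((x ^ ℓ - x : 𝓞 K) : K) : Ω) = ((x : K) : Ω) ^ ℓ - ((x : K) : Ω) := rfl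
    rw [h5] at h4
    have h6 : φ ((x : K) : Ω) - ((x : K) : Ω) =
        φ ((algebraMap K Ω).toIntAlgHom ((algebraMap (𝓞 K) K) x)) -
          (algebraMap K Ω).toIntAlgHom ((algebraMap (𝓞 K) K) x) ^ ℓ +
          (((x : K) : Ω) ^ ℓ - ((x : K) : Ω)) := by
      show φ ((x : K) : Ω) - ((x : K) : Ω) = φ ((x : K) : Ω) - ((x : K) : Ω) ^ ℓ +
          (((x : K) : Ω) ^ ℓ - ((x : K) : Ω))
      ring
    rw [h6]
    exact h4
  obtain ⟨𝔟, hb⟩ : centerOn K P ∣ Ideal.span {(ℓ : 𝓞 K)} := by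
    rw [Ideal.dvd_span_singleton]
    exact natCast_mem_centerOn K hP
  have h2 := absNorm_span_nat (K := K) ℓ hK
  rw [hb, map_mul] at h2
  have h3 : Ideal.absNorm 𝔟 = 1 := by
    obtain ⟨j, hj, hj'⟩ := (Nat.dvd_prime_pow hℓ).mp (Dvd.intro _ h2)
    interval_cases j
    · rw [pow_zero, Ideal.absNorm_eq_one_iff] at hj'
      exact absurd hj' hpp.ne_top
    · rw [pow_one] at hj'
      exact absurd hj' h1
    · rw [hj'] at h2
      exact Nat.eq_of_mul_eq_mul_left (pow_pos hℓ.pos 2) (h2.trans (mul_one _).symm)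
  rw [Ideal.absNorm_eq_one_iff] at h3
  rw [h3, Ideal.mul_top] at hb
  have hempty : IsEmpty {𝔭 : (Ideal (𝓞 K))⁰ // Ideal.absNorm (𝔭 : Ideal (𝓞 K)) = ℓ} := by
    constructor
    rintro ⟨⟨𝔮, hq0⟩, hq⟩
    have hqp := isPrime_of_absNorm hℓ hq
    have h4 : centerOn K P ≤ 𝔮 := by
      rw [← hb, Ideal.span_singleton_le_iff_mem]
      exact natCast_mem_of_absNorm hq
    have h5 := hpm.eq_of_le hqp.ne_top h4
    rw [← h5] at hq
    exact h1 hq
  unfold clT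
  exact finsum_of_isEmpty _

end Frob

end Fermat.Agent.P2.AR
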