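import Fermat.Agent.Density.RayClassL
import Fermat.Agent.Density.EulerIdeal
import Fermat.Agent.FrobeniusDensityNF

/-!
# Upper bounds for the density of primes in a subgroup of the class group

* `exists_bound_class` : `∑_{[P] ∈ U} N P ^ (-s) ≤ (1 / [Cl : U]) log (1 / (s - 1)) + C` near `1`;
* `exists_good_prime_notMem` : if `∑ 1 / [Cl : U i] < 1` there is a prime of degree one whose
  class is in none of the `U i`.
-/

set_option autoImplicit false

open NumberField IsDedekindDomain Filter Topology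
open Fermat.Agent.Density Fermat.Agent.Density.EulerIdeal Fermat.Agent.Density.RayClassL
  Fermat.Agent.DedekindEuler Fermat.Agent.FrobDensity

namespace Fermat.Agent.P2.AR

variable {K : Type*} [Field K] [NumberField K]

/-- the class of a prime -/
noncomputable def cls (P : HeightOneSpectrum (𝓞 K)) : ClassGroup (𝓞 K) :=
  ClassGroup.mk0 ⟨P.asIdeal, mem_nonZeroDivisors_of_ne_zero P.ne_bot⟩

open Classical in
/-- a class group character as a function on ideals -/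
noncomputable def psi (η : ClassGroup (𝓞 K) →* ℂˣ) : Ideal (𝓞 K) →*₀ ℂ where
  toFun I := if h : I = 0 then 0 else
    (η (ClassGroup.mk0 ⟨I, mem_nonZeroDivisors_of_ne_zero h⟩) : ℂ)
  map_zero' := by rw [dif_pos rfl]
  map_one' := by
    rw [dif_neg one_ne_zero]
    have h : ClassGroup.mk0 (⟨1, mem_nonZeroDivisors_of_ne_zero one_ne_zero⟩ :
      nonZeroDivisors (Ideal (𝓞 K))) = 1 := map_one _
    rw [h, map_one, Units.val_one]
  map_mul' I J := by
    by_cases hI : I = 0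
    · rw [hI, zero_mul, dif_pos rfl, zero_mul]
    by_cases hJ : J = 0
    · rw [hJ, mul_zero, dif_pos rfl, mul_zero]
    rw [dif_neg hI, dif_neg hJ, dif_neg (mul_ne_zero hI hJ), ← Units.val_mul, ← map_mul,
      ← map_mul]
    rfl

theorem psi_apply (η : ClassGroup (𝓞 K) →* ℂˣ) {I : Ideal (𝓞 K)} (h : I ≠ 0) :
    psi η I = (η (ClassGroup.mk0 ⟨I, mem_nonZeroDivisors_of_ne_zero h⟩) : ℂ) := dif_neg h

theorem psi_prime (η : ClassGroup (𝓞 K) →* ℂˣ) (P : HeightOneSpectrum (𝓞 K)) :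
    psi η P.asIdeal = (η (cls P) : ℂ) := psi_apply η P.ne_bot

theorem norm_char (η : ClassGroup (𝓞 K) →* ℂˣ) (c : ClassGroup (𝓞 K)) : ‖(η c : ℂ)‖ = 1 := by
  have h1 : (η c : ℂ) ^ Fintype.card (ClassGroup (𝓞 K)) = 1 := by
    rw [← Units.val_pow_eq_pow_val, ← map_pow, pow_card_eq_one, map_one, Units.val_one]
  exact Complex.norm_eq_one_of_pow_eq_one h1 Fintype.card_ne_zero

theorem norm_psi_le (η : ClassGroup (𝓞 K) →* ℂˣ) (I : Ideal (𝓞 K)) : ‖psi η I‖ ≤ 1 := by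
  by_cases hI : I = 0
  · rw [hI, map_zero, norm_zero]
    exact zero_le_one
  · rw [psi_apply η hI, norm_char]

theorem isRayChar_psi (η : ClassGroup (𝓞 K) →* ℂˣ) : IsRayChar ⊤ (psi η) where
  mul I J := map_mul _ _ _
  norm_le := norm_psi_le η
  bad I h := absurd (sup_top_eq I) h
  prin a ha _ _ := by
    have h0 : Ideal.span {a} ≠ (0 : Ideal (𝓞 K)) := by
      rw [Ne, Ideal.zero_eq_bot, Ideal.span_singleton_eq_bot]
      exact ha
    rw [psi_apply η h0]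
    have h1 : ClassGroup.mk0 (⟨Ideal.span {a}, mem_nonZeroDivisors_of_ne_zero h0⟩ :
        nonZeroDivisors (Ideal (𝓞 K))) = 1 := by
      rw [ClassGroup.mk0_eq_one_iff]
      exact ⟨⟨a, rfl⟩⟩
    rw [h1, map_one, Units.val_one]

/-- The prime sum of a nontrivial class group character is bounded above near `1`. -/
theorem exists_bound_re (η : ClassGroup (𝓞 K) →* ℂˣ) (hη : η ≠ 1) :
    ∃ C : ℝ, ∀ᶠ s : ℝ in 𝓝[>] 1,
      ∑' P : HeightOneSpectrum (𝓞 K), (η (cls P) : ℂ).re * x s P ≤ C := by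
  obtain ⟨c, hc⟩ : ∃ c, η c ≠ 1 := by
    by_contra h
    push Not at h
    exact hη (MonoidHom.ext h)
  obtain ⟨J, rfl⟩ := ClassGroup.mk0_surjective c
  obtain ⟨l, hl⟩ := tendsto_rayL (isRayChar_psi η) (C := (J : Ideal (𝓞 K)))
    (nonZeroDivisors.coe_ne_zero J) (sup_top_eq _) (by
      rw [psi_apply η (nonZeroDivisors.coe_ne_zero J)]
      intro h
      exact hc (Units.ext h))
  have h1 : ∀ᶠ s : ℝ in 𝓝[>] 1, ‖LL (psi η) s‖ < ‖l‖ + 1 := by
    have h2 : Tendsto (fun s : ℝ ↦ ‖LL (psi η) s‖) (𝓝[>] 1) (𝓝 ‖l‖) := by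
      refine (hl.norm).congr fun s ↦ ?_
      unfold LL
      congr 1
      exact tsum_congr fun I ↦ (tw_eq_cpow (psi η) s I).symm
    exact h2.eventually_lt_const (by linarith)
  refine ⟨Real.log (‖l‖ + 1) + pzeta K 2, ?_⟩
  filter_upwards [h1, self_mem_nhdsWithin] with s hs hs1
  have hs1 : 1 < s := hs1
  have h2 := abs_log_norm_LL_sub_le (norm_psi_le η) hs1
  have h3 : Real.log ‖LL (psi η) s‖ ≤ Real.log (‖l‖ + 1) :=
    Real.log_le_log (norm_pos_iff.mpr (LL_ne_zero (norm_psi_le η) hs1)) hs.le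
  rw [re_Zψ (norm_psi_le η) hs1, abs_le] at h2
  have h4 : ∑' P : HeightOneSpectrum (𝓞 K), (η (cls P) : ℂ).re * x s P =
      ∑' P : HeightOneSpectrum (𝓞 K), (psi η P.asIdeal).re * nrm P.asIdeal s :=
    tsum_congr fun P ↦ by rw [psi_prime]; rfl
  rw [h4]
  linarith [h2.1]

/-- orthogonality of characters -/
theorem sum_char {Q : Type*} [CommGroup Q] [Finite Q] [Fintype (Q →* ℂˣ)] (q : Q) [Decidable (q = 1)] :
    ∑ η : Q →* ℂˣ, (η q : ℂ) = if q = 1 then (Nat.card Q : ℂ) else 0 := by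
  split_ifs with h
  · rw [h]
    simp only [map_one, Units.val_one, Finset.sum_const, Finset.card_univ, nsmul_eq_mul, mul_one]
    rw [← Nat.card_eq_fintype_card, CommGroup.card_monoidHom_of_hasEnoughRootsOfUnity]
  · obtain ⟨η₀, h0⟩ := CommGroup.exists_apply_ne_one_of_hasEnoughRootsOfUnity Q ℂ h
    have h1 : (η₀ q : ℂ) * ∑ η : Q →* ℂˣ, (η q : ℂ) = ∑ η : Q →* ℂˣ, (η q : ℂ) := by
      rw [Finset.mul_sum]
      refine Fintype.sum_equiv (Equiv.mulLeft η₀) _ _ fun η ↦ ?_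
      rw [Equiv.coe_mulLeft, MonoidHom.mul_apply, Units.val_mul]
    have h2 : ((η₀ q : ℂ) - 1) * ∑ η : Q →* ℂˣ, (η q : ℂ) = 0 := by
      rw [sub_mul, one_mul, h1, sub_self]
    refine (mul_eq_zero.mp h2).resolve_left ?_
    rw [sub_eq_zero]
    intro h3
    exact h0 (Units.ext h3)

/-- **Upper bound for the density of a subgroup of the class group.** -/
theorem exists_bound_class (U : Subgroup (ClassGroup (𝓞 K))) :
    ∃ C : ℝ, ∀ᶠ s : ℝ in 𝓝[>] 1,
      (U.index : ℝ) * ∑' P : HeightOneSpectrum (𝓞 K), {P | cls P ∈ U}.indicator (x s) P ≤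
        Real.log (1 / (s - 1)) + C := by
  classical
  have hfin : Finite (ClassGroup (𝓞 K) ⧸ U →* ℂˣ) := by
    have := Nat.card_pos (α := ClassGroup (𝓞 K) ⧸ U)
    rw [← CommGroup.card_monoidHom_of_hasEnoughRootsOfUnity (ClassGroup (𝓞 K) ⧸ U) ℂ] at this
    exact Nat.finite_of_card_ne_zero this.ne'
  let _ : Fintype (ClassGroup (𝓞 K) ⧸ U →* ℂˣ) := Fintype.ofFinite _
  obtain ⟨C₁, h₁⟩ := exists_abs_tsum_sub_log_le K
  have h2 : ∀ η : ClassGroup (𝓞 K) ⧸ U →* ℂˣ, ∃ C : ℝ, η ≠ 1 → ∀ᶠ s : ℝ in 𝓝[>] 1,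
      ∑' P : HeightOneSpectrum (𝓞 K), (η (cls P : ClassGroup (𝓞 K) ⧸ U) : ℂ).re * x s P ≤ C := by
    intro η
    by_cases hη : η = 1
    · exact ⟨0, fun h ↦ absurd hη h⟩
    · obtain ⟨C, hC⟩ := exists_bound_re (η.comp (QuotientGroup.mk' U)) (by
        intro h
        apply hη
        refine MonoidHom.ext fun q ↦ ?_
        obtain ⟨c, rfl⟩ := QuotientGroup.mk'_surjective U q
        exact DFunLike.congr_fun h c)
      exact ⟨C, fun _ ↦ hC⟩
  choose C hC using h2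
  have h3 : ∀ᶠ s : ℝ in 𝓝[>] 1, ∀ η ∈ (Finset.univ : Finset (ClassGroup (𝓞 K) ⧸ U →* ℂˣ)),
      η ≠ 1 → ∑' P : HeightOneSpectrum (𝓞 K),
        (η (cls P : ClassGroup (𝓞 K) ⧸ U) : ℂ).re * x s P ≤ C η := by
    rw [Filter.eventually_all_finset]
    intro η _
    by_cases hη : η = 1
    · exact Eventually.of_forall fun s h ↦ absurd hη h
    · exact (hC η hη).mono fun s hs _ ↦ hs
  refine ⟨C₁ + ∑ η ∈ Finset.univ.erase (1 : ClassGroup (𝓞 K) ⧸ U →* ℂˣ), C η, ?_⟩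
  filter_upwards [h₁, h3, self_mem_nhdsWithin] with s hs1 hs2 hs
  have hs : 1 < s := hs
  have hsum : ∀ η : ClassGroup (𝓞 K) ⧸ U →* ℂˣ, Summable fun P : HeightOneSpectrum (𝓞 K) ↦
      (η (cls P : ClassGroup (𝓞 K) ⧸ U) : ℂ).re * x s P := by
    intro η
    refine Summable.of_norm_bounded (summable_x hs) fun P ↦ ?_
    rw [norm_mul, Real.norm_of_nonneg (x_nonneg s P)]
    refine mul_le_of_le_one_left (x_nonneg s P) ?_
    exact (Complex.abs_re_le_norm _).trans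
      (norm_char (η.comp (QuotientGroup.mk' U)) (cls P)).le
  have h4 : (U.index : ℝ) * ∑' P : HeightOneSpectrum (𝓞 K), {P | cls P ∈ U}.indicator (x s) P =
      ∑ η : ClassGroup (𝓞 K) ⧸ U →* ℂˣ, ∑' P : HeightOneSpectrum (𝓞 K),
        (η (cls P : ClassGroup (𝓞 K) ⧸ U) : ℂ).re * x s P := by
    rw [← tsum_mul_left, ← Summable.tsum_finsetSum fun η _ ↦ hsum η]
    refine tsum_congr fun P ↦ ?_
    rw [← Finset.sum_mul, ← Complex.re_sum, sum_char]
    by_cases hP : cls P ∈ U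
    · rw [Set.indicator_of_mem (show P ∈ {P | cls P ∈ U} from hP),
        if_pos ((QuotientGroup.eq_one_iff _).mpr hP), Complex.natCast_re]
      rfl
    · rw [Set.indicator_of_notMem (show P ∉ {P | cls P ∈ U} from hP), mul_zero,
        if_neg (fun h ↦ hP ((QuotientGroup.eq_one_iff _).mp h)), Complex.zero_re, zero_mul]
  rw [h4, ← Finset.add_sum_erase _ _ (Finset.mem_univ (1 : ClassGroup (𝓞 K) ⧸ U →* ℂˣ))]
  have h5 : ∑' P : HeightOneSpectrum (𝓞 K),
      ((1 : ClassGroup (𝓞 K) ⧸ U →* ℂˣ) (cls P : ClassGroup (𝓞 K) ⧸ U) : ℂ).re * x s P =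
      ∑' P : HeightOneSpectrum (𝓞 K), x s P := by
    refine tsum_congr fun P ↦ ?_
    rw [MonoidHom.one_apply, Units.val_one, Complex.one_re, one_mul]
  rw [h5]
  have h6 : ∑ η ∈ Finset.univ.erase (1 : ClassGroup (𝓞 K) ⧸ U →* ℂˣ),
      ∑' P : HeightOneSpectrum (𝓞 K), (η (cls P : ClassGroup (𝓞 K) ⧸ U) : ℂ).re * x s P ≤
      ∑ η ∈ Finset.univ.erase (1 : ClassGroup (𝓞 K) ⧸ U →* ℂˣ), C η :=
    Finset.sum_le_sum fun η hη ↦ hs2 η (Finset.mem_univ η) (Finset.ne_of_mem_erase hη)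
  rw [abs_le] at hs1
  linarith [hs1.2]

end Fermat.Agent.P2.AR
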