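import Mathlib

/-!
# P2 block 2c: the norm subgroup of the class group
-/

set_option autoImplicit false

noncomputable section

open NumberField IsDedekindDomain nonZeroDivisors

namespace Fermat.Agent.P2.AR

variable (K L : Type*) [Field K] [NumberField K] [Field L] [NumberField L] [Algebra K L]

/-- the subgroup of `Cl(K)` generated by the classes of the norms of the ideals of `L` -/
def U : Subgroup (ClassGroup (𝓞 K)) :=
  Subgroup.closure {c | ∃ I : (Ideal (𝓞 L))⁰, ∃ J : (Ideal (𝓞 K))⁰,
    (J : Ideal (𝓞 K)) = Ideal.relNorm (𝓞 K) (I : Ideal (𝓞 L)) ∧ c = ClassGroup.mk0 J}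

end Fermat.Agent.P2.AR
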