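import Mathlib
import Fermat.Agent.P2.AR.Defs

/-!
# Homomorphisms out of class groups; the action and the norm
-/

set_option autoImplicit false
set_option linter.unusedSectionVars false

noncomputable section

open NumberField IsDedekindDomain nonZeroDivisors
open scoped Pointwise

namespace Fermat.Agent.P2.AR

section Count

/-- counting lemma -/
theorem relIndex_le_card {G : Type*} [Group G] (H K : Subgroup G) {Y : Type*} [Finite Y]
    (f : K → Y) (hf : ∀ a b, f a = f b → (a : G)⁻¹ * b ∈ H) :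
    H.relIndex K ≤ Nat.card Y ∧ H.relIndex K ≠ 0 := by
  let g : K ⧸ H.subgroupOf K → Y := fun x => f x.out
  have hg : Function.Injective g := by
    intro x y h
    have h1 := hf _ _ h
    rw [← QuotientGroup.out_eq' x, ← QuotientGroup.out_eq' y]
    rw [QuotientGroup.eq, Subgroup.mem_subgroupOf]
    exact h1
  have hfin : Finite (K ⧸ H.subgroupOf K) := Finite.of_injective g hg
  have h1 : H.relIndex K = Nat.card (K ⧸ H.subgroupOf K) := rfl
  rw [h1]
  exact ⟨Nat.card_le_card_of_injective g hg, Nat.card_pos.ne'⟩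

end Count

section Lift

variable {R : Type*} [CommRing R] [IsDedekindDomain R] {H : Type*} [CommGroup H]

theorem span_mem_nzd {x : R} (hx : x ≠ 0) : Ideal.span {x} ∈ (Ideal R)⁰ :=
  mem_nonZeroDivisors_of_ne_zero (by
    rw [Ne, Ideal.zero_eq_bot, Ideal.span_singleton_eq_bot]; exact hx)

theorem lift_aux (F : (Ideal R)⁰ →* H) (hF : ∀ (x : R) (hx : x ≠ 0), F ⟨_, span_mem_nzd hx⟩ = 1)
    {I J : (Ideal R)⁰} (h : ClassGroup.mk0 I = ClassGroup.mk0 J) : F I = F J := by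
  obtain ⟨x, y, hx, hy, hxy⟩ := ClassGroup.mk0_eq_mk0_iff.1 h
  have h1 : (⟨_, span_mem_nzd hx⟩ : (Ideal R)⁰) * I = ⟨_, span_mem_nzd hy⟩ * J := Subtype.ext hxy
  have h2 := congrArg F h1
  rwa [map_mul, map_mul, hF x hx, hF y hy, one_mul, one_mul] at h2

/-- lift to the class group -/
def liftCl (F : (Ideal R)⁰ →* H) (hF : ∀ (x : R) (hx : x ≠ 0), F ⟨_, span_mem_nzd hx⟩ = 1) :
    ClassGroup R →* H where
  toFun c := F (ClassGroup.mk0_surjective c).choose
  map_one' := by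
    have h1 := (ClassGroup.mk0_surjective (1 : ClassGroup R)).choose_spec
    exact (lift_aux F hF (h1.trans (map_one (ClassGroup.mk0 (R := R))).symm)).trans (map_one F)
  map_mul' a b := by
    have h1 := (ClassGroup.mk0_surjective (a * b)).choose_spec
    have ha := (ClassGroup.mk0_surjective a).choose_spec
    have hb := (ClassGroup.mk0_surjective b).choose_spec
    refine (lift_aux F hF ?_).trans (map_mul F _ _)
    rw [map_mul (ClassGroup.mk0 (R := R))]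
    exact h1.trans (congrArg₂ (· * ·) ha.symm hb.symm)

theorem liftCl_mk0 (F : (Ideal R)⁰ →* H) (hF : ∀ (x : R) (hx : x ≠ 0), F ⟨_, span_mem_nzd hx⟩ = 1)
    (I : (Ideal R)⁰) : liftCl F hF (ClassGroup.mk0 I) = F I :=
  lift_aux F hF (ClassGroup.mk0_surjective (ClassGroup.mk0 I)).choose_spec

theorem mk0_span {x : R} (hx : x ≠ 0) :
    ClassGroup.mk0 (⟨_, span_mem_nzd hx⟩ : (Ideal R)⁰) = 1 :=
  (ClassGroup.mk0_eq_one_iff _).2 ⟨⟨x, rfl⟩⟩

end Lift

variable {K L : Type*} [Field K] [NumberField K] [Field L] [NumberField L] [Algebra K L]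
  [IsGalois K L]

/-- the action on nonzero ideals -/
def sI (τ : L ≃ₐ[K] L) : (Ideal (𝓞 L))⁰ →* (Ideal (𝓞 L))⁰ where
  toFun I := ⟨τ • (I : Ideal (𝓞 L)), mem_nonZeroDivisors_of_ne_zero (by
    intro h
    have h1 : τ⁻¹ • τ • (I : Ideal (𝓞 L)) = 0 := by rw [h, smul_zero]
    rw [inv_smul_smul] at h1
    exact nonZeroDivisors.coe_ne_zero I h1)⟩
  map_one' := Subtype.ext (smul_one τ)
  map_mul' I J := Subtype.ext (smul_mul' τ (I : Ideal (𝓞 L)) J)

theorem coe_sI (τ : L ≃ₐ[K] L) (I : (Ideal (𝓞 L))⁰) :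
    ((sI τ I : (Ideal (𝓞 L))⁰) : Ideal (𝓞 L)) = τ • (I : Ideal (𝓞 L)) := rfl

theorem smul_span (τ : L ≃ₐ[K] L) (x : 𝓞 L) :
    τ • (Ideal.span {x} : Ideal (𝓞 L)) = Ideal.span {τ • x} := by
  rw [Ideal.pointwise_smul_def, Ideal.map_span, Set.image_singleton]
  rfl

/-- the action on the class group -/
def sCl (τ : L ≃ₐ[K] L) : ClassGroup (𝓞 L) →* ClassGroup (𝓞 L) :=
  liftCl (ClassGroup.mk0.comp (sI τ)) (by
    intro x hx
    have h1 : sI τ ⟨_, span_mem_nzd hx⟩ =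
        (⟨_, span_mem_nzd ((smul_ne_zero_iff_ne τ).2 hx)⟩ : (Ideal (𝓞 L))⁰) :=
      Subtype.ext (smul_span τ x)
    rw [MonoidHom.comp_apply, h1, mk0_span ((smul_ne_zero_iff_ne τ).2 hx)])

theorem sCl_mk0 (τ : L ≃ₐ[K] L) (I : (Ideal (𝓞 L))⁰) :
    sCl τ (ClassGroup.mk0 I) = ClassGroup.mk0 (sI τ I) := liftCl_mk0 _ _ _

variable (K L) in
/-- the norm on nonzero ideals -/
def NI : (Ideal (𝓞 L))⁰ →* (Ideal (𝓞 K))⁰ where
  toFun I := ⟨Ideal.relNorm (𝓞 K) (I : Ideal (𝓞 L)), mem_nonZeroDivisors_of_ne_zero (by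
    rw [Ne, Ideal.zero_eq_bot, Ideal.relNorm_eq_bot_iff]
    exact nonZeroDivisors.coe_ne_zero I)⟩
  map_one' := Subtype.ext (map_one _)
  map_mul' I J := Subtype.ext (map_mul _ _ _)

variable (K L) in
/-- the norm on class groups -/
def NCl : ClassGroup (𝓞 L) →* ClassGroup (𝓞 K) :=
  liftCl (ClassGroup.mk0.comp (NI K L)) (by
    intro x hx
    rw [MonoidHom.comp_apply]
    refine (ClassGroup.mk0_eq_one_iff _).2 ⟨⟨_, Ideal.relNorm_singleton (𝓞 K) x⟩⟩)

theorem NCl_mk0 (I : (Ideal (𝓞 L))⁰) :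
    NCl K L (ClassGroup.mk0 I) = ClassGroup.mk0 (NI K L I) := liftCl_mk0 _ _ _

theorem U_eq_range : U K L = (NCl K L).range := by
  apply le_antisymm
  · rw [U, Subgroup.closure_le]
    rintro c ⟨I, J, hJ, rfl⟩
    exact ⟨ClassGroup.mk0 I, by rw [NCl_mk0]; congr 1; exact Subtype.ext hJ.symm⟩
  · rintro _ ⟨c, rfl⟩
    obtain ⟨I, rfl⟩ := ClassGroup.mk0_surjective c
    exact Subgroup.subset_closure ⟨I, NI K L I, rfl, NCl_mk0 I⟩

theorem NCl_sCl (τ : L ≃ₐ[K] L) (c : ClassGroup (𝓞 L)) : NCl K L (sCl τ c) = NCl K L c := by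
  obtain ⟨I, rfl⟩ := ClassGroup.mk0_surjective c
  rw [sCl_mk0, NCl_mk0, NCl_mk0]
  congr 1
  exact Subtype.ext (Ideal.relNorm_smul (𝓞 K) τ _)

end Fermat.Agent.P2.AR
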