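import Mathlib

/-!
# Galois invariant ideals in an unramified extension are extended from the base
-/

set_option autoImplicit false
set_option linter.unusedSectionVars false

noncomputable section

open NumberField IsDedekindDomain UniqueFactorizationMonoid
open scoped Pointwise

namespace Fermat.Agent.P2.AR

variable {K L : Type*} [Field K] [NumberField K] [Field L] [NumberField L] [Algebra K L]
  [IsGalois K L]

theorem smul_dvd_smul (τ : L ≃ₐ[K] L) {I J : Ideal (𝓞 L)} (h : I ∣ J) : τ • I ∣ τ • J := by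
  obtain ⟨C, rfl⟩ := h
  exact ⟨τ • C, smul_mul' τ I C⟩

theorem map_dvd_of_invariant
    (hur : ∀ Q : HeightOneSpectrum (𝓞 L), Algebra.IsUnramifiedAt (𝓞 K) Q.asIdeal)
    {I : Ideal (𝓞 L)} (hI : I ≠ ⊥) (hinv : ∀ τ : L ≃ₐ[K] L, τ • I = I) {P : Ideal (𝓞 L)}
    (hP : Prime P) (hPI : P ∣ I) :
    (P.under (𝓞 K)).map (algebraMap (𝓞 K) (𝓞 L)) ∣ I := by
  have hPp : P.IsPrime := Ideal.isPrime_of_prime hP
  have hP0 : P ≠ ⊥ := hP.ne_zero
  have hp0 : P.under (𝓞 K) ≠ ⊥ := by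
    exact Ideal.under_ne_bot (𝓞 K) hP0
  have hm0 : (P.under (𝓞 K)).map (algebraMap (𝓞 K) (𝓞 L)) ≠ ⊥ := by
    rw [Ne, Ideal.map_eq_bot_iff_of_injective (FaithfulSMul.algebraMap_injective (𝓞 K) (𝓞 L))]
    exact hp0
  rw [dvd_iff_normalizedFactors_le_normalizedFactors hm0 hI, Multiset.le_iff_count]
  intro Q
  by_cases hQ : Q ∈ normalizedFactors ((P.under (𝓞 K)).map (algebraMap (𝓞 K) (𝓞 L)))
  · have hQprime : Prime Q := prime_of_normalized_factor Q hQ
    have hQp : Q.IsPrime := Ideal.isPrime_of_prime hQprime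
    have hQ0 : Q ≠ ⊥ := hQprime.ne_zero
    have hdvd : Q ∣ (P.under (𝓞 K)).map (algebraMap (𝓞 K) (𝓞 L)) := dvd_of_mem_normalizedFactors hQ
    have hle : P.under (𝓞 K) ≤ Q.under (𝓞 K) := by
      rw [Ideal.under_def, Ideal.under_def]
      exact Ideal.map_le_iff_le_comap.1 (Ideal.le_of_dvd hdvd)
    have hPmax : (P.under (𝓞 K)).IsMaximal := by
      have : (P.under (𝓞 K)).IsPrime := inferInstance
      exact this.isMaximal hp0
    have heq : P.under (𝓞 K) = Q.under (𝓞 K) :=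
      hPmax.eq_of_le (Ideal.IsPrime.ne_top inferInstance) hle
    have : Q.LiesOver (P.under (𝓞 K)) := ⟨heq⟩
    rw [← Ideal.IsDedekindDomain.ramificationIdx_eq_normalizedFactors_count (P.under (𝓞 K)) Q hm0]
    have h1 := hur ⟨Q, hQp, hQ0⟩
    rw [Ideal.ramificationIdx_eq_one_iff.2 h1]
    rw [Nat.one_le_iff_ne_zero, Multiset.count_ne_zero]
    obtain ⟨τ, hτ⟩ := Algebra.IsInvariant.exists_smul_of_under_eq (𝓞 K) (𝓞 L) (L ≃ₐ[K] L) P Q heq
    have h2 : Q ∣ I := by
      rw [hτ, ← hinv τ]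
      exact smul_dvd_smul τ hPI
    rw [Ideal.mem_normalizedFactors_iff hI]
    exact ⟨hQp, Ideal.le_of_dvd h2⟩
  · rw [Multiset.count_eq_zero_of_notMem hQ]
    exact Nat.zero_le _

theorem exists_map_eq_of_invariant
    (hur : ∀ Q : HeightOneSpectrum (𝓞 L), Algebra.IsUnramifiedAt (𝓞 K) Q.asIdeal) :
    ∀ (m : ℕ) (I : Ideal (𝓞 L)), I ≠ ⊥ → (∀ τ : L ≃ₐ[K] L, τ • I = I) →
      (normalizedFactors I).card ≤ m →
      ∃ J : Ideal (𝓞 K), J ≠ ⊥ ∧ I = J.map (algebraMap (𝓞 K) (𝓞 L)) := by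
  intro m
  induction m with
  | zero =>
    intro I hI hinv hm
    refine ⟨⊤, top_ne_bot, ?_⟩
    rw [Ideal.map_top]
    have h1 : normalizedFactors I = 0 := by
      rw [← Multiset.card_eq_zero]; omega
    have h2 := prod_normalizedFactors hI
    rw [h1, Multiset.prod_zero] at h2
    exact (Ideal.isUnit_iff.1 (h2.isUnit isUnit_one))
  | succ m ih =>
    intro I hI hinv hm
    by_cases hI1 : I = ⊤
    · exact ⟨⊤, top_ne_bot, by rw [Ideal.map_top, hI1]⟩
    obtain ⟨P, hP, hIP⟩ := Ideal.exists_le_maximal I hI1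
    have hP0 : P ≠ ⊥ := fun h => hI (le_bot_iff.1 (h ▸ hIP))
    have hPprime : Prime P := Ideal.prime_of_isPrime hP0 hP.isPrime
    obtain ⟨I', hI'⟩ := map_dvd_of_invariant hur hI hinv hPprime (Ideal.dvd_iff_le.2 hIP)
    set p := P.under (𝓞 K) with hp
    have hp0 : p ≠ ⊥ := Ideal.under_ne_bot (𝓞 K) hP0
    have hm0 : p.map (algebraMap (𝓞 K) (𝓞 L)) ≠ ⊥ := by
      rw [Ne, Ideal.map_eq_bot_iff_of_injective (FaithfulSMul.algebraMap_injective (𝓞 K) (𝓞 L))]
      exact hp0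
    have hI'0 : I' ≠ ⊥ := by
      rintro rfl
      exact hI (by rw [hI', Ideal.mul_bot])
    have hmapinv : ∀ τ : L ≃ₐ[K] L, τ • (p.map (algebraMap (𝓞 K) (𝓞 L))) =
        p.map (algebraMap (𝓞 K) (𝓞 L)) := by
      intro τ
      rw [Ideal.pointwise_smul_def, Ideal.map_map]
      congr 1
      ext x
      exact congrArg _ (smul_algebraMap τ x)
    have hinv' : ∀ τ : L ≃ₐ[K] L, τ • I' = I' := by
      intro τ
      have h1 := hinv τ
      rw [hI', smul_mul', hmapinv τ] at h1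
      exact mul_left_cancel₀ hm0 h1
    have hcard : (normalizedFactors I').card ≤ m := by
      rw [hI', normalizedFactors_mul hm0 hI'0, Multiset.card_add] at hm
      have h1 : 1 ≤ (normalizedFactors (p.map (algebraMap (𝓞 K) (𝓞 L)))).card := by
        rw [Nat.one_le_iff_ne_zero, Ne, Multiset.card_eq_zero]
        intro h0
        have h2 := prod_normalizedFactors hm0
        rw [h0, Multiset.prod_zero] at h2
        have h3 : p.map (algebraMap (𝓞 K) (𝓞 L)) = ⊤ := Ideal.isUnit_iff.1 (h2.isUnit isUnit_one)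
        have h4 : p.map (algebraMap (𝓞 K) (𝓞 L)) ≤ P := Ideal.map_comap_le
        rw [h3] at h4
        exact hP.ne_top (top_le_iff.1 h4)
      omega
    obtain ⟨J', hJ'0, hJ'⟩ := ih I' hI'0 hinv' hcard
    refine ⟨p * J', mul_ne_zero hp0 hJ'0, ?_⟩
    rw [hI', hJ', Ideal.map_mul]

end Fermat.Agent.P2.AR
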