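import Mathlib
import Fermat.Agent.CFT.Herbrand

/-!
# Herbrand quotient of a module containing `ℤ[G]/(N)` with finite index
-/

set_option autoImplicit false
set_option linter.unusedSectionVars false

namespace Fermat.Agent.P2.AR

open Fermat.Agent.CFT.Herbrand

variable {A : Type*} [AddCommGroup A]

/-- the map `ℤ[ZMod n] → A` given by an element -/
noncomputable def Phi (n : ℕ) [NeZero n] (s : A →+ A) (ε : A) : (ZMod n → ℤ) →+ A where
  toFun a := ∑ x, a x • s^[x.val] ε
  map_zero' := by simp
  map_add' a b := by simp [add_smul, Finset.sum_add_distrib]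

variable {n : ℕ} [NeZero n] {s : A →+ A} {ε : A}

theorem Phi_apply (a : ZMod n → ℤ) : Phi n s ε a = ∑ x, a x • s^[x.val] ε := rfl

theorem iterate_mod (hs : ∀ x, s^[n] x = x) (m : ℕ) (y : A) : s^[m % n] y = s^[m] y :=
  Function.IsPeriodicPt.iterate_mod_apply (hs y) m

theorem iterate_val_succ (hs : ∀ x, s^[n] x = x) (x : ZMod n) (y : A) :
    s (s^[x.val] y) = s^[(x + 1).val] y := by
  rw [← Function.iterate_succ_apply' s x.val y, ZMod.val_add, ZMod.val_one_eq_one_mod,
    Nat.add_mod_mod, iterate_mod hs]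

/-- the shift -/
def shift (a : ZMod n → ℤ) : ZMod n → ℤ := fun x => a (x - 1)

theorem s_Phi (hs : ∀ x, s^[n] x = x) (a : ZMod n → ℤ) :
    s (Phi n s ε a) = Phi n s ε (shift a) := by
  rw [Phi_apply, Phi_apply, map_sum,
    ← Equiv.sum_comp (Equiv.addRight (1 : ZMod n)) (fun x => shift a x • s^[x.val] ε)]
  refine Finset.sum_congr rfl fun x _ => ?_
  rw [map_zsmul, iterate_val_succ hs]
  simp [shift]

theorem sum_range_eq (f : ℕ → A) : ∑ i ∈ Finset.range n, f i = ∑ x : ZMod n, f x.val := by
  rcases n with _ | m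
  · exact absurd rfl (NeZero.ne 0)
  · rw [Finset.sum_range]
    rfl

theorem nE_eq (ε : A) : nE n s ε = ∑ x : ZMod n, s^[x.val] ε := by
  rw [nE_apply, sum_range_eq]

theorem Phi_const (hN : nE n s ε = 0) (c : ℤ) : Phi n s ε (fun _ => c) = 0 := by
  rw [Phi_apply, ← Finset.smul_sum, ← nE_eq, hN, smul_zero]

theorem sum_shift (a : ZMod n → ℤ) : ∑ x, shift a x = ∑ x, a x := by
  unfold shift
  exact Equiv.sum_comp (Equiv.subRight (1 : ZMod n)) a

theorem const_of_shift {a : ZMod n → ℤ} (h : shift a = a) (x : ZMod n) : a x = a 0 := by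
  have h1 : ∀ k : ℕ, a (k : ZMod n) = a 0 := by
    intro k
    induction k with
    | zero => simp
    | succ k ih =>
      rw [← ih]
      have h2 := congrFun h ((k + 1 : ℕ) : ZMod n)
      rw [← h2]
      simp [shift]
  have := h1 x.val
  rwa [ZMod.natCast_zmod_val] at this

theorem exists_shift_sub {a : ZMod n → ℤ} (h : ∑ x, a x = 0) : ∃ g : ZMod n → ℤ,
    a = shift g - g := by
  let F : ℕ → ℤ := fun m => ∑ i ∈ Finset.range m, a (i : ZMod n)
  have hF : F n = 0 := by
    have h1 := sum_range_eq (n := n) (fun i => a (i : ZMod n))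
    simp only [ZMod.natCast_zmod_val] at h1
    rw [h] at h1
    exact h1
  refine ⟨fun x => - F (x.val + 1), ?_⟩
  funext x
  simp only [Pi.sub_apply, shift]
  have hsucc : F (x.val + 1) = F x.val + a x := by
    show ∑ i ∈ Finset.range (x.val + 1), a (i : ZMod n) = _
    rw [Finset.sum_range_succ, ZMod.natCast_zmod_val]
  have h2 : F ((x - 1).val + 1) = F x.val := by
    by_cases hx : x = 0
    · subst hx
      have h3 : ((0 : ZMod n) - 1).val + 1 = n := by
        rcases n with _ | m
        · exact absurd rfl (NeZero.ne 0)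
        · rw [zero_sub]
          rcases Nat.eq_zero_or_pos m with h0 | h0
          · subst h0; rfl
          · have h4 : (1 : ZMod (m + 1)) ≠ 0 := by
              intro h5
              have h6 := congrArg ZMod.val h5
              rw [ZMod.val_one'' (by omega), ZMod.val_zero] at h6
              exact one_ne_zero h6
            have : NeZero (1 : ZMod (m + 1)) := ⟨h4⟩
            rw [ZMod.val_neg_of_ne_zero, ZMod.val_one'' (by omega)]
            omega
      rw [h3, hF, ZMod.val_zero]
      simp [F]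
    · have h3 : (x - 1).val + 1 = x.val := by
        have h4 : 1 ≤ x.val := Nat.one_le_iff_ne_zero.2 (by rwa [Ne, ZMod.val_eq_zero])
        have h5 : x - 1 = ((x.val - 1 : ℕ) : ZMod n) := by
          rw [Nat.cast_sub h4, ZMod.natCast_zmod_val, Nat.cast_one]
        rw [h5, ZMod.val_natCast_of_lt (by have := ZMod.val_lt x; omega)]
        omega
      rw [h3]
  rw [h2, hsucc]
  ring

/-- the exact relation module -/
def Rel (n : ℕ) [NeZero n] (s : A →+ A) (ε : A) : Prop :=
  ∀ a : ZMod n → ℤ, Phi n s ε a = 0 → ∀ x, a x = a 0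

theorem iterate_Phi (hs : ∀ x, s^[n] x = x) (a : ZMod n → ℤ) (i : ℕ) :
    ∃ b : ZMod n → ℤ, s^[i] (Phi n s ε a) = Phi n s ε b := by
  induction i with
  | zero => exact ⟨a, rfl⟩
  | succ i ih =>
    obtain ⟨b, hb⟩ := ih
    exact ⟨shift b, by rw [Function.iterate_succ_apply', hb, s_Phi hs]⟩

theorem nE_Phi (hs : ∀ x, s^[n] x = x) (hN : nE n s ε = 0) (a : ZMod n → ℤ) :
    nE n s (Phi n s ε a) = 0 := by
  rw [Phi_apply, map_sum]
  refine Finset.sum_eq_zero fun x _ => ?_
  rw [map_zsmul]
  have h1 : nE n s (s^[x.val] ε) = s^[x.val] (nE n s ε) := by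
    rw [nE_apply, nE_apply]
    have h2 : ∀ (m : ℕ) (t : Finset ℕ) (f : ℕ → A), s^[m] (∑ i ∈ t, f i) = ∑ i ∈ t, s^[m] (f i) := by
      intro m
      induction m with
      | zero => intro t f; rfl
      | succ m ih =>
        intro t f
        rw [Function.iterate_succ_apply, map_sum, ih]
        rfl
    rw [h2]
    refine Finset.sum_congr rfl fun i _ => ?_
    rw [← Function.iterate_add_apply, ← Function.iterate_add_apply, add_comm]
  have h3 : ∀ m : ℕ, s^[m] (0 : A) = 0 := by
    intro m
    induction m with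
    | zero => rfl
    | succ m ih => rw [Function.iterate_succ_apply, map_zero, ih]
  rw [h1, hN, h3, smul_zero]

section C

variable (hs : ∀ x, s^[n] x = x)

/-- the restriction of `s` to the submodule generated by the conjugates of `ε` -/
noncomputable def sC (n : ℕ) [NeZero n] (s : A →+ A) (ε : A) (hs : ∀ x, s^[n] x = x) :
    (Phi n s ε).range →+ (Phi n s ε).range :=
  (s.comp (Phi n s ε).range.subtype).codRestrict _ (by
    rintro ⟨_, a, rfl⟩
    exact ⟨shift a, (s_Phi hs a).symm⟩)

theorem coe_sC (x : (Phi n s ε).range) : ((sC n s ε hs x : (Phi n s ε).range) : A) = s x := rfl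

theorem coe_sC_iterate (i : ℕ) (x : (Phi n s ε).range) :
    (((sC n s ε hs)^[i] x : (Phi n s ε).range) : A) = s^[i] x := by
  induction i generalizing x with
  | zero => rfl
  | succ i ih => rw [Function.iterate_succ_apply, Function.iterate_succ_apply, ih, coe_sC]

theorem sC_iterate_n (x : (Phi n s ε).range) : (sC n s ε hs)^[n] x = x :=
  Subtype.ext ((coe_sC_iterate hs n x).trans (hs x))

theorem coe_nE_sC (x : (Phi n s ε).range) :
    ((nE n (sC n s ε hs) x : (Phi n s ε).range) : A) = nE n s x := by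
  rw [nE_apply, nE_apply, AddSubgroup.val_finsetSum]
  exact Finset.sum_congr rfl fun i _ => coe_sC_iterate hs i x

theorem coe_dE_sC (x : (Phi n s ε).range) :
    ((dE (sC n s ε hs) x : (Phi n s ε).range) : A) = dE s x := rfl

theorem nE_sC_eq_zero (hN : nE n s ε = 0) : nE n (sC n s ε hs) = 0 := by
  ext ⟨_, a, rfl⟩
  rw [coe_nE_sC]
  exact nE_Phi hs hN a

theorem hc_C_1 (hN : nE n s ε = 0) (hrel : Rel n s ε) :
    hcAdd (dE (sC n s ε hs)) (nE n (sC n s ε hs)) = 1 := by
  rw [nE_sC_eq_zero hs hN, hcAdd_zero_right, Nat.card_eq_one_iff_unique]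
  refine ⟨⟨?_⟩, ⟨0⟩⟩
  have key : ∀ x : (dE (sC n s ε hs)).ker, x = 0 := by
    rintro ⟨⟨_, a, rfl⟩, hx⟩
    rw [AddMonoidHom.mem_ker] at hx
    have h1 : dE s (Phi n s ε a) = 0 := congrArg Subtype.val hx
    rw [dE_apply, s_Phi hs, ← map_sub] at h1
    have h2 := hrel _ h1
    have h3 : ∑ x, (shift a - a) x = 0 := by
      simp only [Pi.sub_apply, Finset.sum_sub_distrib, sum_shift, sub_self]
    have h4 : (n : ℤ) * (shift a - a) 0 = 0 := by
      rw [← h3, Finset.sum_congr rfl fun x _ => h2 x, Finset.sum_const, Finset.card_univ,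
        ZMod.card, nsmul_eq_mul]
    have h5 : (shift a - a) 0 = 0 := by
      rcases mul_eq_zero.1 h4 with h | h
      · exact absurd (by exact_mod_cast h) (NeZero.ne n)
      · exact h
    have h6 : shift a = a := by
      funext x
      have := h2 x
      rw [h5] at this
      exact sub_eq_zero.1 this
    have h7 : a = fun _ => a 0 := funext fun x => const_of_shift h6 x
    apply Subtype.ext
    apply Subtype.ext
    show Phi n s ε a = 0
    rw [h7, Phi_const hN]
  intro x y
  rw [key x, key y]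

theorem hc_C_2 (hN : nE n s ε = 0) (hrel : Rel n s ε) :
    hcAdd (nE n (sC n s ε hs)) (dE (sC n s ε hs)) = n := by
  rw [nE_sC_eq_zero hs hN, hcAdd_zero_left]
  let R := (Phi n s ε).rangeRestrict
  have hR : Function.Surjective R := AddMonoidHom.rangeRestrict_surjective _
  rw [← AddSubgroup.index_comap_of_surjective _ hR]
  let χ : (ZMod n → ℤ) →+ ZMod n :=
    { toFun := fun a => ((∑ x, a x : ℤ) : ZMod n)
      map_zero' := by simp
      map_add' := fun a b => by simp [Finset.sum_add_distrib] }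
  have h1 : (dE (sC n s ε hs)).range.comap R = χ.ker := by
    ext a
    rw [AddSubgroup.mem_comap, AddMonoidHom.mem_ker, AddMonoidHom.mem_range]
    show _ ↔ ((∑ x, a x : ℤ) : ZMod n) = 0
    rw [ZMod.intCast_zmod_eq_zero_iff_dvd]
    constructor
    · rintro ⟨⟨_, b, rfl⟩, hb⟩
      have h2 : dE s (Phi n s ε b) = Phi n s ε a := congrArg Subtype.val hb
      rw [dE_apply, s_Phi hs, ← map_sub, ← sub_eq_zero, ← map_sub] at h2
      have h3 := hrel _ h2
      have h4 : ∑ x, (shift b - b - a) x = n * (shift b - b - a) 0 := by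
        rw [Finset.sum_congr rfl fun x _ => h3 x, Finset.sum_const, Finset.card_univ,
          ZMod.card, nsmul_eq_mul]
      have h5 : ∑ x, (shift b - b - a) x = - ∑ x, a x := by
        simp only [Pi.sub_apply, Finset.sum_sub_distrib, sum_shift, sub_self, zero_sub]
      rw [h5] at h4
      exact ⟨-(shift b - b - a) 0, by linarith⟩
    · rintro ⟨m, hm⟩
      have h2 : ∑ x, (a - (fun _ => m : ZMod n → ℤ)) x = 0 := by
        simp only [Pi.sub_apply, Finset.sum_sub_distrib, hm, Finset.sum_const, Finset.card_univ,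
          ZMod.card, nsmul_eq_mul, sub_self]
      obtain ⟨g, hg⟩ := exists_shift_sub h2
      refine ⟨⟨Phi n s ε g, g, rfl⟩, Subtype.ext ?_⟩
      show dE s (Phi n s ε g) = Phi n s ε a
      rw [dE_apply, s_Phi hs, ← map_sub, ← hg, map_sub, Phi_const hN, sub_zero]
  have h2 : Function.Surjective χ := by
    intro z
    refine ⟨Pi.single 0 (z.val : ℤ), ?_⟩
    show ((∑ x, (Pi.single 0 (z.val : ℤ) : ZMod n → ℤ) x : ℤ) : ZMod n) = z
    rw [Finset.sum_pi_single']
    simp
  rw [h1, AddSubgroup.index_ker, AddMonoidHom.range_eq_top.2 h2, AddSubgroup.card_top]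
  exact Nat.card_zmod n

end C

/-- **Herbrand quotient** of a module with a "Minkowski unit". -/
theorem herbrand_minkowski (hs : ∀ x, s^[n] x = x) (hN : nE n s ε = 0) (hrel : Rel n s ε)
    (hfin : (Phi n s ε).range.index ≠ 0) :
    hcAdd (nE n s) (dE s) = n * hcAdd (dE s) (nE n s) := by
  set C := (Phi n s ε).range with hC
  have hle : C ≤ C.comap s := by
    rintro _ ⟨a, rfl⟩
    exact ⟨shift a, (s_Phi hs a).symm⟩
  let sQ : A ⧸ C →+ A ⧸ C := QuotientAddGroup.map C C s hle
  have hsQ : ∀ x : A, sQ (QuotientAddGroup.mk' C x) = QuotientAddGroup.mk' C (s x) := fun x => rfl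
  have hsQi : ∀ (i : ℕ) (x : A), sQ^[i] (QuotientAddGroup.mk' C x) = QuotientAddGroup.mk' C (s^[i] x) := by
    intro i
    induction i with
    | zero => intro x; rfl
    | succ i ih => intro x; rw [Function.iterate_succ_apply, hsQ, ih]; rfl
  have hsQn : ∀ x, sQ^[n] x = x := by
    intro x
    obtain ⟨y, rfl⟩ := QuotientAddGroup.mk'_surjective C x
    rw [hsQi, hs]
  have : Finite (A ⧸ C) := by
    have := AddSubgroup.FiniteIndex.mk hfin
    exact AddSubgroup.finite_quotient_of_finiteIndex
  have key := herbrand_add C.subtype (QuotientAddGroup.mk' C) C.subtype_injective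
    (QuotientAddGroup.mk'_surjective C) (by rw [AddSubgroup.range_subtype, QuotientAddGroup.ker_mk'])
    (dE (sC n s ε hs)) (nE n (sC n s ε hs)) (dE s) (nE n s) (dE sQ) (nE n sQ)
    (fun x => rfl) (fun x => coe_nE_sC hs x) (fun x => rfl)
    (fun x => by
      rw [nE_apply, nE_apply, map_sum]
      exact Finset.sum_congr rfl fun i _ => (hsQi i x).symm)
    (fun x => dE_nE hs x) (fun x => nE_dE hs x)
  have h1 := herbrand_finite_add (dE sQ) (nE n sQ) (fun x => dE_nE hsQn x) (fun x => nE_dE hsQn x)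
  have e1 := hc_C_1 hs hN hrel
  have e2 := hc_C_2 hs hN hrel
  rw [e1, e2, ← h1.1, one_mul] at key
  have h2 := h1.2
  have h3 : hcAdd (dE sQ) (nE n sQ) * hcAdd (nE n s) (dE s) =
      hcAdd (dE sQ) (nE n sQ) * (n * hcAdd (dE s) (nE n s)) := by
    rw [key]; ring
  exact Nat.eq_of_mul_eq_mul_left (Nat.pos_of_ne_zero h2) h3

end Fermat.Agent.P2.AR
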