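import Mathlib
import Fermat.Agent.P2.AR.Herbrand
import Fermat.Agent.CFT.SUnits

/-!
# Herbrand quotient of the units of a cyclic extension of an imaginary quadratic field
-/

set_option autoImplicit false
set_option linter.unusedSectionVars false

noncomputable section

open NumberField Module Fermat.Agent.CFT.Herbrand

namespace Fermat.Agent.P2.AR

section Abstract

/-- finite index from ranks -/
theorem index_ne_zero_of_rank {A : Type*} [AddCommGroup A] [Module.Finite ℤ A] {n : ℕ} [NeZero n]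
    {s : A →+ A} {ε : A} (hrel : Rel n s ε) (hA : finrank ℤ A + 1 = n) :
    (Phi n s ε).range.index ≠ 0 := by
  let f : (ZMod n → ℤ) →ₗ[ℤ] A := (Phi n s ε).toIntLinearMap
  have h1 := CFT.SUnits.finrank_range_add_finrank_ker f
  rw [Module.finrank_fintype_fun_eq_card, ZMod.card] at h1
  have h2 : finrank ℤ (LinearMap.ker f) ≤ 1 := by
    let g : LinearMap.ker f →ₗ[ℤ] ℤ := (LinearMap.proj (0 : ZMod n)).comp (LinearMap.ker f).subtype
    have hg : Function.Injective g := by
      rw [← LinearMap.ker_eq_bot, LinearMap.ker_eq_bot']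
      rintro ⟨a, ha⟩ h
      have h3 : a 0 = 0 := h
      have h4 := hrel a ha
      apply Subtype.ext
      funext x
      show a x = 0
      rw [h4 x, h3]
    have := LinearMap.finrank_le_finrank_of_injective hg
    rwa [finrank_self] at this
  have h3 : finrank ℤ A ≤ finrank ℤ (LinearMap.range f) := by omega
  have h4 := (LinearMap.range f).finrank_quotient_add_finrank
  have h5 : finrank ℤ (A ⧸ LinearMap.range f) = 0 := by omega
  have h6 : Finite (A ⧸ LinearMap.range f) := by
    refine Module.finite_of_fg_torsion _ ?_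
    intro x
    rw [Module.finrank_eq_zero_iff] at h5
    obtain ⟨a, ha0, ha⟩ := h5 x
    exact ⟨⟨a, mem_nonZeroDivisors_of_ne_zero ha0⟩, ha⟩
  have h7 : Finite (A ⧸ (Phi n s ε).range) := h6
  exact AddSubgroup.index_ne_zero_of_finite

end Abstract

variable {K L : Type*} [Field K] [NumberField K] [Field L] [NumberField L] [Algebra K L]

/-- the action of `σ` on the units -/
def sU (σ : L ≃ₐ[K] L) : (𝓞 L)ˣ →* (𝓞 L)ˣ :=
  Units.map (MulSemiringAction.toRingHom (L ≃ₐ[K] L) (𝓞 L) σ : 𝓞 L →* 𝓞 L)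

theorem coe_sU (σ : L ≃ₐ[K] L) (u : (𝓞 L)ˣ) : (((sU σ u : (𝓞 L)ˣ) : 𝓞 L) : L) = σ ((u : 𝓞 L) : L) :=
  rfl

theorem coe_sU_iterate (σ : L ≃ₐ[K] L) (i : ℕ) (u : (𝓞 L)ˣ) :
    ((((sU σ)^[i] u : (𝓞 L)ˣ) : 𝓞 L) : L) = (σ ^ i) ((u : 𝓞 L) : L) := by
  induction i generalizing u with
  | zero => rfl
  | succ i ih => rw [Function.iterate_succ_apply, ih, pow_succ, AlgEquiv.mul_apply, coe_sU]

theorem sU_iterate {σ : L ≃ₐ[K] L} {n : ℕ} (hσ : σ ^ n = 1) (u : (𝓞 L)ˣ) : (sU σ)^[n] u = u := by
  apply Units.ext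
  apply RingOfIntegers.ext
  rw [coe_sU_iterate, hσ]
  rfl

variable [IsGalois K L]

theorem card_places [IsTotallyComplex K] (hK : finrank ℚ K = 2) :
    Fintype.card (InfinitePlace K) = 1 ∧ Fintype.card (InfinitePlace L) = finrank K L := by
  have : IsTotallyComplex L := isTotallyComplex_of_algebra K L
  have h1 := IsTotallyComplex.finrank K
  have h2 := IsTotallyComplex.finrank L
  have h3 := Module.finrank_mul_finrank ℚ K L
  rw [InfinitePlace.card_eq_nrRealPlaces_add_nrComplexPlaces,
    InfinitePlace.card_eq_nrRealPlaces_add_nrComplexPlaces,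
    IsTotallyComplex.nrRealPlaces_eq_zero, IsTotallyComplex.nrRealPlaces_eq_zero]
  rw [hK] at h1 h3
  omega

section Place

variable {σ : L ≃ₐ[K] L} (hσ : ∀ τ, τ ∈ Subgroup.zpowers σ)

theorem orderOf_gen (hσ : ∀ τ, τ ∈ Subgroup.zpowers σ) : orderOf σ = finrank K L := by
  rw [← IsGalois.card_aut_eq_finrank]
  exact orderOf_eq_card_of_forall_mem_zpowers hσ

instance : NeZero (finrank K L) := ⟨finrank_pos.ne'⟩

/-- the places above `∞` -/
def pl (σ : L ≃ₐ[K] L) (w : InfinitePlace L) (x : ZMod (finrank K L)) : InfinitePlace L :=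
  (σ ^ x.val)⁻¹ • w

theorem pl_apply (w : InfinitePlace L) (x : ZMod (finrank K L)) (y : L) :
    pl σ w x y = w ((σ ^ x.val) y) := by
  unfold pl
  rw [InfinitePlace.smul_apply]
  congr 1

include hσ in
theorem pl_surjective [IsTotallyComplex K] (hK : finrank ℚ K = 2) (w : InfinitePlace L) :
    Function.Surjective (pl σ w) := by
  intro v
  have h1 : Subsingleton (InfinitePlace K) :=
    Fintype.card_le_one_iff_subsingleton.1 (card_places (L := L) hK).1.le
  obtain ⟨τ, hτ⟩ := InfinitePlace.exists_smul_eq_of_comap_eq (k := K) (w := w) (w' := v)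
    (Subsingleton.elim _ _)
  obtain ⟨i, hi⟩ := (isOfFinOrder_of_finite σ).mem_powers_iff_mem_zpowers.2 (hσ τ⁻¹)
  have hn : σ ^ (finrank K L) = 1 := by rw [← orderOf_gen hσ]; exact pow_orderOf_eq_one σ
  refine ⟨(i : ZMod (finrank K L)), ?_⟩
  unfold pl
  have h2 : σ ^ ((i : ZMod (finrank K L)).val) = σ ^ i := by
    rw [ZMod.val_natCast, ← orderOf_gen hσ, pow_mod_orderOf]
  rw [h2]
  have h3 : σ ^ i = τ⁻¹ := hi
  rw [h3, inv_inv, hτ]

include hσ in
theorem pl_bijective [IsTotallyComplex K] (hK : finrank ℚ K = 2) (w : InfinitePlace L) :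
    Function.Bijective (pl σ w) := by
  rw [Fintype.bijective_iff_surjective_and_card, ZMod.card]
  exact ⟨pl_surjective hσ hK w, (card_places hK).2.symm⟩

include hσ in
theorem pow_val_add (x y : ZMod (finrank K L)) : σ ^ (x + y).val = σ ^ x.val * σ ^ y.val := by
  rw [ZMod.val_add, ← pow_add]
  conv_rhs => rw [← pow_mod_orderOf, orderOf_gen hσ]

include hσ in
theorem pl_pl (w : InfinitePlace L) (x y : ZMod (finrank K L)) :
    pl σ (pl σ w x) y = pl σ w (x + y) := by
  apply InfinitePlace.ext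
  intro z
  rw [pl_apply, pl_apply, pl_apply, pow_val_add hσ]
  rfl

end Place

/-- **Minkowski unit** -/
theorem exists_minkowski {σ : L ≃ₐ[K] L} (hσ : ∀ τ, τ ∈ Subgroup.zpowers σ)
    [IsTotallyComplex K] (hK : finrank ℚ K = 2) :
    ∃ ε : Additive (𝓞 L)ˣ, nE (finrank K L) (MonoidHom.toAdditive (sU σ)) ε = 0 ∧
      Rel (finrank K L) (MonoidHom.toAdditive (sU σ)) ε := by
  have hLc : IsTotallyComplex L := isTotallyComplex_of_algebra K L
  set n := finrank K L with hn
  let w0 : InfinitePlace L := Classical.arbitrary _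
  obtain ⟨u, hu⟩ := Units.dirichletUnitTheorem.exists_unit L w0
  set s : Additive (𝓞 L)ˣ →+ Additive (𝓞 L)ˣ := MonoidHom.toAdditive (sU σ) with hs
  have hsi : ∀ (i : ℕ) (x : Additive (𝓞 L)ˣ), s^[i] x = Additive.ofMul ((sU σ)^[i] x.toMul) := by
    intro i
    induction i with
    | zero => intro x; rfl
    | succ i ih => intro x; rw [Function.iterate_succ_apply, ih]; rfl
  -- the logarithm at a place
  let lg : InfinitePlace L → Additive (𝓞 L)ˣ →+ ℝ := fun w =>
    { toFun := fun x => Real.log (w ((x.toMul : (𝓞 L)ˣ) : L))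
      map_zero' := by simp
      map_add' := fun x y => by
        rw [toMul_add, Units.coe_mul, map_mul, Real.log_mul]
        · exact (map_ne_zero w).2 (RingOfIntegers.coe_ne_zero_iff.2 x.toMul.ne_zero)
        · exact (map_ne_zero w).2 (RingOfIntegers.coe_ne_zero_iff.2 y.toMul.ne_zero) }
  have hlg : ∀ (w : InfinitePlace L) (x : ZMod n) (e : Additive (𝓞 L)ˣ),
      lg w (s^[x.val] e) = lg (pl σ w x) e := by
    intro w x e
    show Real.log (w (((s^[x.val] e).toMul : (𝓞 L)ˣ) : L)) = Real.log (pl σ w x ((e.toMul : (𝓞 L)ˣ) : L))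
    rw [hsi, pl_apply, toMul_ofMul, ← coe_sU_iterate]
  -- the sum of all logarithms
  have hsum : ∀ (w : InfinitePlace L) (e : Additive (𝓞 L)ˣ), ∑ x, lg (pl σ w x) e = 0 := by
    intro w e
    have h1 := Units.sum_mult_mul_log (K := L) e.toMul
    have h2 : ∑ v : InfinitePlace L, lg v e = 0 := by
      have h3 : ∑ v : InfinitePlace L, (v.mult : ℝ) * Real.log (v ((e.toMul : 𝓞 L) : L)) =
          2 * ∑ v : InfinitePlace L, lg v e := by
        rw [Finset.mul_sum]
        refine Finset.sum_congr rfl fun v _ => ?_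
        rw [IsTotallyComplex.mult_eq]
        rfl
      rw [h3] at h1
      linarith
    rw [← h2]
    exact (pl_bijective hσ hK w).sum_comp (fun v => lg v e)
  -- the norm of `u` is a root of unity
  have htor : ∀ e : Additive (𝓞 L)ˣ, (nE n s e).toMul ∈ Units.torsion L := by
    intro e
    rw [Units.mem_torsion]
    intro w
    have h1 : lg w (nE n s e) = 0 := by
      rw [nE_eq, map_sum, ← hsum w e]
      exact Finset.sum_congr rfl fun x _ => hlg w x e
    have h2 : 0 < w (((nE n s e).toMul : (𝓞 L)ˣ) : L) :=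
      InfinitePlace.pos_iff.2 (RingOfIntegers.coe_ne_zero_iff.2 (Units.ne_zero _))
    exact Real.eq_one_of_pos_of_log_eq_zero h2 h1
  let m : ℕ := Units.torsionOrder L
  have hm : 0 < m := Units.torsionOrder_pos L
  refine ⟨m • Additive.ofMul u, ?_, ?_⟩
  · rw [map_nsmul]
    have h1 := htor (Additive.ofMul u)
    have h2 : (nE n s (Additive.ofMul u)).toMul ^ m = 1 := by
      have h3 : (⟨_, h1⟩ : Units.torsion L) ^ m = 1 := by
        exact pow_card_eq_one'
      exact congrArg Subtype.val h3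
    exact h2
  · intro a ha
    have hneg : ∀ x : ZMod n, x ≠ 0 → lg (pl σ w0 x) (m • Additive.ofMul u) < 0 := by
      intro x hx
      rw [map_nsmul, nsmul_eq_mul]
      have h1 : pl σ w0 x ≠ w0 := by
        intro h
        apply hx
        apply (pl_bijective hσ hK w0).1
        rw [h]
        apply InfinitePlace.ext
        intro z
        rw [pl_apply, ZMod.val_zero]
        rfl
      have h2 : lg (pl σ w0 x) (Additive.ofMul u) < 0 := hu _ h1
      have h3 : (0 : ℝ) < m := by exact_mod_cast hm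
      exact mul_neg_of_pos_of_neg h3 h2
    obtain ⟨x0, -, hx0⟩ := Finset.exists_min_image Finset.univ a Finset.univ_nonempty
    set ε := m • Additive.ofMul u with hε
    have key : ∀ x, a x = a x0 := by
      have h1 : lg (pl σ w0 (-x0)) (Phi n s ε a) = 0 := by rw [ha, map_zero]
      rw [Phi_apply, map_sum] at h1
      have h2 : ∀ x, lg (pl σ w0 (-x0)) (a x • s^[x.val] ε) =
          (a x : ℝ) * lg (pl σ w0 (x - x0)) ε := by
        intro x
        rw [map_zsmul, zsmul_eq_mul, hlg, pl_pl hσ, neg_add_eq_sub]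
      simp_rw [h2] at h1
      have h3 : ∑ x, (a x0 : ℝ) * lg (pl σ w0 (x - x0)) ε = 0 := by
        have h3' : ∑ x, lg (pl σ w0 (x - x0)) ε = 0 :=
          (Equiv.sum_comp (Equiv.subRight x0) (fun x => lg (pl σ w0 x) ε)).trans (hsum w0 ε)
        rw [← Finset.mul_sum, h3', mul_zero]
      have h4 : ∑ x, ((a x0 : ℝ) - a x) * lg (pl σ w0 (x - x0)) ε = 0 := by
        simp_rw [sub_mul, Finset.sum_sub_distrib]
        rw [h3, h1, sub_zero]
      have h5 : ∀ x ∈ Finset.univ, 0 ≤ ((a x0 : ℝ) - a x) * lg (pl σ w0 (x - x0)) ε := by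
        intro x _
        by_cases hx : x = x0
        · rw [hx]; simp
        · have h6 := hneg (x - x0) (sub_ne_zero.2 hx)
          have h7 : (a x0 : ℝ) - a x ≤ 0 := by
            have := hx0 x (Finset.mem_univ _)
            have : (a x0 : ℝ) ≤ a x := by exact_mod_cast this
            linarith
          exact mul_nonneg_of_nonpos_of_nonpos h7 h6.le
      have h6 := (Finset.sum_eq_zero_iff_of_nonneg h5).1 h4
      intro x
      by_cases hx : x = x0
      · rw [hx]
      · have h7 := h6 x (Finset.mem_univ _)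
        rcases mul_eq_zero.1 h7 with h | h
        · have : (a x0 : ℝ) = a x := by linarith
          exact (by exact_mod_cast this.symm)
        · exact absurd h (hneg (x - x0) (sub_ne_zero.2 hx)).ne
    intro x
    rw [key x, key 0]

/-- **Herbrand quotient of the units**: `|Ĥ⁻¹| = n |Ĥ⁰|`. -/
theorem herbrand_units {σ : L ≃ₐ[K] L} (hσ : ∀ τ, τ ∈ Subgroup.zpowers σ)
    [IsTotallyComplex K] (hK : finrank ℚ K = 2) :
    hc (nM (finrank K L) (sU σ)) (dM (sU σ)) =
      finrank K L * hc (dM (sU σ)) (nM (finrank K L) (sU σ)) := by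
  obtain ⟨ε, h1, h2⟩ := exists_minkowski hσ hK
  have hσn : σ ^ (finrank K L) = 1 := by rw [← orderOf_gen hσ]; exact pow_orderOf_eq_one σ
  have hs : ∀ x, (MonoidHom.toAdditive (sU σ))^[finrank K L] x = x := by
    intro x
    rw [iterate_toAdditive, sU_iterate hσn]
    rfl
  have h3 := herbrand_minkowski hs h1 h2 (index_ne_zero_of_rank h2 (by
    rw [Units.finrank_eq, Units.rank, (card_places (L := L) hK).2]
    have : 0 < finrank K L := finrank_pos
    omega))
  rw [hc_eq_hcAdd, hc_eq_hcAdd, nM_toAdditive, dM_toAdditive]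
  exact h3

end Fermat.Agent.P2.AR
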