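import Mathlib
import Fermat.Agent.P2.AR.Units
import Fermat.Agent.P2.AR.Invariant
import Fermat.Agent.P2.AR.ClassLift
import Fermat.Agent.CFT.SUnitsHerbrand

/-!
# The algebraic inequality `[L : K] ≤ [Cl(K) : N Cl(L)]`, `L/K` cyclic unramified, `K` imaginary
quadratic
-/

set_option autoImplicit false
set_option linter.unusedSectionVars false

noncomputable section

open NumberField IsDedekindDomain nonZeroDivisors Module Fermat.Agent.CFT.Herbrand
open scoped Pointwise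

namespace Fermat.Agent.P2.AR

variable {K L : Type*} [Field K] [NumberField K] [Field L] [NumberField L] [Algebra K L]
  [IsGalois K L]

theorem cmul (x y : 𝓞 L) : ((x * y : 𝓞 L) : L) = (x : L) * (y : L) := rfl

theorem cprod {ι : Type*} (t : Finset ι) (f : ι → 𝓞 L) :
    ((∏ i ∈ t, f i : 𝓞 L) : L) = ∏ i ∈ t, (f i : L) := map_prod (algebraMap (𝓞 L) L) f t

section Basic

variable {σ : L ≃ₐ[K] L} (hσ : ∀ τ, τ ∈ Subgroup.zpowers σ)

include hσ in
theorem forall_smul_eq {I : Ideal (𝓞 L)} (h : σ • I = I) (τ : L ≃ₐ[K] L) : τ • I = I := by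
  have h1 : σ ∈ MulAction.stabilizer (L ≃ₐ[K] L) I := h
  have h2 : Subgroup.zpowers σ ≤ MulAction.stabilizer (L ≃ₐ[K] L) I := by
    rwa [Subgroup.zpowers_le]
  exact h2 (hσ τ)

include hσ in
/-- an invariant ideal is extended -/
theorem exists_ext (hur : ∀ Q : HeightOneSpectrum (𝓞 L), Algebra.IsUnramifiedAt (𝓞 K) Q.asIdeal)
    (I : (Ideal (𝓞 L))⁰) (h : σ • (I : Ideal (𝓞 L)) = I) :
    ∃ J : (Ideal (𝓞 K))⁰, I = ClassGroup.extendedIdeal (𝓞 K) (𝓞 L) J := by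
  obtain ⟨J, hJ0, hJ⟩ := exists_map_eq_of_invariant hur _ (I : Ideal (𝓞 L))
    (nonZeroDivisors.coe_ne_zero I) (forall_smul_eq hσ h) le_rfl
  exact ⟨⟨J, mem_nonZeroDivisors_of_ne_zero hJ0⟩, Subtype.ext hJ⟩

/-- scaling by an element of the base -/
theorem exists_scale (β : Lˣ) : ∃ (m : 𝓞 K) (b : 𝓞 L), m ≠ 0 ∧ b ≠ 0 ∧
    (b : L) = algebraMap K L (m : K) * β := by
  obtain ⟨m, hm⟩ := IsIntegral.exists_multiple_integral_of_isLocalization (R := 𝓞 K)
    (𝓞 K)⁰ (Rₘ := K) (β : L) (Algebra.IsIntegral.isIntegral _)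
  have h1 : IsIntegral ℤ (m • (β : L)) := isIntegral_trans (A := 𝓞 K) _ hm
  have hm0 : (m : 𝓞 K) ≠ 0 := nonZeroDivisors.coe_ne_zero m
  refine ⟨m, ⟨m • (β : L), h1⟩, hm0, ?_, ?_⟩
  · rw [Ne, ← RingOfIntegers.coe_eq_zero_iff]
    show ¬ (m • (β : L)) = 0
    rw [Submonoid.smul_def, smul_eq_zero, not_or]
    exact ⟨hm0, β.ne_zero⟩
  · show m • (β : L) = _
    rw [Submonoid.smul_def, Algebra.smul_def, IsScalarTower.algebraMap_apply (𝓞 K) K L]

theorem coe_smul' (τ : L ≃ₐ[K] L) (x : 𝓞 L) : ((τ • x : 𝓞 L) : L) = τ (x : L) := rfl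

theorem smul_coe_sU (u : (𝓞 L)ˣ) : σ • (u : 𝓞 L) = (sU σ u : (𝓞 L)ˣ) := rfl

include hσ in
/-- Hilbert 90, integral form -/
theorem exists_integral_h90 {z : L} (hz : ∏ i ∈ Finset.range (finrank K L), (σ ^ i) z = 1) :
    ∃ b : 𝓞 L, b ≠ 0 ∧ ((σ • b : 𝓞 L) : L) = z * b := by
  obtain ⟨β, hβ⟩ := Fermat.Agent.CFT.SUH.hilbert90_cyclic (orderOf_gen hσ) hz
  obtain ⟨m, b, hm, hb, hbβ⟩ := exists_scale (K := K) β
  refine ⟨b, hb, ?_⟩
  rw [coe_smul', hbβ, map_mul, AlgEquiv.commutes, hβ]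
  ring

theorem coe_nM_sU (n : ℕ) (u : (𝓞 L)ˣ) :
    (((nM n (sU σ) u : (𝓞 L)ˣ) : 𝓞 L) : L) = ∏ i ∈ Finset.range n, (σ ^ i) ((u : 𝓞 L) : L) := by
  rw [nM_apply, Units.coe_prod, cprod]
  exact Finset.prod_congr rfl fun i _ => coe_sU_iterate σ i u

theorem span_eq_iff {x y : 𝓞 L} : Ideal.span {x} = Ideal.span {y} ↔ ∃ u : (𝓞 L)ˣ, x * u = y := by
  rw [Ideal.span_singleton_eq_span_singleton]
  rfl

end Basic

section Hm1

variable {σ : L ≃ₐ[K] L}

/-- `Ĥ⁻¹` of the units embeds in the capitulation kernel -/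
theorem hm1_le (hσ : ∀ τ, τ ∈ Subgroup.zpowers σ)
    (hur : ∀ Q : HeightOneSpectrum (𝓞 L), Algebra.IsUnramifiedAt (𝓞 K) Q.asIdeal) :
    hc (nM (finrank K L) (sU σ)) (dM (sU σ)) ≤
      Nat.card (ClassGroup.extendedHom (𝓞 K) (𝓞 L)).ker ∧
    hc (nM (finrank K L) (sU σ)) (dM (sU σ)) ≠ 0 := by
  have key : ∀ u : (nM (finrank K L) (sU σ)).ker, ∃ (b : 𝓞 L) (hb : b ≠ 0) (J : (Ideal (𝓞 K))⁰),
      σ • b = ((u : (𝓞 L)ˣ) : 𝓞 L) * b ∧
      (⟨_, span_mem_nzd hb⟩ : (Ideal (𝓞 L))⁰) = ClassGroup.extendedIdeal (𝓞 K) (𝓞 L) J := by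
    rintro ⟨u, hu⟩
    rw [MonoidHom.mem_ker] at hu
    have h1 := coe_nM_sU (σ := σ) (finrank K L) u
    rw [hu] at h1
    obtain ⟨b, hb, hb'⟩ := exists_integral_h90 hσ (z := ((u : 𝓞 L) : L)) (by rw [← h1]; simp)
    have hb'' : σ • b = (u : 𝓞 L) * b := by
      apply RingOfIntegers.ext
      rw [hb', cmul]
    obtain ⟨J, hJ⟩ := exists_ext hσ hur (⟨_, span_mem_nzd hb⟩ : (Ideal (𝓞 L))⁰) (by
      show σ • (Ideal.span {b} : Ideal (𝓞 L)) = Ideal.span {b}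
      rw [smul_span, hb'', eq_comm, span_eq_iff]
      exact ⟨u, mul_comm _ _⟩)
    exact ⟨b, hb, J, hb'', hJ⟩
  choose b hb J h1 h2 using key
  let f : (nM (finrank K L) (sU σ)).ker → (ClassGroup.extendedHom (𝓞 K) (𝓞 L)).ker := fun u =>
    ⟨ClassGroup.mk0 (J u), by
      rw [MonoidHom.mem_ker, ClassGroup.extendedHom_mk0, ← h2, mk0_span (hb u)]⟩
  refine relIndex_le_card _ _ f fun u u' h => ?_
  have h3 : ClassGroup.mk0 (J u) = ClassGroup.mk0 (J u') := congrArg Subtype.val h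
  obtain ⟨x, y, hx, hy, hxy⟩ := ClassGroup.mk0_eq_mk0_iff.1 h3
  have h4 : Ideal.span {algebraMap (𝓞 K) (𝓞 L) x * b u} =
      Ideal.span {algebraMap (𝓞 K) (𝓞 L) y * b u'} := by
    have h5 := congrArg (Ideal.map (algebraMap (𝓞 K) (𝓞 L))) hxy
    rw [Ideal.map_mul, Ideal.map_mul, Ideal.map_span, Ideal.map_span, Set.image_singleton,
      Set.image_singleton] at h5
    have h6 : ∀ u, Ideal.map (algebraMap (𝓞 K) (𝓞 L)) (J u : Ideal (𝓞 K)) = Ideal.span {b u} :=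
      fun u => (congrArg Subtype.val (h2 u)).symm
    rwa [h6, h6, Ideal.span_singleton_mul_span_singleton,
      Ideal.span_singleton_mul_span_singleton] at h5
  obtain ⟨v, hv⟩ := span_eq_iff.1 h4
  refine ⟨v, ?_⟩
  have h5 := congrArg (fun z => σ • z) hv
  simp only [smul_mul', smul_algebraMap, h1, smul_coe_sU] at h5
  have hx' : algebraMap (𝓞 K) (𝓞 L) x ≠ 0 :=
    (map_ne_zero_iff _ (FaithfulSMul.algebraMap_injective _ _)).2 hx
  have h6 : (algebraMap (𝓞 K) (𝓞 L) x * b u) * (((u : (𝓞 L)ˣ) : 𝓞 L) * (sU σ v : (𝓞 L)ˣ)) =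
      (algebraMap (𝓞 K) (𝓞 L) x * b u) * (((u' : (𝓞 L)ˣ) : 𝓞 L) * (v : (𝓞 L)ˣ)) := by
    calc _ = algebraMap (𝓞 K) (𝓞 L) x * (((u : (𝓞 L)ˣ) : 𝓞 L) * b u) * (sU σ v : (𝓞 L)ˣ) := by ring
      _ = algebraMap (𝓞 K) (𝓞 L) y * (((u' : (𝓞 L)ˣ) : 𝓞 L) * b u') := h5
      _ = ((u' : (𝓞 L)ˣ) : 𝓞 L) * (algebraMap (𝓞 K) (𝓞 L) y * b u') := by ring
      _ = _ := by rw [← hv]; ring
  have h7 : ((u : (𝓞 L)ˣ) : 𝓞 L) * (sU σ v : (𝓞 L)ˣ) = ((u' : (𝓞 L)ˣ) : 𝓞 L) * (v : (𝓞 L)ˣ) :=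
    mul_left_cancel₀ (mul_ne_zero hx' (hb u)) h6
  have h8 : (u : (𝓞 L)ˣ) * sU σ v = (u' : (𝓞 L)ˣ) * v := Units.ext h7
  show sU σ v / v = (u : (𝓞 L)ˣ)⁻¹ * (u' : (𝓞 L)ˣ)
  rw [div_eq_iff_eq_mul, mul_assoc, ← h8, inv_mul_cancel_left]

end Hm1

section H0

variable {σ : L ≃ₐ[K] L}

/-- the norm of an integer, in `L` -/
def Nr (σ : L ≃ₐ[K] L) : 𝓞 L →* 𝓞 L where
  toFun x := ∏ i ∈ Finset.range (finrank K L), (σ ^ i) • x
  map_one' := Finset.prod_eq_one fun i _ => smul_one _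
  map_mul' x y := by simp only [smul_mul', Finset.prod_mul_distrib]

theorem Nr_apply (x : 𝓞 L) : Nr σ x = ∏ i ∈ Finset.range (finrank K L), (σ ^ i) • x := rfl

/-- the norm of an ideal, in `L` -/
def TI (σ : L ≃ₐ[K] L) : Ideal (𝓞 L) →* Ideal (𝓞 L) where
  toFun x := ∏ i ∈ Finset.range (finrank K L), (σ ^ i) • x
  map_one' := Finset.prod_eq_one fun i _ => smul_one _
  map_mul' x y := by simp only [smul_mul', Finset.prod_mul_distrib]

theorem TI_apply (x : Ideal (𝓞 L)) : TI σ x = ∏ i ∈ Finset.range (finrank K L), (σ ^ i) • x := rfl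

theorem prod_shift {M : Type*} [CommMonoid M] [MulDistribMulAction (L ≃ₐ[K] L) M]
    (hσn : σ ^ (finrank K L) = 1) (x : M) :
    ∏ i ∈ Finset.range (finrank K L), (σ ^ (i + 1)) • x =
      ∏ i ∈ Finset.range (finrank K L), (σ ^ i) • x := by
  obtain ⟨m, hm⟩ : ∃ m, finrank K L = m + 1 := ⟨finrank K L - 1, by
    have : 0 < finrank K L := finrank_pos
    omega⟩
  rw [hm] at hσn ⊢
  rw [Finset.prod_range_succ, Finset.prod_range_succ' (fun i => (σ ^ i) • x), hσn, pow_zero]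

theorem smul_Nr (hσn : σ ^ (finrank K L) = 1) (x : 𝓞 L) : σ • Nr σ x = Nr σ x := by
  rw [Nr_apply, Finset.smul_prod', ← prod_shift hσn]
  refine Finset.prod_congr rfl fun i _ => ?_
  rw [smul_smul, ← pow_succ']

theorem smul_TI (hσn : σ ^ (finrank K L) = 1) (x : Ideal (𝓞 L)) : σ • TI σ x = TI σ x := by
  have h1 : σ • TI σ x = ∏ i ∈ Finset.range (finrank K L), (σ ^ (i + 1)) • x := by
    rw [TI_apply]
    have h2 : ∀ (t : Finset ℕ) (f : ℕ → Ideal (𝓞 L)), σ • ∏ i ∈ t, f i = ∏ i ∈ t, σ • f i := by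
      intro t f
      induction t using Finset.induction_on with
      | empty => rw [Finset.prod_empty, Finset.prod_empty, smul_one]
      | insert a t ha ih => rw [Finset.prod_insert ha, Finset.prod_insert ha, smul_mul', ih]
    rw [h2]
    refine Finset.prod_congr rfl fun i _ => ?_
    rw [smul_smul, ← pow_succ']
  rw [h1, TI_apply]
  obtain ⟨m, hm⟩ : ∃ m, finrank K L = m + 1 := ⟨finrank K L - 1, by
    have : 0 < finrank K L := finrank_pos
    omega⟩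
  rw [hm] at hσn ⊢
  rw [Finset.prod_range_succ, Finset.prod_range_succ' (fun i => (σ ^ i) • x), hσn, pow_zero]

theorem TI_smul (hσn : σ ^ (finrank K L) = 1) (x : Ideal (𝓞 L)) : TI σ (σ • x) = TI σ x := by
  have h1 : TI σ (σ • x) = ∏ i ∈ Finset.range (finrank K L), (σ ^ (i + 1)) • x := by
    rw [TI_apply]
    refine Finset.prod_congr rfl fun i _ => ?_
    rw [smul_smul, ← pow_succ]
  rw [h1, TI_apply]
  obtain ⟨m, hm⟩ : ∃ m, finrank K L = m + 1 := ⟨finrank K L - 1, by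
    have : 0 < finrank K L := finrank_pos
    omega⟩
  rw [hm] at hσn ⊢
  rw [Finset.prod_range_succ, Finset.prod_range_succ' (fun i => (σ ^ i) • x), hσn, pow_zero]

theorem TI_span (x : 𝓞 L) : TI σ (Ideal.span {x}) = Ideal.span {Nr σ x} := by
  rw [TI_apply, Nr_apply, ← Ideal.prod_span_singleton]
  exact Finset.prod_congr rfl fun i _ => smul_span _ _

theorem smul_ideal_ne_bot (τ : L ≃ₐ[K] L) {I : Ideal (𝓞 L)} (h : I ≠ ⊥) : τ • I ≠ ⊥ :=
  nonZeroDivisors.coe_ne_zero (sI τ ⟨I, mem_nonZeroDivisors_of_ne_zero h⟩)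

theorem TI_ne_bot {I : Ideal (𝓞 L)} (h : I ≠ ⊥) : TI σ I ≠ ⊥ := by
  rw [TI_apply]
  exact Finset.prod_ne_zero_iff.2 fun i _ => smul_ideal_ne_bot _ h

theorem Nr_ne_zero {x : 𝓞 L} (h : x ≠ 0) : Nr σ x ≠ 0 := by
  rw [Nr_apply]
  exact Finset.prod_ne_zero_iff.2 fun i _ => (smul_ne_zero_iff_ne _).2 h

theorem coe_Nr (x : 𝓞 L) : ((Nr σ x : 𝓞 L) : L) =
    ∏ i ∈ Finset.range (finrank K L), (σ ^ i) (x : L) := by
  rw [Nr_apply, cprod]
  rfl

/-- data attached to an invariant class -/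
theorem exists_data (hσn : σ ^ (finrank K L) = 1) {c : ClassGroup (𝓞 L)} (hc : sCl σ c = c) :
    ∃ (I : (Ideal (𝓞 L))⁰) (x y : 𝓞 L) (u : (𝓞 L)ˣ), x ≠ 0 ∧ y ≠ 0 ∧ ClassGroup.mk0 I = c ∧
      Ideal.span {x} * σ • (I : Ideal (𝓞 L)) = Ideal.span {y} * I ∧
      Nr σ x * u = Nr σ y ∧ sU σ u = u := by
  obtain ⟨I, rfl⟩ := ClassGroup.mk0_surjective c
  rw [sCl_mk0] at hc
  obtain ⟨x, y, hx, hy, hxy⟩ := ClassGroup.mk0_eq_mk0_iff.1 hc
  rw [coe_sI] at hxy
  have hI : (I : Ideal (𝓞 L)) ≠ ⊥ := nonZeroDivisors.coe_ne_zero I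
  have h1 := congrArg (TI σ) hxy
  rw [map_mul, map_mul, TI_smul hσn, TI_span, TI_span] at h1
  have h2 := mul_right_cancel₀ (TI_ne_bot hI) h1
  obtain ⟨u, hu⟩ := span_eq_iff.1 h2
  refine ⟨I, x, y, u, hx, hy, rfl, hxy, hu, ?_⟩
  have h3 := congrArg (fun z => σ • z) hu
  simp only [smul_mul', smul_Nr hσn, smul_coe_sU] at h3
  exact Units.ext (mul_left_cancel₀ (Nr_ne_zero hx) (h3.trans hu.symm))

/-- `Cl(L)^G / Cl(K)` embeds in `Ĥ⁰` of the units -/
theorem h0_le (hσ : ∀ τ, τ ∈ Subgroup.zpowers σ)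
    (hur : ∀ Q : HeightOneSpectrum (𝓞 L), Algebra.IsUnramifiedAt (𝓞 K) Q.asIdeal)
    (h0 : hc (dM (sU σ)) (nM (finrank K L) (sU σ)) ≠ 0) :
    (ClassGroup.extendedHom (𝓞 K) (𝓞 L)).range.relIndex (dM (sCl σ)).ker ≤
      hc (dM (sU σ)) (nM (finrank K L) (sU σ)) := by
  have hσn : σ ^ (finrank K L) = 1 := by rw [← orderOf_gen hσ]; exact pow_orderOf_eq_one σ
  have hdat : ∀ c : (dM (sCl σ)).ker, _ := fun c => exists_data hσn (c := (c : ClassGroup (𝓞 L)))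
    (div_eq_one.1 (MonoidHom.mem_ker.1 c.2))
  choose I x y u hx hy hI hxy hu hsu using hdat
  set R := (nM (finrank K L) (sU σ)).range with hR
  set E0 := (dM (sU σ)).ker with hE0
  have hfin : Finite (E0 ⧸ R.subgroupOf E0) := by
    have : Nat.card (E0 ⧸ R.subgroupOf E0) ≠ 0 := h0
    exact Nat.finite_of_card_ne_zero this
  let f : (dM (sCl σ)).ker → E0 ⧸ R.subgroupOf E0 := fun c =>
    QuotientGroup.mk ⟨u c, by
      rw [hE0, MonoidHom.mem_ker]
      show sU σ (u c) / u c = 1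
      rw [hsu, div_self']⟩
  refine (relIndex_le_card _ _ f fun c c' h => ?_).1
  rw [QuotientGroup.eq, Subgroup.mem_subgroupOf] at h
  obtain ⟨v, hv⟩ := h
  have hv' : nM (finrank K L) (sU σ) v = (u c)⁻¹ * u c' := hv
  -- `N (x' y v / (y' x)) = 1`
  have hne : ∀ {z : 𝓞 L}, z ≠ 0 → (z : L) ≠ 0 := fun hz => RingOfIntegers.coe_ne_zero_iff.2 hz
  have hnorm : ∏ i ∈ Finset.range (finrank K L), (σ ^ i)
      (((x c' : L) * (y c : L) * ((v : 𝓞 L) : L)) / ((y c' : L) * (x c : L))) = 1 := by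
    simp only [map_div₀, map_mul, Finset.prod_div_distrib, Finset.prod_mul_distrib]
    rw [← coe_nM_sU (σ := σ), hv', ← coe_Nr, ← coe_Nr, ← coe_Nr, ← coe_Nr, ← hu c, ← hu c']
    rw [div_eq_one_iff_eq (by
      refine mul_ne_zero ?_ (hne (Nr_ne_zero (hx c)))
      rw [hu c']
      exact hne (Nr_ne_zero (hy c')))]
    have h1 : ((u c : 𝓞 L)) * (((u c)⁻¹ * u c' : (𝓞 L)ˣ) : 𝓞 L) = u c' := by
      rw [Units.val_mul, ← mul_assoc, Units.mul_inv, one_mul]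
    have h2 := congrArg (fun z : 𝓞 L => (z : L)) h1
    simp only [cmul] at h2
    rw [cmul, cmul, ← h2]
    ring
  obtain ⟨b, hb, hbs⟩ := exists_integral_h90 hσ hnorm
  have hbs' : (σ • b) * (y c' * x c) = x c' * y c * v * b := by
    apply RingOfIntegers.ext
    rw [cmul, hbs, cmul, cmul, cmul, cmul]
    have h1 := hne (hy c')
    have h2 := hne (hx c)
    field_simp
  -- the complementary ideal
  set A : Ideal (𝓞 L) := (I c : Ideal (𝓞 L)) with hA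
  set A' : Ideal (𝓞 L) := (I c' : Ideal (𝓞 L)) with hA'
  have hA0 : A ≠ ⊥ := nonZeroDivisors.coe_ne_zero (I c)
  have hA'0 : A' ≠ ⊥ := nonZeroDivisors.coe_ne_zero (I c')
  obtain ⟨S, hS⟩ : A ∣ TI σ A := by
    rw [TI_apply]
    have h1 : (0 : ℕ) ∈ Finset.range (finrank K L) := Finset.mem_range.2 finrank_pos
    have h2 := Finset.dvd_prod_of_mem (fun i => (σ ^ i) • A) h1
    simpa using h2
  have hS0 : S ≠ ⊥ := by
    rintro rfl
    exact TI_ne_bot hA0 (by rw [hS, Ideal.mul_bot])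
  have hSs : Ideal.span {y c} * σ • S = Ideal.span {x c} * S := by
    have h1 := smul_TI hσn A
    rw [hS, smul_mul'] at h1
    have h2 : A * (Ideal.span {y c} * σ • S) = A * (Ideal.span {x c} * S) := by
      calc A * (Ideal.span {y c} * σ • S) = (Ideal.span {y c} * A) * σ • S := by ring
        _ = (Ideal.span {x c} * σ • A) * σ • S := by rw [← hxy c]
        _ = Ideal.span {x c} * (σ • A * σ • S) := by ring
        _ = _ := by rw [h1]; ring
    exact mul_left_cancel₀ hA0 h2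
  set J0 : Ideal (𝓞 L) := Ideal.span {b} * (A' * S) with hJ0
  have hJ0s : σ • J0 = J0 := by
    have hne1 : Ideal.span {x c' * y c} ≠ (0 : Ideal (𝓞 L)) := by
      rw [Ne, Ideal.zero_eq_bot, Ideal.span_singleton_eq_bot]
      exact mul_ne_zero (hx c') (hy c)
    refine mul_left_cancel₀ hne1 ?_
    rw [hJ0, smul_mul', smul_mul', smul_span]
    calc Ideal.span {x c' * y c} * (Ideal.span {σ • b} * (σ • A' * σ • S))
        = Ideal.span {σ • b} * ((Ideal.span {x c'} * σ • A') * (Ideal.span {y c} * σ • S)) := by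
          rw [← Ideal.span_singleton_mul_span_singleton]; ring
      _ = Ideal.span {σ • b} * ((Ideal.span {y c'} * A') * (Ideal.span {x c} * S)) := by
          rw [hxy c', hSs]
      _ = Ideal.span {(σ • b) * (y c' * x c)} * (A' * S) := by
          rw [← Ideal.span_singleton_mul_span_singleton, ← Ideal.span_singleton_mul_span_singleton]
          ring
      _ = Ideal.span {x c' * y c * v * b} * (A' * S) := by rw [hbs']
      _ = Ideal.span {x c' * y c * b} * (A' * S) := by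
          congr 1
          rw [eq_comm, span_eq_iff]
          exact ⟨v, by ring⟩
      _ = _ := by
          rw [← Ideal.span_singleton_mul_span_singleton]; ring
  have hb0 : Ideal.span {b} ≠ (⊥ : Ideal (𝓞 L)) := by
    rw [Ne, Ideal.span_singleton_eq_bot]; exact hb
  have hJ00 : J0 ≠ ⊥ := mul_ne_zero hb0 (mul_ne_zero hA'0 hS0)
  obtain ⟨J1, hJ1⟩ := exists_ext hσ hur ⟨J0, mem_nonZeroDivisors_of_ne_zero hJ00⟩ hJ0s
  obtain ⟨J2, hJ2⟩ := exists_ext hσ hur ⟨TI σ A, mem_nonZeroDivisors_of_ne_zero (TI_ne_bot hA0)⟩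
    (smul_TI hσn A)
  let S' : (Ideal (𝓞 L))⁰ := ⟨S, mem_nonZeroDivisors_of_ne_zero hS0⟩
  have e1 : ClassGroup.mk0 (⟨J0, mem_nonZeroDivisors_of_ne_zero hJ00⟩ : (Ideal (𝓞 L))⁰) =
      c' * ClassGroup.mk0 S' := by
    have h1 : (⟨J0, mem_nonZeroDivisors_of_ne_zero hJ00⟩ : (Ideal (𝓞 L))⁰) =
        ⟨_, span_mem_nzd hb⟩ * (I c' * S') := Subtype.ext rfl
    rw [h1, map_mul, mk0_span hb, one_mul, map_mul, hI]
  have e2 : ClassGroup.mk0 (⟨TI σ A, mem_nonZeroDivisors_of_ne_zero (TI_ne_bot hA0)⟩ :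
      (Ideal (𝓞 L))⁰) = c * ClassGroup.mk0 S' := by
    have h1 : (⟨TI σ A, mem_nonZeroDivisors_of_ne_zero (TI_ne_bot hA0)⟩ : (Ideal (𝓞 L))⁰) =
        I c * S' := Subtype.ext hS
    rw [h1, map_mul, hI]
  rw [hJ1, ← ClassGroup.extendedHom_mk0] at e1
  rw [hJ2, ← ClassGroup.extendedHom_mk0] at e2
  refine ⟨(ClassGroup.mk0 J2)⁻¹ * ClassGroup.mk0 J1, ?_⟩
  rw [map_mul, map_inv, e1, e2, mul_inv, mul_mul_mul_comm, inv_mul_cancel, mul_one]

end H0

/-- **The algebraic inequality** -/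
theorem finrank_le_index [IsTotallyComplex K] (hK : finrank ℚ K = 2) {σ : L ≃ₐ[K] L}
    (hσ : ∀ τ, τ ∈ Subgroup.zpowers σ)
    (hur : ∀ Q : HeightOneSpectrum (𝓞 L), Algebra.IsUnramifiedAt (𝓞 K) Q.asIdeal) :
    finrank K L ≤ (U K L).index := by
  set j := ClassGroup.extendedHom (𝓞 K) (𝓞 L) with hj
  have h1 := herbrand_units hσ hK
  have h2 := hm1_le hσ hur
  have h0 : hc (dM (sU σ)) (nM (finrank K L) (sU σ)) ≠ 0 := by
    intro h
    rw [h, mul_zero] at h1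
    exact h2.2 h1
  have h3 := h0_le hσ hur h0
  -- `|U| ≤ |Cl(L)^G|`
  have h4 : Nat.card (U K L) ≤ Nat.card (dM (sCl σ)).ker := by
    have h5 : Nat.card (dM (sCl σ)).ker * Nat.card (dM (sCl σ)).range =
        Nat.card (NCl K L).ker * Nat.card (NCl K L).range := by
      rw [← Subgroup.index_ker, Subgroup.card_mul_index, ← Subgroup.index_ker,
        Subgroup.card_mul_index]
    have h6 : (dM (sCl σ)).range ≤ (NCl K L).ker := by
      rintro _ ⟨c, rfl⟩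
      rw [MonoidHom.mem_ker]
      show NCl K L (sCl σ c / c) = 1
      rw [map_div, NCl_sCl, div_self']
    have h7 : Nat.card (dM (sCl σ)).range ≤ Nat.card (NCl K L).ker := Subgroup.card_le_of_le h6
    rw [U_eq_range]
    have h8 : 0 < Nat.card (NCl K L).ker := Nat.card_pos
    by_contra hcon
    push Not at hcon
    have h9 := Nat.mul_lt_mul_of_lt_of_le hcon h7 h8
    have h10 : Nat.card (dM (sCl σ)).ker * Nat.card (dM (sCl σ)).range <
        Nat.card (NCl K L).range * Nat.card (NCl K L).ker := h9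
    rw [h5, mul_comm] at h10
    exact lt_irrefl _ h10
  -- `|Cl(L)^G| ≤ |j(Cl(K))| |Ĥ⁰|`
  have h5 : Nat.card (dM (sCl σ)).ker ≤ Nat.card j.range *
      j.range.relIndex (dM (sCl σ)).ker := by
    rw [← Subgroup.inf_relIndex_right]
    have h6 := Subgroup.relIndex_mul_relIndex ⊥ (j.range ⊓ (dM (sCl σ)).ker) (dM (sCl σ)).ker
      bot_le inf_le_right
    rw [Subgroup.relIndex_bot_left, Subgroup.relIndex_bot_left] at h6
    rw [← h6]
    exact Nat.mul_le_mul_right _ (Subgroup.card_le_of_le inf_le_left)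
  have h6 : Nat.card j.ker * Nat.card j.range = Nat.card (ClassGroup (𝓞 K)) := by
    rw [← Subgroup.index_ker, Subgroup.card_mul_index]
  have h7 : Nat.card (U K L) * (U K L).index = Nat.card (ClassGroup (𝓞 K)) :=
    Subgroup.card_mul_index _
  have h8 : 0 < Nat.card (U K L) := Nat.card_pos
  refine Nat.le_of_mul_le_mul_left ?_ h8
  rw [h7, ← h6]
  calc Nat.card (U K L) * finrank K L
      ≤ (Nat.card j.range * hc (dM (sU σ)) (nM (finrank K L) (sU σ))) * finrank K L := by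
        refine Nat.mul_le_mul_right _ (h4.trans (h5.trans ?_))
        exact Nat.mul_le_mul_left _ h3
    _ = Nat.card j.range * hc (nM (finrank K L) (sU σ)) (dM (sU σ)) := by rw [h1]; ring
    _ ≤ Nat.card j.range * Nat.card j.ker := Nat.mul_le_mul_left _ h2.1
    _ = Nat.card j.ker * Nat.card j.range := mul_comm _ _

end Fermat.Agent.P2.AR
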