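import Fermat.Agent.P2.AR.FrobCls
import Fermat.Agent.P2.AR.Ineq

/-!
# Reciprocity for unramified cyclic characters of imaginary quadratic fields (final form)

* `Vsub K χ` : the subgroup of `Cl(K)` generated by the `[𝔭] ^ ord χ(Frob_𝔭)`;
* `index_Vsub` : its index is the order of `χ`;
* `exists_frobenius_notMem` : simultaneous existence of Frobenius elements with class outside the
  subgroups.
-/

set_option autoImplicit false
set_option linter.unusedSectionVars false

open NumberField IsDedekindDomain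
open Fermat.Agent.FrobExists Fermat.Agent.FrobPlaceLift Fermat.Agent.DedekindEuler
  Fermat.Agent.FrobDensity Fermat.Agent.CFT.W
open scoped Pointwise nonZeroDivisors

namespace Fermat.Agent.P2.AR

local notation "Ω" => AlgebraicClosure ℚ
local notation "GQ" => (AlgebraicClosure ℚ ≃ₐ[ℚ] AlgebraicClosure ℚ)

section Defs

variable (K : IntermediateField ℚ Ω) [NumberField K] {C : Type*} [Group C]
  (χ : K.fixingSubgroup →* C)

/-- The subgroup of the class group generated by the `[𝔭] ^ ord χ(Frob_𝔭)`, `𝔭` of degree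
one. -/
noncomputable def Vsub : Subgroup (ClassGroup (𝓞 K)) :=
  Subgroup.closure {c | ∃ (ℓ : ℕ) (P : ValuationSubring Ω) (φ : K.fixingSubgroup),
    ℓ.Prime ∧ P.LiesOverPrime ℓ ∧ P.IsFrobeniusAt (φ : GQ) ℓ ∧
      c = clsAt K P ^ orderOf (χ φ)}

variable {K χ}

theorem clsAt_pow_mem_Vsub {ℓ : ℕ} (hℓ : ℓ.Prime) {P : ValuationSubring Ω}
    (hP : P.LiesOverPrime ℓ) {φ : K.fixingSubgroup} (hφ : P.IsFrobeniusAt (φ : GQ) ℓ) :
    clsAt K P ^ orderOf (χ φ) ∈ Vsub K χ :=
  Subgroup.subset_closure ⟨ℓ, P, φ, hℓ, hP, hφ, rfl⟩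

theorem clsAt_mem_Vsub {ℓ : ℕ} (hℓ : ℓ.Prime) {P : ValuationSubring Ω}
    (hP : P.LiesOverPrime ℓ) {φ : K.fixingSubgroup} (hφ : P.IsFrobeniusAt (φ : GQ) ℓ)
    (h : χ φ = 1) : clsAt K P ∈ Vsub K χ := by
  have := clsAt_pow_mem_Vsub (χ := χ) hℓ hP hφ
  rwa [h, orderOf_one, pow_one] at this

theorem Vsub_le (hχ : Unr K χ) :
    haveI := numberField_Lx hχ
    Vsub K χ ≤ U K (Lx K χ) := by
  have hL := numberField_Lx hχ
  refine (Subgroup.closure_le _).mpr ?_
  rintro _ ⟨ℓ, P, φ, hℓ, hP, hφ, rfl⟩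
  exact clsAt_pow_mem_U hχ hℓ hP hφ (pow_orderOf_eq_one _)

end Defs

section Card

theorem card_galSub {K L F : Type*} [Field K] [NumberField K] [Field L] [NumberField L]
    [Field F] [NumberField F] [IsGalois ℚ F] [Algebra K L] [Algebra K F] [Algebra L F]
    [IsScalarTower K L F] :
    Nat.card (galSub K F) = Module.finrank K L * Nat.card (galSub L F) := by
  have hG := isGaloisGroup_galSub K F
  have hG' := isGaloisGroup_galSub L F
  rw [IsGaloisGroup.card_eq_finrank (galSub K F) K F,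
      IsGaloisGroup.card_eq_finrank (galSub L F) L F, Module.finrank_mul_finrank K L F]

end Card

section Inclusions

variable {K : IntermediateField ℚ Ω} {L : IntermediateField K Ω} {F : IntermediateField ℚ Ω}

/-- the inclusion of `L` into `F` -/
def incL (h : ∀ x ∈ L, x ∈ F) : L →+* F where
  toFun x := ⟨x, h x x.2⟩
  map_one' := rfl
  map_mul' _ _ := rfl
  map_zero' := rfl
  map_add' _ _ := rfl

/-- the inclusion of `K` into `F` -/
def incK (h : ∀ x ∈ K, x ∈ F) : K →+* F where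
  toFun x := ⟨x, h x x.2⟩
  map_one' := rfl
  map_mul' _ _ := rfl
  map_zero' := rfl
  map_add' _ _ := rfl

/-- Primes of a Galois number field with their Frobenius element, as places. -/
theorem exists_place_of_prime [NumberField K] [NumberField F] [IsGalois ℚ F]
    (hKF : ∀ x ∈ K, x ∈ F) (P : HeightOneSpectrum (𝓞 F))
    (hP : ∀ σ : F ≃ₐ[ℚ] F, σ ∈ P.asIdeal.inertia (F ≃ₐ[ℚ] F) → σ = 1) :
    letI := (incK hKF).toAlgebra
    ∃ A : ValuationSubring Ω, A.LiesOverPrime (below P) ∧ ∃ σ : GQ,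
      A.IsFrobeniusAt σ (below P) ∧ AlgEquiv.restrictNormal σ F = frob P ∧
      clsAt K A = cls (underE K P) := by
  let _ := (incK hKF).toAlgebra
  have hPp := P.isPrime
  obtain ⟨A, hA, hAP⟩ := exists_centerOn_eq F (below_prime P) P.asIdeal
    ((natCast_mem_iff P _).mpr dvd_rfl)
  obtain ⟨σ, hσ⟩ := exists_isFrobeniusAt A (below_prime P) hA
  refine ⟨A, hA, σ, hσ, ?_, ?_⟩
  · refine restrictNormal_eq F (below_prime P) hA ?_ hσ ?_
    · rw [hAP]
      exact hP
    · rw [hAP]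
      exact isArithFrobAt_frob P
  · rw [clsAt_eq K (below_prime P) hA]
    congr 1
    refine HeightOneSpectrum.ext ?_
    ext x
    show x ∈ centerOn K A ↔ algebraMap (𝓞 K) (𝓞 F) x ∈ P.asIdeal
    rw [← hAP, mem_centerOn, mem_centerOn]
    rfl

end Inclusions

section Main

variable {K : IntermediateField ℚ Ω} [NumberField K]

theorem index_Vsub_le {C : Type*} [Group C] {χ : K.fixingSubgroup →* C} (hχ : Unr K χ) :
    (Vsub K χ).index ≤ Nat.card χ.range := by
  have hL := numberField_Lx hχ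
  have hLfd : FiniteDimensional ℚ ((Lx K χ).restrictScalars ℚ) :=
    (NumberField.to_finiteDimensional : FiniteDimensional ℚ (Lx K χ))
  let F : IntermediateField ℚ Ω :=
    IntermediateField.normalClosure ℚ ((Lx K χ).restrictScalars ℚ) Ω
  have hFfd : FiniteDimensional ℚ F := normalClosure.is_finiteDimensional ℚ _ Ω
  have hFn : Normal ℚ F := normalClosure.normal ℚ _ Ω
  have hFg : IsGalois ℚ F := ⟨⟩
  have hF : NumberField F := numberField F
  have hLF : ∀ x ∈ Lx K χ, x ∈ F := fun x hx =>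
    IntermediateField.le_normalClosure ((Lx K χ).restrictScalars ℚ) hx
  have hKF : ∀ x ∈ K, x ∈ F := fun x hx => hLF x ((Lx K χ).algebraMap_mem ⟨x, hx⟩)
  let _ := (incK hKF).toAlgebra
  let _ := (incL hLF).toAlgebra
  have htower : IsScalarTower K (Lx K χ) F := IsScalarTower.of_algebraMap_eq fun x => rfl
  have hG := isGaloisGroup_galSub K F
  have hG' := isGaloisGroup_galSub (Lx K χ) F
  refine index_le (galSub K F) ∅ (Vsub K χ) (galSub (Lx K χ) F)
    (fun γ hγ ↦ mem_galSub.mpr fun y ↦ by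
      rw [IsScalarTower.algebraMap_apply K (Lx K χ) F]
      exact mem_galSub.mp hγ _) (Nat.card χ.range) ?_ ?_
  · rw [← finrank_Lx hχ]
    exact card_galSub
  · intro P _ hP hPL
    obtain ⟨A, hA, σ, hσ, hσF, hcl⟩ := exists_place_of_prime hKF P hP
    rw [← hcl]
    have hσL : ∀ x ∈ Lx K χ, σ x = x := by
      intro x hx
      have h1 := AlgEquiv.restrictNormal_commutes σ F ⟨x, hLF x hx⟩
      rw [hσF] at h1
      have h2 : frob P ⟨x, hLF x hx⟩ = ⟨x, hLF x hx⟩ := mem_galSub.mp hPL ⟨x, hx⟩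
      rw [h2] at h1
      exact h1.symm
    have hσK : σ ∈ K.fixingSubgroup := by
      rw [IntermediateField.mem_fixingSubgroup_iff]
      exact fun x hx => hσL x ((Lx K χ).algebraMap_mem ⟨x, hx⟩)
    exact clsAt_mem_Vsub (φ := ⟨σ, hσK⟩) (below_prime P) hA hσ ((mem_ker_iff hχ _).mpr hσL)

variable [IsTotallyComplex K] (hK : Module.finrank ℚ K = 2)

include hK

theorem card_range_le_index {C : Type*} [Group C] {χ : K.fixingSubgroup →* C} (hχ : Unr K χ) :
    haveI := numberField_Lx hχ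
    Nat.card χ.range ≤ (U K (Lx K χ)).index := by
  have hL := numberField_Lx hχ
  have hgal := (finite_and_isGalois hχ).2
  obtain ⟨σ, hσ⟩ := exists_generator hχ
  rw [← finrank_Lx hχ]
  exact finrank_le_index hK hσ (isUnramifiedAt_Lx hχ)

/-- **The index of the norm subgroup is the order of the character.** -/
theorem index_Vsub {C : Type*} [Group C] {χ : K.fixingSubgroup →* C} (hχ : Unr K χ) :
    (Vsub K χ).index = Nat.card χ.range := by
  have hL := numberField_Lx hχ
  refine le_antisymm (index_Vsub_le hχ) ((card_range_le_index hK hχ).trans ?_)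
  exact Nat.le_of_dvd (index_pos _) (Subgroup.index_dvd_of_le (Vsub_le hχ))

theorem Vsub_eq {C : Type*} [Group C] {χ : K.fixingSubgroup →* C} (hχ : Unr K χ) :
    haveI := numberField_Lx hχ
    Vsub K χ = U K (Lx K χ) := by
  have hL := numberField_Lx hχ
  refine Subgroup.eq_of_le_of_card_ge (Vsub_le hχ) ?_
  have h1 := (Vsub K χ).card_mul_index
  have h2 := (U K (Lx K χ)).card_mul_index
  rw [index_Vsub hK hχ] at h1
  have h3 := card_range_le_index hK hχ
  have h4 := index_pos (U K (Lx K χ))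
  have h5 : 0 < Nat.card χ.range := by
    rw [← index_Vsub hK hχ]
    exact index_pos _
  have h6 : Nat.card (U K (Lx K χ)) * Nat.card χ.range ≤ Nat.card (Vsub K χ) * Nat.card χ.range := by
    rw [h1, ← h2]
    exact Nat.mul_le_mul_left _ h3
  exact Nat.le_of_mul_le_mul_right h6 h5

/-- **Simultaneous existence.** -/
theorem exists_frobenius_notMem {ι : Type*} [Finite ι] {C : ι → Type*} [∀ i, Group (C i)]
    (χ : ∀ i, K.fixingSubgroup →* C i) (hχ : ∀ i, Unr K (χ i)) (F₀ : IntermediateField ℚ Ω)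
    [FiniteDimensional ℚ F₀] (B : Finset ℕ) (g : K.fixingSubgroup) :
    ∃ ℓ : ℕ, ℓ.Prime ∧ ℓ ∉ B ∧ ∃ P : ValuationSubring Ω, P.LiesOverPrime ℓ ∧
      ∃ φ : K.fixingSubgroup, P.IsFrobeniusAt (φ : GQ) ℓ ∧ (∀ x ∈ F₀, (φ : GQ) x = (g : GQ) x) ∧
        ∀ i, χ i g ≠ 1 → clsAt K P ∉ Vsub K (χ i) := by
  have hL : ∀ i, NumberField (Lx K (χ i)) := fun i => numberField_Lx (hχ i)
  have hKfd : FiniteDimensional ℚ K := NumberField.to_finiteDimensional
  have hLfd : ∀ i, FiniteDimensional ℚ ((Lx K (χ i)).restrictScalars ℚ) := fun i =>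
    (NumberField.to_finiteDimensional : FiniteDimensional ℚ (Lx K (χ i)))
  let N : IntermediateField ℚ Ω := (⨆ i, (Lx K (χ i)).restrictScalars ℚ) ⊔ (F₀ ⊔ K)
  let F : IntermediateField ℚ Ω := IntermediateField.normalClosure ℚ N Ω
  have hFfd : FiniteDimensional ℚ F := normalClosure.is_finiteDimensional ℚ _ Ω
  have hFn : Normal ℚ F := normalClosure.normal ℚ _ Ω
  have hFg : IsGalois ℚ F := ⟨⟩
  have hF : NumberField F := numberField F
  have hNF : N ≤ F := IntermediateField.le_normalClosure N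
  have hLF : ∀ i, ∀ x ∈ Lx K (χ i), x ∈ F := fun i x hx => hNF
    ((le_sup_left : _ ≤ N) ((le_iSup (fun i => (Lx K (χ i)).restrictScalars ℚ) i) hx))
  have hF0 : ∀ x ∈ F₀, x ∈ F := fun x hx => hNF ((le_sup_right : _ ≤ N)
    ((le_sup_left : F₀ ≤ F₀ ⊔ K) hx))
  have hKF : ∀ x ∈ K, x ∈ F := fun x hx => hNF ((le_sup_right : _ ≤ N)
    ((le_sup_right : K ≤ F₀ ⊔ K) hx))
  let _ := (incK hKF).toAlgebra
  let _ : ∀ i, Algebra (Lx K (χ i)) F := fun i => (incL (hLF i)).toAlgebra
  have htower : ∀ i, IsScalarTower K (Lx K (χ i)) F := fun i =>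
    IsScalarTower.of_algebraMap_eq fun x => rfl
  have hcomm : ∀ (τ : GQ) (x : F), ((AlgEquiv.restrictNormal τ F x : F) : Ω) = τ (x : Ω) :=
    fun τ x => AlgEquiv.restrictNormal_commutes τ F x
  obtain ⟨P, hPB, hPi, hPg, hPU⟩ := exists_frob_notMem_U (K := K) (F := F)
    (fun i => Lx K (χ i)) (fun i => (finrank_Lx (hχ i)).le.trans (card_range_le_index hK (hχ i)))
    B (AlgEquiv.restrictNormal (g : GQ) F) (fun y => by
      apply Subtype.ext
      rw [hcomm]
      exact (IntermediateField.mem_fixingSubgroup_iff K _).mp g.2 _ y.2)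
  obtain ⟨A, hA, σ, hσ, hσF, hcl⟩ := exists_place_of_prime hKF P hPi
  have hσg : ∀ x ∈ F, σ x = (g : GQ) x := by
    intro x hx
    rw [← hcomm σ ⟨x, hx⟩, hσF, hPg, hcomm (g : GQ) ⟨x, hx⟩]
  have hσK : σ ∈ K.fixingSubgroup := by
    rw [IntermediateField.mem_fixingSubgroup_iff]
    intro x hx
    rw [hσg x (hKF x hx)]
    exact (IntermediateField.mem_fixingSubgroup_iff K _).mp g.2 x hx
  refine ⟨below P, below_prime P, hPB, A, hA, ⟨σ, hσK⟩, hσ, fun x hx => hσg x (hF0 x hx),
    fun i hi hmem => ?_⟩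
  rw [Ne, mem_ker_iff (hχ i)] at hi
  push Not at hi
  obtain ⟨y, hy, hgy⟩ := hi
  refine hPU i ⟨⟨y, hy⟩, fun h => hgy ?_⟩ ?_
  · have h1 := congrArg (Subtype.val) h
    rw [hcomm] at h1
    exact h1
  · rw [← hcl]
    exact Vsub_le (hχ i) hmem

end Main

end Fermat.Agent.P2.AR
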