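import Fermat.Agent.P2.AR.Gal

/-!
# Classes of primes and Frobenius elements
-/

set_option autoImplicit false
set_option linter.unusedSectionVars false

open NumberField IsDedekindDomain
open Fermat.Agent.FrobExists Fermat.Agent.FrobPlaceLift Fermat.Agent.DedekindEuler
  Fermat.Agent.FrobDensity Fermat.Agent.CFT.W
open scoped Pointwise nonZeroDivisors

namespace Fermat.Agent.P2.AR

local notation "Ω" => AlgebraicClosure ℚ
local notation "GQ" => (AlgebraicClosure ℚ ≃ₐ[ℚ] AlgebraicClosure ℚ)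

section Abstract

variable {K L : Type*} [Field K] [NumberField K] [Field L] [NumberField L] [Algebra K L]

/-- If `y ^ ℓ = y` modulo `v`, then `N v = ℓ`. -/
theorem absNorm_eq_of_forall_pow (v : HeightOneSpectrum (𝓞 K))
    (h : ∀ y : 𝓞 K, y ^ below v - y ∈ v.asIdeal) : Ideal.absNorm v.asIdeal = below v := by
  have hvp := v.isPrime
  have hvm : v.asIdeal.IsMaximal := v.isMaximal
  have h1 : ∀ y : 𝓞 K ⧸ v.asIdeal, y ^ below v = y := by
    intro y
    obtain ⟨y, rfl⟩ := Ideal.Quotient.mk_surjective y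
    rw [← map_pow, Ideal.Quotient.eq]
    exact h y
  have hfin : Finite (𝓞 K ⧸ v.asIdeal) := Ideal.finiteQuotientOfFreeOfNeBot _ v.ne_bot
  let _ : Field (𝓞 K ⧸ v.asIdeal) := Ideal.Quotient.field v.asIdeal
  have h2 : Nat.card (𝓞 K ⧸ v.asIdeal) = below v ^ v.asIdeal.inertiaDeg ℤ := by
    rw [below_pow, Ideal.absNorm_apply, Submodule.cardQuot_apply]
  have h3 := dvd_of_forall_pow_eq (m := 1) (below_prime v).one_lt h2 (by
    rw [pow_one]
    exact h1)
  rw [← below_pow, Nat.dvd_one.mp h3, pow_one]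

theorem mk0_pow (I : (Ideal (𝓞 K))⁰) (n : ℕ) (h : (I : Ideal (𝓞 K)) ^ n ∈ (Ideal (𝓞 K))⁰) :
    ClassGroup.mk0 (⟨(I : Ideal (𝓞 K)) ^ n, h⟩ : (Ideal (𝓞 K))⁰) = ClassGroup.mk0 I ^ n := by
  rw [← map_pow]
  rfl

/-- The norm relation. -/
theorem cls_pow_mem_U (Q : HeightOneSpectrum (𝓞 L)) (v : HeightOneSpectrum (𝓞 K))
    (hQ : Q.asIdeal.under (𝓞 K) = v.asIdeal) (hv : Ideal.absNorm v.asIdeal = below v) {m : ℕ}
    (hm : ∀ x : 𝓞 L, x ^ below v ^ m - x ∈ Q.asIdeal) : cls v ^ m ∈ U K L := by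
  have hvp := v.isPrime
  have hvm : v.asIdeal.IsMaximal := v.isMaximal
  have hQp := Q.isPrime
  have hQm : Q.asIdeal.IsMaximal := Q.isMaximal
  have hlies : Q.asIdeal.LiesOver v.asIdeal := ⟨hQ.symm⟩
  have h4 := Ideal.relNorm_eq_pow_of_isMaximal (R := 𝓞 K) Q.asIdeal v.asIdeal
  have h5 := Ideal.absNorm_relNorm (𝓞 K) (𝓞 L) Q.asIdeal
  rw [h4, map_pow, hv] at h5
  have hfin : Finite (𝓞 L ⧸ Q.asIdeal) := Ideal.finiteQuotientOfFreeOfNeBot _ Q.ne_bot
  let _ : Field (𝓞 L ⧸ Q.asIdeal) := Ideal.Quotient.field Q.asIdeal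
  have h2 : Nat.card (𝓞 L ⧸ Q.asIdeal) = below v ^ Q.asIdeal.inertiaDeg (𝓞 K) := by
    rw [h5, Ideal.absNorm_apply, Submodule.cardQuot_apply]
  obtain ⟨k, hk⟩ := dvd_of_forall_pow_eq (m := m) (below_prime v).one_lt h2 (by
    intro y
    obtain ⟨y, rfl⟩ := Ideal.Quotient.mk_surjective y
    rw [← map_pow, Ideal.Quotient.eq]
    exact hm y)
  refine Subgroup.subset_closure ⟨⟨Q.asIdeal ^ k, mem_nonZeroDivisors_of_ne_zero
    (pow_ne_zero k Q.ne_bot)⟩, ⟨v.asIdeal ^ m, mem_nonZeroDivisors_of_ne_zero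
    (pow_ne_zero m v.ne_bot)⟩, ?_, ?_⟩
  · show v.asIdeal ^ m = Ideal.relNorm (𝓞 K) (Q.asIdeal ^ k)
    rw [map_pow, h4, ← pow_mul, hk]
  · exact (mk0_pow ⟨v.asIdeal, mem_nonZeroDivisors_of_ne_zero v.ne_bot⟩ m _).symm

end Abstract

section Frob

variable {K : IntermediateField ℚ Ω} [NumberField K] {C : Type*} [Group C]
  {χ : K.fixingSubgroup →* C}

/-- If there is a Frobenius element in `Gal(ℚ̄/K)` the prime of `K` has degree one. -/
theorem absNorm_centerOn {A : ValuationSubring Ω} {ℓ : ℕ} (hℓ : ℓ.Prime)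
    (hA : A.LiesOverPrime ℓ) {φ : K.fixingSubgroup} (hφ : A.IsFrobeniusAt (φ : GQ) ℓ) :
    Ideal.absNorm (centerOn K A) = ℓ := by
  have h1 : below (primeOn K hℓ hA) = ℓ := below_primeOn K hℓ hA
  have h2 := absNorm_eq_of_forall_pow (primeOn K hℓ hA) (by
    intro y
    rw [h1, ← neg_sub]
    refine Submodule.neg_mem _ ?_
    have h3 := isFrobeniusAt_pow K hφ 1 y y (by
      rw [pow_one]
      exact (IntermediateField.mem_fixingSubgroup_iff K _).mp φ.2 _ (y : K).2)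
    rw [pow_one] at h3
    exact h3)
  rw [h1] at h2
  exact h2

/-- Frobenius elements at the level of the field cut out by `χ`. -/
theorem clsAt_pow_mem_U (hχ : Unr K χ) {A : ValuationSubring Ω} {ℓ : ℕ} (hℓ : ℓ.Prime)
    (hA : A.LiesOverPrime ℓ) {φ : K.fixingSubgroup} (hφ : A.IsFrobeniusAt (φ : GQ) ℓ) {m : ℕ}
    (hm : χ φ ^ m = 1) :
    haveI := numberField_Lx hχ
    clsAt K A ^ m ∈ U K (Lx K χ) := by
  have hL := numberField_Lx hχ
  rw [clsAt_eq K hℓ hA]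
  have h1 : below (primeOn K hℓ hA) = ℓ := below_primeOn K hℓ hA
  refine cls_pow_mem_U (place A (algebraMap (Lx K χ) Ω) hℓ.ne_zero hA) (primeOn K hℓ hA) ?_
    ((absNorm_centerOn hℓ hA hφ).trans h1.symm) (m := m) ?_
  · ext x
    rw [Ideal.mem_comap, mem_place]
    exact (mem_centerOn K A x).symm
  · intro x
    rw [h1, mem_place]
    rw [← map_pow, mem_ker_iff hχ] at hm
    have h2 : ((φ : GQ) ^ m) ((x : Lx K χ) : Ω) = ((x : Lx K χ) : Ω) :=
      hm (x : Lx K χ) (x : Lx K χ).2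
    have h3 := pow_sub_mem_nonunits hφ m
      ((RingOfIntegers.isIntegral_coe x).map ((algebraMap (Lx K χ) Ω).toIntAlgHom))
    have h4 : algebraMap (Lx K χ) Ω ((x ^ ℓ ^ m - x : 𝓞 (Lx K χ)) : Lx K χ) =
        -(((φ : GQ) ^ m) ((x : Lx K χ) : Ω) - ((x : Lx K χ) : Ω) ^ ℓ ^ m) := by
      rw [h2, neg_sub]
      rfl
    rw [h4, ValuationSubring.mem_nonunits_iff, Valuation.map_neg,
      ← ValuationSubring.mem_nonunits_iff]
    exact h3

end Frob

end Fermat.Agent.P2.AR
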