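import Fermat.Agent.P2.AR.Place
import Fermat.Agent.CFT.W.Place

/-!
# Unramified characters of `Gal(ℚ̄/K)` and the fields they cut out
-/

set_option autoImplicit false
set_option linter.unusedSectionVars false

open NumberField IsDedekindDomain
open Fermat.Agent.FrobExists Fermat.Agent.FrobPlaceLift Fermat.Agent.DedekindEuler
  Fermat.Agent.FrobDensity Fermat.Agent.CFT.W
open scoped Pointwise nonZeroDivisors

namespace Fermat.Agent.P2.AR

local notation "Ω" => AlgebraicClosure ℚ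
local notation "GQ" => (AlgebraicClosure ℚ ≃ₐ[ℚ] AlgebraicClosure ℚ)

variable (K : IntermediateField ℚ Ω) {C : Type*} [Group C] (χ : K.fixingSubgroup →* C)

/-- an unramified cyclic character of `Gal(ℚ̄/K)` -/
structure Unr : Prop where
  cyclic : IsCyclic χ.range
  cont : ∃ L : IntermediateField ℚ Ω, FiniteDimensional ℚ L ∧
    ∀ g : K.fixingSubgroup, (∀ x ∈ L, (g : GQ) x = x) → χ g = 1
  unr : ∀ ℓ : ℕ, ℓ.Prime → ∀ P : ValuationSubring Ω, P.LiesOverPrime ℓ →
    ∀ g : K.fixingSubgroup, (g : GQ) ∈ P.inertiaSubgroupIn ℚ → χ g = 1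

/-- the character on `Gal(ℚ̄/K)` -/
noncomputable def chiK : (Ω ≃ₐ[K] Ω) →* C :=
  χ.comp (IntermediateField.fixingSubgroupEquiv K).symm.toMonoidHom

theorem chiK_equiv (g : K.fixingSubgroup) :
    chiK K χ (IntermediateField.fixingSubgroupEquiv K g) = χ g := by
  show χ ((IntermediateField.fixingSubgroupEquiv K).symm
    (IntermediateField.fixingSubgroupEquiv K g)) = χ g
  rw [MulEquiv.symm_apply_apply]

theorem range_chiK : (chiK K χ).range = χ.range := by
  ext c
  constructor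
  · rintro ⟨g, rfl⟩
    exact ⟨_, rfl⟩
  · rintro ⟨g, rfl⟩
    exact ⟨_, chiK_equiv K χ g⟩

/-- the field cut out by `χ` -/
noncomputable def Lx : IntermediateField K Ω := IntermediateField.fixedField (chiK K χ).ker

variable {K χ} [NumberField K]

instance instGal : IsGalois K Ω := inferInstance

theorem isOpen_ker (hχ : Unr K χ) : IsOpen ((chiK K χ).ker : Set (Ω ≃ₐ[K] Ω)) := by
  obtain ⟨L, hL, h⟩ := hχ.cont
  have hK : FiniteDimensional ℚ K := NumberField.to_finiteDimensional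
  let N : IntermediateField K Ω := IntermediateField.extendScalars (le_sup_left : K ≤ K ⊔ L)
  have h1 : Module.Finite ℚ N := (inferInstance : Module.Finite ℚ (K ⊔ L : IntermediateField ℚ Ω))
  have h2 : FiniteDimensional K N := FiniteDimensional.right ℚ K N
  refine Subgroup.isOpen_mono (H₁ := N.fixingSubgroup) ?_ (IntermediateField.fixingSubgroup_isOpen N)
  intro g hg
  rw [MonoidHom.mem_ker]
  refine h _ fun x hx => ?_
  exact (IntermediateField.mem_fixingSubgroup_iff N g).mp hg x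
    ((le_sup_right : L ≤ K ⊔ L) hx)

theorem isClosed_ker (hχ : Unr K χ) : IsClosed ((chiK K χ).ker : Set (Ω ≃ₐ[K] Ω)) :=
  Subgroup.isClosed_of_isOpen _ (isOpen_ker hχ)

theorem fixingSubgroup_Lx (hχ : Unr K χ) : (Lx K χ).fixingSubgroup = (chiK K χ).ker :=
  InfiniteGalois.fixingSubgroup_fixedField ⟨(chiK K χ).ker, isClosed_ker hχ⟩

theorem finite_and_isGalois (hχ : Unr K χ) :
    FiniteDimensional K (Lx K χ) ∧ IsGalois K (Lx K χ) := by
  rw [← InfiniteGalois.isOpen_and_normal_iff_finite_and_isGalois, fixingSubgroup_Lx hχ]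
  exact ⟨isOpen_ker hχ, inferInstance⟩

theorem numberField_Lx (hχ : Unr K χ) : NumberField (Lx K χ) := by
  have h1 := (finite_and_isGalois hχ).1
  have h2 : FiniteDimensional ℚ K := NumberField.to_finiteDimensional
  exact { to_charZero := inferInstance, to_finiteDimensional := Module.Finite.trans K (Lx K χ) }

/-- the Galois group of the field cut out by `χ` -/
noncomputable def galEquiv (hχ : Unr K χ) : χ.range ≃* (Lx K χ ≃ₐ[K] Lx K χ) :=
  (MulEquiv.subgroupCongr (range_chiK K χ)).symm.trans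
    ((QuotientGroup.quotientKerEquivRange (chiK K χ)).symm.trans
      (haveI : ((⟨(chiK K χ).ker, isClosed_ker hχ⟩ : ClosedSubgroup (Ω ≃ₐ[K] Ω)) :
        Subgroup (Ω ≃ₐ[K] Ω)).Normal := inferInstanceAs ((chiK K χ).ker.Normal)
       InfiniteGalois.normalAutEquivQuotient ⟨(chiK K χ).ker, isClosed_ker hχ⟩))

theorem exists_generator (hχ : Unr K χ) :
    ∃ σ : Lx K χ ≃ₐ[K] Lx K χ, ∀ τ, τ ∈ Subgroup.zpowers σ := by
  have := hχ.cyclic
  have h : IsCyclic (Lx K χ ≃ₐ[K] Lx K χ) := isCyclic_of_surjective _ (galEquiv hχ).surjective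
  exact h.exists_generator

theorem finrank_Lx (hχ : Unr K χ) : Module.finrank K (Lx K χ) = Nat.card χ.range := by
  have h1 := (finite_and_isGalois hχ).1
  have h2 := (finite_and_isGalois hχ).2
  rw [← IsGalois.card_aut_eq_finrank, Nat.card_congr (galEquiv hχ).toEquiv]

theorem mem_ker_iff (hχ : Unr K χ) (g : K.fixingSubgroup) :
    χ g = 1 ↔ ∀ x ∈ Lx K χ, (g : GQ) x = x := by
  rw [← chiK_equiv, ← MonoidHom.mem_ker, ← fixingSubgroup_Lx hχ,
    IntermediateField.mem_fixingSubgroup_iff]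
  rfl

/-- The inertia groups of `Lx K χ / K` are trivial. -/
theorem inertia_Lx (hχ : Unr K χ) (Q : HeightOneSpectrum (𝓞 (Lx K χ)))
    (τ : Lx K χ ≃ₐ[K] Lx K χ) (hτ : τ ∈ Q.asIdeal.inertia (Lx K χ ≃ₐ[K] Lx K χ)) : τ = 1 := by
  have hL : NumberField (Lx K χ) := numberField_Lx hχ
  have hgal := (finite_and_isGalois hχ).2
  have hmem : ((below Q : ℕ) : 𝓞 (Lx K χ)) ∈ Q.asIdeal := (natCast_mem_iff Q _).mpr dvd_rfl
  obtain ⟨A, hA, hAQ⟩ := exists_valuationSubring_place (Lx K χ) Ω (algebraMap (Lx K χ) Ω) Q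
    (below_prime Q).ne_zero hmem
  obtain ⟨g, hg⟩ := AlgEquiv.restrictNormalHom_surjective (F := K) (K₁ := Lx K χ) (E := Ω) τ
  let g' : K.fixingSubgroup := (IntermediateField.fixingSubgroupEquiv K).symm g
  have hg' : ∀ x : Ω, (g' : GQ) x = g x := fun x => rfl
  have hcomm : ∀ y : Lx K χ, g (y : Ω) = ((τ y : Lx K χ) : Ω) := by
    intro y
    rw [← hg]
    exact (AlgEquiv.restrictNormal_commutes g (Lx K χ) y).symm
  obtain ⟨σ, hσ, hσg⟩ := Fermat.Agent.FlatOrd.InertiaLift.exists_mul_mem_inertia_of_intermediateField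
    ((Lx K χ).restrictScalars ℚ) A (below_prime Q) hA (g' : GQ) (by
      intro x hx
      have hint : IsIntegral ℤ (⟨(x : Ω), hx⟩ : Lx K χ) := by
        have h1 : IsIntegral ℤ (algebraMap (Lx K χ) Ω ⟨(x : Ω), hx⟩) := x.2
        exact (isIntegral_algebraMap_iff (algebraMap (Lx K χ) Ω).injective).mp h1
      let y : 𝓞 (Lx K χ) := ⟨⟨(x : Ω), hx⟩, hint⟩
      have h1 : τ • y - y ∈ Q.asIdeal := hτ y
      rw [← hAQ, mem_place] at h1
      rw [mem_center]
      have h2 : (((g' : GQ) • x - x : integralClosure ℤ Ω) : Ω) =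
          algebraMap (Lx K χ) Ω ((τ • y - y : 𝓞 (Lx K χ)) : Lx K χ) := by
        have h3 : ((τ • y - y : 𝓞 (Lx K χ)) : Lx K χ) = τ (y : Lx K χ) - (y : Lx K χ) := rfl
        rw [h3, map_sub]
        have h4 : algebraMap (Lx K χ) Ω (τ (y : Lx K χ)) = g (x : Ω) := (hcomm (y : Lx K χ)).symm
        rw [h4]
        rfl
      rw [h2]
      exact h1)
  have hσK : σ ∈ K.fixingSubgroup := by
    rw [IntermediateField.mem_fixingSubgroup_iff]
    intro x hx
    rw [hσg x ((Lx K χ).algebraMap_mem ⟨x, hx⟩)]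
    exact (IntermediateField.mem_fixingSubgroup_iff K _).mp g'.2 x hx
  have h1 : χ ⟨σ, hσK⟩ = 1 := hχ.unr _ (below_prime Q) A hA ⟨σ, hσK⟩ hσ
  rw [mem_ker_iff hχ] at h1
  refine AlgEquiv.ext fun y => Subtype.ext ?_
  rw [← hcomm, ← hg', ← hσg y y.2]
  exact h1 y y.2

/-- `Lx K χ / K` is unramified. -/
theorem isUnramifiedAt_Lx (hχ : Unr K χ) (Q : HeightOneSpectrum (𝓞 (Lx K χ))) :
    Algebra.IsUnramifiedAt (𝓞 K) Q.asIdeal := by
  have hL : NumberField (Lx K χ) := numberField_Lx hχ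
  have hgal := (finite_and_isGalois hχ).2
  have hfd := (finite_and_isGalois hχ).1
  have hp : (Q.asIdeal.under (𝓞 K)) ≠ ⊥ := fun h => Q.ne_bot (Ideal.eq_bot_of_comap_eq_bot h)
  have hpmax : (Q.asIdeal.under (𝓞 K)).IsMaximal := Ideal.IsPrime.isMaximal inferInstance hp
  have hfin : Finite (𝓞 K ⧸ (Q.asIdeal.under (𝓞 K))) :=
    Ideal.finiteQuotientOfFreeOfNeBot _ hp
  have hPF : PerfectField (Q.asIdeal.under (𝓞 K)).ResidueField := by
    have hs : Function.Surjective (algebraMap (𝓞 K ⧸ (Q.asIdeal.under (𝓞 K)))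
        (Q.asIdeal.under (𝓞 K)).ResidueField) :=
      (Ideal.bijective_algebraMap_quotient_residueField _).2
    have : Finite (Q.asIdeal.under (𝓞 K)).ResidueField := Finite.of_surjective _ hs
    infer_instance
  rw [← Ideal.ramificationIdx_eq_one_iff, ← Ideal.ramificationIdxIn_eq_ramificationIdx
    (Q.asIdeal.under (𝓞 K)) _ (Lx K χ ≃ₐ[K] Lx K χ),
    ← Ideal.card_inertia_eq_ramificationIdxIn (G := Lx K χ ≃ₐ[K] Lx K χ)
      (Q.asIdeal.under (𝓞 K)) Q.asIdeal, Nat.card_eq_one_iff_unique]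
  refine ⟨⟨fun a b => ?_⟩, ⟨1⟩⟩
  apply Subtype.ext
  rw [inertia_Lx hχ Q a.1 a.2, inertia_Lx hχ Q b.1 b.2]

end Fermat.Agent.P2.AR
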