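import Fermat.Agent.P2.AR.Simul
import Fermat.Agent.FrobPlaceLift
import Fermat.Agent.FlatOrd.InertiaLift

/-!
# Places of `ℚ̄` and primes of number fields
-/

set_option autoImplicit false
set_option linter.unusedSectionVars false

open NumberField IsDedekindDomain
open Fermat.Agent.FrobExists Fermat.Agent.FrobPlaceLift Fermat.Agent.DedekindEuler
  Fermat.Agent.FrobDensity
open scoped Pointwise nonZeroDivisors

namespace Fermat.Agent.P2.AR

local notation "Ω" => AlgebraicClosure ℚ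
local notation "GQ" => (AlgebraicClosure ℚ ≃ₐ[ℚ] AlgebraicClosure ℚ)

theorem numberField (L : IntermediateField ℚ Ω) [FiniteDimensional ℚ L] : NumberField L :=
  { to_charZero := inferInstance, to_finiteDimensional := inferInstance }

/-- If all elements of a finite field of cardinality `ℓ ^ f` satisfy `y ^ (ℓ ^ m) = y` then
`f ∣ m`. -/
theorem dvd_of_forall_pow_eq {k : Type*} [Field k] [Finite k] {ℓ f m : ℕ} (hℓ : 1 < ℓ)
    (hk : Nat.card k = ℓ ^ f) (h : ∀ y : k, y ^ ℓ ^ m = y) : f ∣ m := by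
  classical
  obtain ⟨g, hg⟩ := IsCyclic.exists_generator (α := kˣ)
  have h1 : orderOf g = ℓ ^ f - 1 := by
    rw [orderOf_eq_card_of_forall_mem_zpowers hg, Nat.card_units, hk]
  have h2 : g ^ (ℓ ^ m - 1) = 1 := by
    have h3 : g ^ ℓ ^ m = g := Units.ext (by rw [Units.val_pow_eq_pow_val]; exact h g)
    have h4 : g ^ (ℓ ^ m - 1) * g = g := by
      rw [← pow_succ, Nat.sub_add_cancel (Nat.one_le_pow _ _ (by omega)), h3]
    exact mul_eq_right.mp h4
  have h3 := orderOf_dvd_of_pow_eq_one h2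
  rw [h1] at h3
  have h4 := Nat.pow_sub_one_gcd_pow_sub_one ℓ f m
  rw [Nat.gcd_eq_left h3] at h4
  have h5 : ℓ ^ f = ℓ ^ f.gcd m := by
    have h6 := Nat.one_le_pow f ℓ (by omega)
    have h7 := Nat.one_le_pow (f.gcd m) ℓ (by omega)
    omega
  have h6 := Nat.pow_right_injective hℓ h5
  rw [h6]
  exact Nat.gcd_dvd_right f m

section Center

variable (L : IntermediateField ℚ Ω) [NumberField L]

theorem natCast_mem_centerOn {A : ValuationSubring Ω} {ℓ : ℕ} (hA : A.LiesOverPrime ℓ) :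
    (ℓ : 𝓞 L) ∈ centerOn L A := by
  rw [mem_centerOn]
  simpa using! hA

theorem centerOn_ne_bot {A : ValuationSubring Ω} {ℓ : ℕ} (hℓ : ℓ.Prime)
    (hA : A.LiesOverPrime ℓ) : centerOn L A ≠ ⊥ := by
  intro h
  have h1 := natCast_mem_centerOn L hA
  rw [h, Ideal.mem_bot] at h1
  exact hℓ.ne_zero (by exact_mod_cast h1)

/-- the prime of `L` below a place over `ℓ` -/
noncomputable def primeOn {A : ValuationSubring Ω} {ℓ : ℕ} (hℓ : ℓ.Prime)
    (hA : A.LiesOverPrime ℓ) : HeightOneSpectrum (𝓞 L) where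
  asIdeal := centerOn L A
  isPrime := inferInstance
  ne_bot := centerOn_ne_bot L hℓ hA

theorem below_primeOn {A : ValuationSubring Ω} {ℓ : ℕ} (hℓ : ℓ.Prime)
    (hA : A.LiesOverPrime ℓ) : below (primeOn L hℓ hA) = ℓ :=
  (below_eq_iff _ hℓ).mpr (natCast_mem_centerOn L hA)

open Classical in
/-- the class of the prime of `L` below a place -/
noncomputable def clsAt (A : ValuationSubring Ω) : ClassGroup (𝓞 L) :=
  if h : centerOn L A = ⊥ then 1
  else ClassGroup.mk0 ⟨centerOn L A, mem_nonZeroDivisors_of_ne_zero h⟩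

theorem clsAt_eq {A : ValuationSubring Ω} {ℓ : ℕ} (hℓ : ℓ.Prime)
    (hA : A.LiesOverPrime ℓ) : clsAt L A = cls (primeOn L hℓ hA) :=
  dif_neg (centerOn_ne_bot L hℓ hA)

/-- Every prime of a Galois number field is the centre of a place. -/
theorem exists_centerOn_eq [IsGalois ℚ L] {ℓ : ℕ} (hℓ : ℓ.Prime)
    (P : Ideal (𝓞 L)) [P.IsPrime] (hP : (ℓ : 𝓞 L) ∈ P) :
    ∃ A : ValuationSubring Ω, A.LiesOverPrime ℓ ∧ centerOn L A = P := by
  obtain ⟨A₀, hA₀⟩ := exists_liesOverPrime (AlgebraicClosure ℚ) hℓ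
  have hu0 := (centerOn_liesOver L A₀ hℓ hA₀).over
  have hmax : (Ideal.span {(ℓ : ℤ)}).IsMaximal :=
    PrincipalIdealRing.isMaximal_of_irreducible (Nat.prime_iff_prime_int.mp hℓ).irreducible
  have hu : Ideal.span {(ℓ : ℤ)} = P.under ℤ := by
    refine hmax.eq_of_le (Ideal.IsPrime.ne_top inferInstance) ?_
    rw [Ideal.span_singleton_le_iff_mem, Ideal.mem_comap]
    simpa using hP
  obtain ⟨g, hg⟩ := Algebra.IsInvariant.exists_smul_of_under_eq ℤ (𝓞 L) (L ≃ₐ[ℚ] L)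
    (centerOn L A₀) P (hu0.symm.trans hu)
  obtain ⟨g', hg'⟩ := AlgEquiv.restrictNormalHom_surjective (F := ℚ) (K₁ := L)
    (E := AlgebraicClosure ℚ) g
  refine ⟨g' • A₀, smul_liesOverPrime g' A₀ hA₀, ?_⟩
  rw [centerOn_smul, hg, ← hg']
  rfl

/-- Frobenius elements at a place restrict to the Frobenius element of a number field. -/
theorem restrictNormal_eq [IsGalois ℚ L] {ℓ : ℕ} (hℓ : ℓ.Prime)
    {A : ValuationSubring Ω} (hA : A.LiesOverPrime ℓ)
    (hunr : ∀ τ : L ≃ₐ[ℚ] L, τ ∈ (centerOn L A).inertia (L ≃ₐ[ℚ] L) → τ = 1)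
    {σ : GQ} (hσ : A.IsFrobeniusAt σ ℓ) {τ : L ≃ₐ[ℚ] L} (hτ : IsArithFrobAt ℤ τ (centerOn L A)) :
    AlgEquiv.restrictNormal σ L = τ := by
  have hu := (centerOn_liesOver L A hℓ hA).over
  have hσ' : IsArithFrobAt ℤ (AlgEquiv.restrictNormal σ L) (centerOn L A) := by
    intro x
    have h1 := sub_pow_mem_centerOn L A hσ x
    have hcard : Nat.card (ℤ ⧸ (centerOn L A).under ℤ) = ℓ := by
      have h2 : (centerOn L A).under ℤ = Ideal.span {(ℓ : ℤ)} := hu.symm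
      rw [h2]
      exact Int.card_ideal_quot ℓ
    rw [hcard]
    exact h1
  have h2 := hunr _ (hσ'.mul_inv_mem_inertia hτ)
  exact mul_inv_eq_one.mp h2

/-- Frobenius elements raise to the power `ℓ` modulo the maximal ideal. -/
theorem pow_sub_mem_nonunits {A : ValuationSubring Ω} {ℓ : ℕ} {σ : GQ}
    (hσ : A.IsFrobeniusAt σ ℓ) (m : ℕ) {z : Ω} (hz : IsIntegral ℤ z) :
    (σ ^ m) z - z ^ ℓ ^ m ∈ A.nonunits := by
  have h0 : z ∈ A := mem_of_isIntegral A hz
  obtain ⟨hd, h⟩ := hσ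
  have key : ∀ n : ℕ, ∀ z : A, ((⟨σ, hd⟩ : A.decompositionSubgroup ℚ) ^ n) •
      IsLocalRing.residue A z = IsLocalRing.residue A z ^ ℓ ^ n := by
    intro n z
    induction n with
    | zero => rw [pow_zero, one_smul, pow_zero, pow_one]
    | succ n ih => rw [pow_succ', mul_smul, ih, smul_pow', h, ← pow_mul, pow_succ', mul_comm]
  have h1 := key m ⟨_, h0⟩
  rw [← IsLocalRing.ResidueField.residue_smul, ← map_pow, ← sub_eq_zero, ← map_sub,
    IsLocalRing.residue_eq_zero_iff, ← ValuationSubring.coe_mem_nonunits_iff] at h1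
  convert h1 using 1
  have h2 : ((((⟨σ, hd⟩ : A.decompositionSubgroup ℚ) ^ m) • (⟨_, h0⟩ : A) : A) : Ω) =
      (σ ^ m) z := by
    show ((((⟨σ, hd⟩ : A.decompositionSubgroup ℚ) ^ m : A.decompositionSubgroup ℚ) : GQ)) z = _
    rw [SubmonoidClass.coe_pow]
  show (σ ^ m) z - z ^ ℓ ^ m =
    ((((⟨σ, hd⟩ : A.decompositionSubgroup ℚ) ^ m) • (⟨_, h0⟩ : A) : A) : Ω) - z ^ ℓ ^ m
  rw [h2]

theorem isFrobeniusAt_pow {A : ValuationSubring Ω} {ℓ : ℕ} {σ : GQ} (hσ : A.IsFrobeniusAt σ ℓ)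
    (m : ℕ) (x : 𝓞 L) (y : 𝓞 L) (hy : (σ ^ m) ((x : L) : Ω) = ((y : L) : Ω)) :
    y - x ^ ℓ ^ m ∈ centerOn L A := by
  have h1 := pow_sub_mem_nonunits hσ m
    ((RingOfIntegers.isIntegral_coe x).map ((algebraMap L Ω).toIntAlgHom))
  rw [mem_centerOn]
  have h2 : (((y - x ^ ℓ ^ m : 𝓞 L) : L) : Ω) = (σ ^ m) ((x : L) : Ω) - ((x : L) : Ω) ^ ℓ ^ m := by
    rw [hy]
    rfl
  rw [h2]
  exact h1

end Center

end Fermat.Agent.P2.AR
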