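import Fermat.Agent.P2.AR.Split
import Fermat.Agent.P2.AR.Defs

/-!
# Chebotarev against the norm subgroups of the class group

* `exists_frob_notMem_family` : simultaneous version for finitely many subgroups;
* `cls_underE_mem_U` : classes of primes below primes with Frobenius in `Gal(F/L)`;
* `index_U_le` : `[Cl(K) : U K L] ≤ [L : K]`;
* `exists_frob_notMem_U` : existence of primes with given Frobenius and class outside `U K (L i)`.
-/

set_option autoImplicit false
set_option linter.unusedSectionVars false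

open NumberField IsDedekindDomain Filter Topology
open Fermat.Agent.Density Fermat.Agent.Density.Crossing Fermat.Agent.DedekindEuler
  Fermat.Agent.FrobDensity

namespace Fermat.Agent.P2.AR

universe u v

section Family

variable {K : Type v} [Field K] [NumberField K] {F : Type u} [Field F] [NumberField F]
  [IsGalois ℚ F] [Algebra K F] (D : Subgroup (F ≃ₐ[ℚ] F)) [IsGaloisGroup D K F]

theorem summable_class {B : Finset ℕ} (hB : BadFor F B) (U : Subgroup (ClassGroup (𝓞 K)))
    (X : Set (F ≃ₐ[ℚ] F)) {s : ℝ} (hs : 1 < s) :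
    Summable ({P | P ∈ frobSet B X ∧ cls (underE K P) ∈ U}.indicator (w s) :
      HeightOneSpectrum (𝓞 F) → ℝ) := by
  refine Summable.of_nonneg_of_le (fun P ↦ Set.indicator_nonneg (fun P _ ↦ w_nonneg s P) P)
    (fun P ↦ ?_) (summable_frobSet hB hs X)
  exact Set.indicator_le_indicator_of_subset (fun P hP ↦ hP.1) (fun P ↦ w_nonneg s P) P

include D in
/-- The primes with Frobenius `g ∉ D₀` and class in `U` have density zero. -/
theorem eventually_class_lt {B : Finset ℕ} (hB : BadFor F B) (U : Subgroup (ClassGroup (𝓞 K)))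
    (D₀ : Subgroup (F ≃ₐ[ℚ] F)) (h0 : D₀ ≤ D)
    (hn : Nat.card D ≤ U.index * Nat.card D₀)
    (h : ∀ P : HeightOneSpectrum (𝓞 F), below P ∉ B → frob P ∈ D₀ → cls (underE K P) ∈ U)
    (g : F ≃ₐ[ℚ] F) (hgD : g ∈ D) (hg : g ∉ D₀) {ε : ℝ} (hε : 0 < ε) :
    ∀ᶠ s : ℝ in 𝓝[>] 1, (∑' P : HeightOneSpectrum (𝓞 F),
      {P | P ∈ frobSet B {g} ∧ cls (underE K P) ∈ U}.indicator (w s) P) <
        ε * Real.log (1 / (s - 1)) := by
  classical
  obtain ⟨C, hC⟩ := exists_bound_class U
  let X : Finset (F ≃ₐ[ℚ] F) := (Set.toFinite (D₀ : Set (F ≃ₐ[ℚ] F))).toFinset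
  have hXm : ∀ g, g ∈ X ↔ g ∈ D₀ := fun g ↦ by
    rw [Set.Finite.mem_toFinset]
    rfl
  have hXc : X.card = Nat.card D₀ := by
    rw [← Nat.card_eq_card_finite_toFinset]
    rfl
  have hi : (0 : ℝ) < U.index := by exact_mod_cast index_pos U
  have h1 : ∀ᶠ s : ℝ in 𝓝[>] 1, (X.card : ℝ) - ε / 2 < dens F B (X : Set (F ≃ₐ[ℚ] F)) s :=
    (tendsto_dens_finset Final.cycloPrimeDensity hB X).eventually_const_lt (by linarith)
  have h2 : ∀ᶠ s : ℝ in 𝓝[>] 1, (Nat.card D : ℝ) * C / U.index / (ε / 2) <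
      Real.log (1 / (s - 1)) := tendsto_log_atTop.eventually_gt_atTop _
  filter_upwards [hC, h1, h2, eventually_log_pos, self_mem_nhdsWithin] with s hs1 hs2 hs3 hlog hs
  have hs : 1 < s := hs
  have h3 := tsum_class_frobSet D hB U hs
  -- split off the part with Frobenius in `D₀`
  have h4 : (∑' P : HeightOneSpectrum (𝓞 F), (frobSet B (X : Set (F ≃ₐ[ℚ] F))).indicator (w s) P) +
      (∑' P : HeightOneSpectrum (𝓞 F),
        {P | P ∈ frobSet B {g} ∧ cls (underE K P) ∈ U}.indicator (w s) P) ≤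
      ∑' P : HeightOneSpectrum (𝓞 F),
        {P | P ∈ frobSet B (D : Set (F ≃ₐ[ℚ] F)) ∧ cls (underE K P) ∈ U}.indicator (w s) P := by
    rw [← (summable_frobSet hB hs _).tsum_add (summable_class hB U _ hs)]
    refine Summable.tsum_le_tsum (fun P ↦ ?_)
      ((summable_frobSet hB hs _).add (summable_class hB U _ hs)) (summable_class hB U _ hs)
    by_cases hP1 : P ∈ frobSet B (X : Set (F ≃ₐ[ℚ] F))
    · have hP2 : P ∉ {P | P ∈ frobSet B {g} ∧ cls (underE K P) ∈ U} := by
        rintro ⟨hP2, -⟩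
        apply hg
        have h5 : frob P = g := hP2.2
        rw [← h5]
        exact (hXm _).mp hP1.2
      have hP3 : P ∈ {P | P ∈ frobSet B (D : Set (F ≃ₐ[ℚ] F)) ∧ cls (underE K P) ∈ U} :=
        ⟨⟨hP1.1, h0 ((hXm _).mp hP1.2)⟩, h P hP1.1 ((hXm _).mp hP1.2)⟩
      rw [Set.indicator_of_mem hP1, Set.indicator_of_notMem hP2, Set.indicator_of_mem hP3,
        add_zero]
    · rw [Set.indicator_of_notMem hP1, zero_add]
      refine Set.indicator_le_indicator_of_subset ?_ (fun P ↦ w_nonneg s P) P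
      rintro Q ⟨hQ, hQ'⟩
      refine ⟨⟨hQ.1, ?_⟩, hQ'⟩
      have h5 : frob Q = g := hQ.2
      rw [h5]
      exact hgD
  unfold dens at hs2
  rw [lt_div_iff₀ hlog, hXc] at hs2
  have h5 : (∑' v : HeightOneSpectrum (𝓞 K), {v | cls v ∈ U}.indicator (x s) v) ≤
      (Real.log (1 / (s - 1)) + C) / U.index := by
    rw [le_div_iff₀ hi, mul_comm]
    exact hs1
  have h6 : (Nat.card D : ℝ) * ((Real.log (1 / (s - 1)) + C) / U.index) ≤
      Nat.card D₀ * Real.log (1 / (s - 1)) + (Nat.card D : ℝ) * C / U.index := by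
    have h7 : (Nat.card D : ℝ) ≤ U.index * Nat.card D₀ := by exact_mod_cast hn
    have h8 : (Nat.card D : ℝ) / U.index ≤ Nat.card D₀ := by
      rw [div_le_iff₀ hi]
      linarith
    have h9 : (Nat.card D : ℝ) * ((Real.log (1 / (s - 1)) + C) / U.index) =
        (Nat.card D : ℝ) / U.index * Real.log (1 / (s - 1)) + (Nat.card D : ℝ) * C / U.index := by
      ring
    rw [h9]
    have h10 := mul_le_mul_of_nonneg_right h8 hlog.le
    linarith
  have h7 : (Nat.card D : ℝ) * C / U.index < ε / 2 * Real.log (1 / (s - 1)) := by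
    rw [div_lt_iff₀ (by linarith)] at hs3
    linarith
  have h8 := mul_le_mul_of_nonneg_left h5 (Nat.cast_nonneg (α := ℝ) (Nat.card D))
  have h9 : ((Nat.card D₀ : ℝ) - ε / 2) * Real.log (1 / (s - 1)) =
      Nat.card D₀ * Real.log (1 / (s - 1)) - ε / 2 * Real.log (1 / (s - 1)) := by ring
  have h10 : ε * Real.log (1 / (s - 1)) =
      ε / 2 * Real.log (1 / (s - 1)) + ε / 2 * Real.log (1 / (s - 1)) := by ring
  linarith

include D in
/-- **Simultaneous version** of the second half of reciprocity. -/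
theorem exists_frob_notMem_family {ι : Type*} [Finite ι] {B : Finset ℕ} (hB : BadFor F B)
    (U : ι → Subgroup (ClassGroup (𝓞 K))) (D₀ : ι → Subgroup (F ≃ₐ[ℚ] F)) (h0 : ∀ i, D₀ i ≤ D)
    (hn : ∀ i, Nat.card D ≤ (U i).index * Nat.card (D₀ i))
    (h : ∀ i, ∀ P : HeightOneSpectrum (𝓞 F), below P ∉ B → frob P ∈ D₀ i →
      cls (underE K P) ∈ U i)
    (g : F ≃ₐ[ℚ] F) (hgD : g ∈ D) :
    ∃ P : HeightOneSpectrum (𝓞 F), below P ∉ B ∧ frob P = g ∧
      ∀ i, g ∉ D₀ i → cls (underE K P) ∉ U i := by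
  classical
  have := Fintype.ofFinite ι
  by_contra hcon
  push Not at hcon
  set n : ℝ := ((Fintype.card ι : ℕ) : ℝ) with hndef
  have hn0 : (0 : ℝ) ≤ n := Nat.cast_nonneg _
  let ε : ℝ := 1 / (2 * (n + 1))
  have hε : 0 < ε := by positivity
  have h1 : ∀ᶠ s : ℝ in 𝓝[>] 1, ∀ i ∈ (Finset.univ.filter fun i ↦ g ∉ D₀ i),
      (∑' P : HeightOneSpectrum (𝓞 F),
      {P | P ∈ frobSet B {g} ∧ cls (underE K P) ∈ U i}.indicator (w s) P) <
        ε * Real.log (1 / (s - 1)) :=
    (Filter.eventually_all_finset _).mpr fun i hi ↦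
      eventually_class_lt D hB (U i) (D₀ i) (h0 i) (hn i) (h i) g hgD
        (Finset.mem_filter.mp hi).2 hε
  have h2 : ∀ᶠ s : ℝ in 𝓝[>] 1, 1 / 2 < dens F B {g} s :=
    (tendsto_dens_singleton Final.cycloPrimeDensity hB g).eventually_const_lt (by norm_num)
  obtain ⟨s, hs1, hs2, hlog, hs⟩ :=
    (h1.and (h2.and (eventually_log_pos.and self_mem_nhdsWithin))).exists
  have hs : 1 < s := hs
  unfold dens at hs2
  rw [lt_div_iff₀ hlog] at hs2
  have h3 : ∑' P : HeightOneSpectrum (𝓞 F), (frobSet B {g}).indicator (w s) P ≤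
      ∑ i ∈ Finset.univ.filter fun i ↦ g ∉ D₀ i, ∑' P : HeightOneSpectrum (𝓞 F),
        {P | P ∈ frobSet B {g} ∧ cls (underE K P) ∈ U i}.indicator (w s) P := by
    rw [← Summable.tsum_finsetSum fun i _ ↦ summable_class hB (U i) _ hs]
    refine (summable_frobSet hB hs _).tsum_le_tsum (fun P ↦ ?_)
      (summable_sum fun i _ ↦ summable_class hB (U i) _ hs)
    by_cases hP : P ∈ frobSet B {g}
    · obtain ⟨i, hi, hi'⟩ := hcon P hP.1 hP.2
      rw [Set.indicator_of_mem hP]
      have h4 : w s P = {P | P ∈ frobSet B {g} ∧ cls (underE K P) ∈ U i}.indicator (w s) P :=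
        (Set.indicator_of_mem (show P ∈ {P | P ∈ frobSet B {g} ∧ cls (underE K P) ∈ U i} from
          ⟨hP, hi'⟩) _).symm
      rw [h4]
      exact Finset.single_le_sum
        (f := fun i ↦ {P | P ∈ frobSet B {g} ∧ cls (underE K P) ∈ U i}.indicator (w s) P)
        (fun i _ ↦ Set.indicator_nonneg (fun v _ ↦ w_nonneg s v) P)
        (Finset.mem_filter.mpr ⟨Finset.mem_univ i, hi⟩)
    · rw [Set.indicator_of_notMem hP]
      exact Finset.sum_nonneg fun i _ ↦ Set.indicator_nonneg (fun v _ ↦ w_nonneg s v) P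
  have h4 : ∑ i ∈ Finset.univ.filter fun i ↦ g ∉ D₀ i, ∑' P : HeightOneSpectrum (𝓞 F),
        {P | P ∈ frobSet B {g} ∧ cls (underE K P) ∈ U i}.indicator (w s) P ≤
      ∑ i ∈ Finset.univ.filter fun i ↦ g ∉ D₀ i, ε * Real.log (1 / (s - 1)) :=
    Finset.sum_le_sum fun i hi ↦ (hs1 i hi).le
  rw [Finset.sum_const, nsmul_eq_mul] at h4
  have h5 : ((Finset.univ.filter fun i ↦ g ∉ D₀ i).card : ℝ) ≤ n := by
    rw [hndef, ← Finset.card_univ]
    exact_mod_cast Finset.card_filter_le (Finset.univ : Finset ι) _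
  have h6 : ((Finset.univ.filter fun i ↦ g ∉ D₀ i).card : ℝ) * (ε * Real.log (1 / (s - 1))) ≤
      n * (ε * Real.log (1 / (s - 1))) :=
    mul_le_mul_of_nonneg_right h5 (mul_pos hε hlog).le
  have h7 : n * ε ≤ 1 / 2 := by
    show n * (1 / (2 * (n + 1))) ≤ 1 / 2
    rw [mul_one_div, div_le_div_iff₀ (by positivity) (by norm_num)]
    linarith
  have h8 : n * (ε * Real.log (1 / (s - 1))) ≤ 1 / 2 * Real.log (1 / (s - 1)) := by
    rw [← mul_assoc]
    exact mul_le_mul_of_nonneg_right h7 hlog.le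
  linarith

end Family

section Tower

variable {K : Type*} [Field K] [NumberField K] {F : Type*} [Field F] [NumberField F]
  [IsGalois ℚ F] [Algebra K F] (L : Type*) [Field L] [NumberField L] [Algebra K L] [Algebra L F]
  [IsScalarTower K L F]

theorem mem_U {I : HeightOneSpectrum (𝓞 L)} {J : HeightOneSpectrum (𝓞 K)}
    (h : J.asIdeal = Ideal.relNorm (𝓞 K) I.asIdeal) : cls J ∈ U K L :=
  Subgroup.subset_closure ⟨⟨I.asIdeal, mem_nonZeroDivisors_of_ne_zero I.ne_bot⟩,
    ⟨J.asIdeal, mem_nonZeroDivisors_of_ne_zero J.ne_bot⟩, h, rfl⟩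

omit [IsGalois ℚ F] in
/-- the norm of a prime of degree one -/
theorem relNorm_of_prime (P : HeightOneSpectrum (𝓞 F))
    (hP : (Ideal.absNorm (underE L P).asIdeal).Prime) :
    (underE K P).asIdeal = Ideal.relNorm (𝓞 K) (underE L P).asIdeal := by
  have hP' := P.isPrime
  have h1 : (underE L P).asIdeal.IsMaximal := (underE L P).isMaximal
  have h2 : (underE K P).asIdeal.IsMaximal := (underE K P).isMaximal
  have h3 : (underE L P).asIdeal.LiesOver (underE K P).asIdeal := by
    constructor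
    show P.asIdeal.under (𝓞 K) = (P.asIdeal.under (𝓞 L)).under (𝓞 K)
    rw [Ideal.under_under]
  have h4 := Ideal.relNorm_eq_pow_of_isMaximal (R := 𝓞 K) (underE L P).asIdeal
    (underE K P).asIdeal
  have h5 := Ideal.absNorm_relNorm (𝓞 K) (𝓞 L) (underE L P).asIdeal
  rw [h4, map_pow] at h5
  rw [← h5] at hP
  rw [h4, Nat.Prime.eq_one_of_pow hP, pow_one]

theorem cls_underE_mem_U (D₀ : Subgroup (F ≃ₐ[ℚ] F)) [IsGaloisGroup D₀ L F] {B : Finset ℕ}
    (hB : BadFor F B) (P : HeightOneSpectrum (𝓞 F)) (hP : below P ∉ B) (hP' : frob P ∈ D₀) :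
    cls (underE K P) ∈ U K L :=
  mem_U L (relNorm_of_prime L P ((absNorm_underE_prime_iff L D₀ hB hP).mpr hP'))

end Tower

section Main

/-- the Galois group of `F` over a subfield, as a group of automorphisms over `ℚ` -/
abbrev galSub (K F : Type*) [Field K] [Field F] [Algebra K F] [NumberField F] :
    Subgroup (F ≃ₐ[ℚ] F) := fixingSubgroup (F ≃ₐ[ℚ] F) (Set.range (algebraMap K F))

theorem isGaloisGroup_galSub (K F : Type*) [Field K] [NumberField K] [Field F] [Algebra K F]
    [NumberField F] [IsGalois ℚ F] : IsGaloisGroup (galSub K F) K F :=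
  IsGaloisGroup.of_isScalarTower (F ≃ₐ[ℚ] F) ℚ F K

theorem mem_galSub {K F : Type*} [Field K] [Field F] [Algebra K F] [NumberField F]
    {g : F ≃ₐ[ℚ] F} : g ∈ galSub K F ↔ ∀ y : K, g (algebraMap K F y) = algebraMap K F y := by
  rw [mem_fixingSubgroup_iff]
  exact ⟨fun h y ↦ h _ ⟨y, rfl⟩, by rintro h _ ⟨y, rfl⟩; exact h y⟩

variable {K : Type v} [Field K] [NumberField K]

/-- **Chebotarev against the norm subgroups.** -/
theorem exists_frob_notMem_U {F : Type u} [Field F] [NumberField F]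
    [IsGalois ℚ F] [Algebra K F] {ι : Type*} [Finite ι] (L : ι → Type*) [∀ i, Field (L i)]
    [∀ i, NumberField (L i)] [∀ i, Algebra K (L i)] [∀ i, Algebra (L i) F]
    [∀ i, IsScalarTower K (L i) F]
    (hU : ∀ i, Module.finrank K (L i) ≤ (U K (L i)).index) (B : Finset ℕ) (g : F ≃ₐ[ℚ] F)
    (hg : ∀ y : K, g (algebraMap K F y) = algebraMap K F y) :
    ∃ P : HeightOneSpectrum (𝓞 F), below P ∉ B ∧
      (∀ σ : F ≃ₐ[ℚ] F, σ ∈ P.asIdeal.inertia (F ≃ₐ[ℚ] F) → σ = 1) ∧ frob P = g ∧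
      ∀ i, (∃ y : L i, g (algebraMap (L i) F y) ≠ algebraMap (L i) F y) →
        cls (underE K P) ∉ U K (L i) := by
  obtain ⟨B', hBB', hB'⟩ := exists_bad F B
  have hK := isGaloisGroup_galSub K F
  have hL : ∀ i, IsGaloisGroup (galSub (L i) F) (L i) F := fun i ↦ isGaloisGroup_galSub (L i) F
  obtain ⟨P, hP, hPg, hPU⟩ := exists_frob_notMem_family (galSub K F) (B := B') hB'
    (fun i ↦ U K (L i)) (fun i ↦ galSub (L i) F)
    (fun i γ hγ ↦ mem_galSub.mpr fun y ↦ by
      rw [IsScalarTower.algebraMap_apply K (L i) F]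
      exact mem_galSub.mp hγ _)
    (fun i ↦ by
      rw [IsGaloisGroup.card_eq_finrank (galSub K F) K F,
        IsGaloisGroup.card_eq_finrank (galSub (L i) F) (L i) F,
        ← Module.finrank_mul_finrank K (L i) F]
      exact Nat.mul_le_mul_right _ (hU i))
    (fun i P hP hP' ↦ cls_underE_mem_U (L i) (galSub (L i) F) hB' P hP hP') g
    (mem_galSub.mpr hg)
  refine ⟨P, fun h ↦ hP (hBB' h), hB' P hP, hPg, fun i hi ↦ hPU i fun h ↦ ?_⟩
  obtain ⟨y, hy⟩ := hi
  exact hy (mem_galSub.mp h y)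

/-- **The norm subgroup has index at most the degree.** -/
theorem index_U_le (L : Type u) [Field L] [NumberField L] [Algebra K L] :
    (U K L).index ≤ Module.finrank K L := by
  have halg : Algebra.IsAlgebraic ℚ (AlgebraicClosure L) :=
    Algebra.IsAlgebraic.trans ℚ L (AlgebraicClosure L)
  have hcl : IsAlgClosure ℚ (AlgebraicClosure L) := ⟨inferInstance, halg⟩
  have hnormal : Normal ℚ (AlgebraicClosure L) := IsAlgClosure.normal ℚ _
  let F := IntermediateField.normalClosure ℚ L (AlgebraicClosure L)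
  have hF : NumberField F := by
    have : FiniteDimensional ℚ F := normalClosure.is_finiteDimensional ℚ L (AlgebraicClosure L)
    exact { to_charZero := inferInstance, to_finiteDimensional := this }
  let _ : Algebra K F := ((algebraMap L F).comp (algebraMap K L)).toAlgebra
  have : IsScalarTower K L F := IsScalarTower.of_algebraMap_eq fun y ↦ rfl
  have hnF : Normal ℚ F := normalClosure.normal ℚ L (AlgebraicClosure L)
  have : IsGalois ℚ F := { to_isSeparable := inferInstance, to_normal := hnF }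
  obtain ⟨B, -, hB⟩ := exists_bad F ∅
  have hK := isGaloisGroup_galSub K F
  have hL := isGaloisGroup_galSub L F
  refine index_le (galSub K F) B (U K L) (galSub L F)
    (fun γ hγ ↦ mem_galSub.mpr fun y ↦ by
      rw [IsScalarTower.algebraMap_apply K L F]
      exact mem_galSub.mp hγ _) (Module.finrank K L) ?_
    (fun P hP _ hP' ↦ cls_underE_mem_U L (galSub L F) hB P hP hP')
  rw [IsGaloisGroup.card_eq_finrank (galSub K F) K F,
    IsGaloisGroup.card_eq_finrank (galSub L F) L F, Module.finrank_mul_finrank K L F]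

end Main

end Fermat.Agent.P2.AR
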