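import Fermat.Agent.P2.AR.ClassDens
import Fermat.Agent.Density.Final

/-!
# Chebotarev and class groups

* `exists_good_prime_notMem` : if `∑ 1 / [Cl : U i] < 1` there is a prime of degree one whose
  class is in none of the `U i`;
* `card_mul_index_le` : if the primes of `K` below the primes of `F` with Frobenius in
  `X ⊆ Gal(F/K)` have their classes in `U`, then `#X * [Cl : U] ≤ #Gal(F/K)`;
* `exists_frob_notMem` : the resulting existence statement.
-/

set_option autoImplicit false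

open NumberField IsDedekindDomain Filter Topology
open Fermat.Agent.Density Fermat.Agent.Density.Crossing Fermat.Agent.DedekindEuler
  Fermat.Agent.FrobDensity

namespace Fermat.Agent.P2.AR

section ClassOnly

variable {K : Type*} [Field K] [NumberField K]

theorem index_pos (U : Subgroup (ClassGroup (𝓞 K))) : 0 < U.index :=
  Nat.pos_of_ne_zero Subgroup.index_ne_zero_of_finite

/-- **A prime of degree one outside a finite family of subgroups of the class group.** -/
theorem exists_good_prime_notMem {ι : Type*} [Fintype ι] (U : ι → Subgroup (ClassGroup (𝓞 K)))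
    (hU : ∑ i, ((U i).index : ℝ)⁻¹ < 1) (B : Finset ℕ) :
    ∃ P : HeightOneSpectrum (𝓞 K), P ∈ goodSet K B ∧ ∀ i, cls P ∉ U i := by
  classical
  by_contra hcon
  push Not at hcon
  choose C hC using fun i ↦ exists_bound_class (U i)
  obtain ⟨C₀, h₀⟩ := exists_abs_tsum_good_sub_log_le K B
  have h1 : ∀ᶠ s : ℝ in 𝓝[>] 1, ∀ i ∈ (Finset.univ : Finset ι),
      ((U i).index : ℝ) * ∑' P : HeightOneSpectrum (𝓞 K), {P | cls P ∈ U i}.indicator (x s) P ≤
        Real.log (1 / (s - 1)) + C i :=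
    (Filter.eventually_all_finset _).mpr fun i _ ↦ hC i
  set a : ℝ := ∑ i, ((U i).index : ℝ)⁻¹ with ha
  have h2 : ∀ᶠ s : ℝ in 𝓝[>] 1,
      (C₀ + ∑ i, ((U i).index : ℝ)⁻¹ * C i) / (1 - a) < Real.log (1 / (s - 1)) :=
    tendsto_log_atTop.eventually_gt_atTop _
  obtain ⟨s, hs0, hs1, hs2, hs⟩ := (h₀.and (h1.and (h2.and self_mem_nhdsWithin))).exists
  have hs : 1 < s := hs
  have h3 : ∑' P : HeightOneSpectrum (𝓞 K), (goodSet K B).indicator (x s) P ≤
      ∑ i, ∑' P : HeightOneSpectrum (𝓞 K), {P | cls P ∈ U i}.indicator (x s) P := by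
    rw [← Summable.tsum_finsetSum fun i _ ↦ summable_indicator hs _]
    refine (summable_indicator hs _).tsum_le_tsum (fun P ↦ ?_)
      (summable_sum fun i _ ↦ summable_indicator hs _)
    by_cases hP : P ∈ goodSet K B
    · obtain ⟨i, hi⟩ := hcon P hP
      rw [Set.indicator_of_mem hP]
      have h4 : x s P = {P | cls P ∈ U i}.indicator (x s) P :=
        (Set.indicator_of_mem (show P ∈ {P | cls P ∈ U i} from hi) _).symm
      rw [h4]
      exact Finset.single_le_sum (f := fun i ↦ {P | cls P ∈ U i}.indicator (x s) P)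
        (fun i _ ↦ Set.indicator_nonneg (fun v _ ↦ x_nonneg s v) P) (Finset.mem_univ i)
    · rw [Set.indicator_of_notMem hP]
      exact Finset.sum_nonneg fun i _ ↦ Set.indicator_nonneg (fun v _ ↦ x_nonneg s v) P
  have h4 : ∑ i, ∑' P : HeightOneSpectrum (𝓞 K), {P | cls P ∈ U i}.indicator (x s) P ≤
      ∑ i, ((U i).index : ℝ)⁻¹ * (Real.log (1 / (s - 1)) + C i) := by
    refine Finset.sum_le_sum fun i _ ↦ ?_
    have hi : (0 : ℝ) < (U i).index := by exact_mod_cast index_pos (U i)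
    rw [inv_mul_eq_div, le_div_iff₀ hi, mul_comm]
    exact hs1 i (Finset.mem_univ i)
  have h5 : ∑ i, ((U i).index : ℝ)⁻¹ * (Real.log (1 / (s - 1)) + C i) =
      a * Real.log (1 / (s - 1)) + ∑ i, ((U i).index : ℝ)⁻¹ * C i := by
    simp only [mul_add, Finset.sum_add_distrib, ← Finset.sum_mul, ha]
  rw [abs_le] at hs0
  have h6 : 0 < 1 - a := by linarith
  rw [div_lt_iff₀ h6] at hs2
  nlinarith [hs0.1]

/-- two subgroups -/
theorem exists_good_prime_notMem₂ (U₁ U₂ : Subgroup (ClassGroup (𝓞 K)))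
    (h : U₁.index + U₂.index < U₁.index * U₂.index) (B : Finset ℕ) :
    ∃ P : HeightOneSpectrum (𝓞 K), P ∈ goodSet K B ∧ cls P ∉ U₁ ∧ cls P ∉ U₂ := by
  have h1 : (0 : ℝ) < U₁.index := by exact_mod_cast index_pos U₁
  have h2 : (0 : ℝ) < U₂.index := by exact_mod_cast index_pos U₂
  obtain ⟨P, hP, hU⟩ := exists_good_prime_notMem ![U₁, U₂] (by
    rw [Fin.sum_univ_two]
    simp only [Matrix.cons_val_zero, Matrix.cons_val_one]
    have h3 : (U₁.index : ℝ) + U₂.index < U₁.index * U₂.index := by exact_mod_cast h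
    rw [inv_add_inv h1.ne' h2.ne', div_lt_one (mul_pos h1 h2)]
    exact h3) B
  exact ⟨P, hP, hU 0, hU 1⟩

end ClassOnly

section Cheb

universe u v

variable {K : Type v} [Field K] [NumberField K] {F : Type u} [Field F] [NumberField F]
  [IsGalois ℚ F] [Algebra K F] (D : Subgroup (F ≃ₐ[ℚ] F)) [IsGaloisGroup D K F]

/-- the primes of `F` with Frobenius in `D` lying above primes with class in `U` -/
theorem tsum_class_frobSet {B : Finset ℕ} (hB : BadFor F B) (U : Subgroup (ClassGroup (𝓞 K)))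
    {s : ℝ} (hs : 1 < s) :
    ∑' P : HeightOneSpectrum (𝓞 F),
      {P | P ∈ frobSet B (D : Set (F ≃ₐ[ℚ] F)) ∧ cls (underE K P) ∈ U}.indicator (w s) P ≤
    (Nat.card D : ℝ) * ∑' v : HeightOneSpectrum (𝓞 K), {v | cls v ∈ U}.indicator (x s) v := by
  let e := Equiv.sigmaFiberEquiv (underE (L := F) K)
  let f : HeightOneSpectrum (𝓞 F) → ℝ := fun P ↦
    {P | P ∈ frobSet B (D : Set (F ≃ₐ[ℚ] F)) ∧ cls (underE K P) ∈ U}.indicator (w s) P
  have hf : ∀ P, 0 ≤ f P := fun P ↦ Set.indicator_nonneg (fun P _ ↦ w_nonneg s P) P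
  have hsummable : Summable f := by
    refine Summable.of_nonneg_of_le hf (fun P ↦ ?_) (summable_and_tsum_frobSet K D hB hs).1
    exact Set.indicator_le_indicator_of_subset (fun P hP ↦ hP.1) (fun P ↦ w_nonneg s P) P
  have hsum : ∀ v : HeightOneSpectrum (𝓞 K),
      ∑' P : {P : HeightOneSpectrum (𝓞 F) // underE K P = v}, f P.1 ≤
      (Nat.card D : ℝ) * {v | cls v ∈ U}.indicator (x s) v := by
    intro v
    by_cases hv : cls v ∈ U
    · have h1 : ∀ P : {P : HeightOneSpectrum (𝓞 F) // underE K P = v}, f P.1 =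
          {P : HeightOneSpectrum (𝓞 F) | below P ∉ B ∧ frob P ∈ D}.indicator (w s) P.1 := by
        rintro ⟨P, rfl⟩
        show Set.indicator _ _ _ = _
        by_cases hP : P ∈ {P : HeightOneSpectrum (𝓞 F) | below P ∉ B ∧ frob P ∈ D}
        · rw [Set.indicator_of_mem hP, Set.indicator_of_mem]
          exact ⟨hP, hv⟩
        · rw [Set.indicator_of_notMem hP, Set.indicator_of_notMem]
          exact fun h ↦ hP h.1
      rw [tsum_congr h1, sum_fiber K D hB s v,
        Set.indicator_of_mem (show v ∈ {v | cls v ∈ U} from hv)]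
      exact mul_le_mul_of_nonneg_left (Set.indicator_le_self' (fun v _ ↦ x_nonneg s v) v)
        (Nat.cast_nonneg _)
    · have h1 : ∀ P : {P : HeightOneSpectrum (𝓞 F) // underE K P = v}, f P.1 = 0 := by
        rintro ⟨P, rfl⟩
        exact Set.indicator_of_notMem (fun h ↦ hv h.2) _
      rw [tsum_congr h1, tsum_zero,
        Set.indicator_of_notMem (show v ∉ {v | cls v ∈ U} from hv), mul_zero]
  have hS : Summable (f ∘ e) := (Equiv.summable_iff e).mpr hsummable
  show ∑' P, f P ≤ _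
  rw [← Equiv.tsum_eq e, ← tsum_mul_left]
  change ∑' c, (f ∘ e) c ≤ _
  have hfibS : ∀ v : HeightOneSpectrum (𝓞 K),
      Summable fun P : {P : HeightOneSpectrum (𝓞 F) // underE K P = v} ↦ (f ∘ e) ⟨v, P⟩ := by
    intro v
    have := finite_fiber (L := F) K v
    exact Summable.of_finite
  rw [hS.tsum_sigma' hfibS]
  refine Summable.tsum_le_tsum (fun v ↦ hsum v) ?_ ((summable_indicator hs _).mul_left _)
  exact hS.sigma

include D in
/-- **Chebotarev against the class group.** -/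
theorem card_mul_index_le (B : Finset ℕ) (U : Subgroup (ClassGroup (𝓞 K)))
    (X : Finset (F ≃ₐ[ℚ] F)) (hX : ∀ g ∈ X, g ∈ D)
    (h : ∀ P : HeightOneSpectrum (𝓞 F), below P ∉ B →
      (∀ σ : F ≃ₐ[ℚ] F, σ ∈ P.asIdeal.inertia (F ≃ₐ[ℚ] F) → σ = 1) → frob P ∈ X →
      cls (underE K P) ∈ U) :
    X.card * U.index ≤ Nat.card D := by
  obtain ⟨B', hBB', hB'⟩ := exists_bad F B
  have hB : BadFor F B' := hB'
  obtain ⟨C, hC⟩ := exists_bound_class U
  have h1 := tendsto_dens_finset Final.cycloPrimeDensity hB X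
  have hi : (0 : ℝ) < U.index := by exact_mod_cast index_pos U
  have h2 : Tendsto (fun s : ℝ ↦ (Nat.card D : ℝ) * (1 + C / Real.log (1 / (s - 1))))
      (𝓝[>] 1) (𝓝 ((Nat.card D : ℝ) * (1 + 0))) :=
    (tendsto_const_nhds.add (tendsto_log_atTop.const_div_atTop C)).const_mul _
  have h3 : ∀ᶠ s : ℝ in 𝓝[>] 1, dens F B' (X : Set (F ≃ₐ[ℚ] F)) s * U.index ≤
      (Nat.card D : ℝ) * (1 + C / Real.log (1 / (s - 1))) := by
    filter_upwards [hC, eventually_log_pos, self_mem_nhdsWithin] with s hs1 hlog hs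
    have hs : 1 < s := hs
    have h4 : ∑' P : HeightOneSpectrum (𝓞 F),
        (frobSet B' (X : Set (F ≃ₐ[ℚ] F))).indicator (w s) P ≤
        (Nat.card D : ℝ) * ∑' v : HeightOneSpectrum (𝓞 K), {v | cls v ∈ U}.indicator (x s) v := by
      refine le_trans ?_ (tsum_class_frobSet D hB U hs)
      refine Summable.tsum_le_tsum (fun P ↦ ?_) (summable_frobSet hB hs _) ?_
      · refine Set.indicator_le_indicator_of_subset ?_ (fun P ↦ w_nonneg s P) P
        intro P hP
        exact ⟨⟨hP.1, hX _ hP.2⟩, h P (fun h' ↦ hP.1 (hBB' h')) (hB P hP.1) hP.2⟩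
      · refine Summable.of_nonneg_of_le (fun P ↦ Set.indicator_nonneg (fun P _ ↦ w_nonneg s P) P)
          (fun P ↦ ?_) (summable_and_tsum_frobSet K D hB hs).1
        exact Set.indicator_le_indicator_of_subset (fun P hP ↦ hP.1) (fun P ↦ w_nonneg s P) P
    unfold dens
    rw [div_mul_eq_mul_div, div_le_iff₀ hlog, mul_assoc, add_mul, one_mul,
      div_mul_cancel₀ _ hlog.ne']
    calc (∑' P : HeightOneSpectrum (𝓞 F),
          (frobSet B' (X : Set (F ≃ₐ[ℚ] F))).indicator (w s) P) * U.index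
        ≤ ((Nat.card D : ℝ) * ∑' v : HeightOneSpectrum (𝓞 K),
            {v | cls v ∈ U}.indicator (x s) v) * U.index :=
          mul_le_mul_of_nonneg_right h4 hi.le
      _ = (Nat.card D : ℝ) * ((U.index : ℝ) * ∑' v : HeightOneSpectrum (𝓞 K),
            {v | cls v ∈ U}.indicator (x s) v) := by ring
      _ ≤ _ := mul_le_mul_of_nonneg_left hs1 (Nat.cast_nonneg _)
  have h5 := le_of_tendsto_of_tendsto (h1.mul_const (U.index : ℝ)) h2 h3
  rw [add_zero, mul_one] at h5
  exact_mod_cast h5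

/-- **The first half of reciprocity**: if the primes which split completely in the extension
of `K` defined by `D₀` have their classes in `U` then `[Cl : U] ≤ [D : D₀]`. -/
theorem index_le (B : Finset ℕ) (U : Subgroup (ClassGroup (𝓞 K)))
    (D₀ : Subgroup (F ≃ₐ[ℚ] F)) (h0 : D₀ ≤ D) (n : ℕ) (hn : Nat.card D = n * Nat.card D₀)
    (h : ∀ P : HeightOneSpectrum (𝓞 F), below P ∉ B →
      (∀ σ : F ≃ₐ[ℚ] F, σ ∈ P.asIdeal.inertia (F ≃ₐ[ℚ] F) → σ = 1) → frob P ∈ D₀ →
      cls (underE K P) ∈ U) : U.index ≤ n := by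
  classical
  let X : Finset (F ≃ₐ[ℚ] F) := (Set.toFinite (D₀ : Set (F ≃ₐ[ℚ] F))).toFinset
  have hXm : ∀ g, g ∈ X ↔ g ∈ D₀ := fun g ↦ by
    rw [Set.Finite.mem_toFinset]
    rfl
  have h1 := card_mul_index_le D B U X (fun g hg ↦ h0 ((hXm g).mp hg))
    (fun P hP hP' hP'' ↦ h P hP hP' ((hXm _).mp hP''))
  have h2 : X.card = Nat.card D₀ := by
    rw [← Nat.card_eq_card_finite_toFinset]
    rfl
  rw [h2, hn, mul_comm n] at h1
  exact Nat.le_of_mul_le_mul_left h1 Nat.card_pos

/-- **The second half of reciprocity**: if moreover `n ≤ [Cl : U]`, then for all `g ∈ D` not in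
`D₀` there are primes with Frobenius `g` whose class is not in `U`. -/
theorem exists_frob_notMem (B : Finset ℕ) (U : Subgroup (ClassGroup (𝓞 K)))
    (D₀ : Subgroup (F ≃ₐ[ℚ] F)) (h0 : D₀ ≤ D) (n : ℕ) (hn : Nat.card D = n * Nat.card D₀)
    (h : ∀ P : HeightOneSpectrum (𝓞 F), below P ∉ B →
      (∀ σ : F ≃ₐ[ℚ] F, σ ∈ P.asIdeal.inertia (F ≃ₐ[ℚ] F) → σ = 1) → frob P ∈ D₀ →
      cls (underE K P) ∈ U) (hU : n ≤ U.index) (g : F ≃ₐ[ℚ] F) (hgD : g ∈ D) (hg : g ∉ D₀) :
    ∃ P : HeightOneSpectrum (𝓞 F), below P ∉ B ∧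
      (∀ σ : F ≃ₐ[ℚ] F, σ ∈ P.asIdeal.inertia (F ≃ₐ[ℚ] F) → σ = 1) ∧ frob P = g ∧
      cls (underE K P) ∉ U := by
  classical
  by_contra hcon
  push Not at hcon
  let X : Finset (F ≃ₐ[ℚ] F) := (Set.toFinite (D₀ : Set (F ≃ₐ[ℚ] F))).toFinset
  have hXm : ∀ g, g ∈ X ↔ g ∈ D₀ := fun g ↦ by
    rw [Set.Finite.mem_toFinset]
    rfl
  have h1 := card_mul_index_le D B U (insert g X)
    (fun g' hg' ↦ by
      rcases Finset.mem_insert.mp hg' with rfl | hg'
      · exact hgD
      · exact h0 ((hXm g').mp hg'))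
    (fun P hP hP' hP'' ↦ by
      rcases Finset.mem_insert.mp hP'' with hP'' | hP''
      · exact hcon P hP hP' hP''
      · exact h P hP hP' ((hXm _).mp hP''))
  have h2 : X.card = Nat.card D₀ := by
    rw [← Nat.card_eq_card_finite_toFinset]
    rfl
  rw [Finset.card_insert_of_notMem (fun h' ↦ hg ((hXm g).mp h')), h2, hn] at h1
  have h3 : (Nat.card D₀ + 1) * U.index ≤ U.index * Nat.card D₀ :=
    h1.trans (Nat.mul_le_mul_right _ hU)
  have h4 := index_pos U
  have h5 : (Nat.card D₀ + 1) * U.index = U.index * Nat.card D₀ + U.index := by ring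
  omega

end Cheb

end Fermat.Agent.P2.AR
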